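import Fermat.Agent.TWLoc.Inst

set_option autoImplicit false
set_option linter.style.haveILetI false

/-! Final statements for the consumer. -/

namespace Fermat.Agent.TWLoc

open IsLocalRing Fermat.Agent.TWPatch

section roots

variable {C : Type*} [Field C] [CharZero C]
  {O : Type*} [CommRing O] [IsLocalRing O] {φ : O →+* C}

/-- roots of unity of `p`-power order are congruent to one -/
theorem sub_one_mem_of_pow {p : ℕ} [Fact p.Prime] (hpO : (p : O) ∈ maximalIdeal O) {a : ℕ}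
    {ζ : O} (hζ : ζ ^ (p ^ a) = 1) : ζ - 1 ∈ maximalIdeal O := by
  haveI : CharP (ResidueField O) p := by
    refine (CharP.charP_iff_prime_eq_zero Fact.out).mpr ?_
    rw [← map_natCast (residue O)]
    exact (residue_eq_zero_iff _).mpr hpO
  rw [← residue_eq_zero_iff]
  have h1 : (residue O (ζ - 1)) ^ (p ^ a) = 0 := by
    rw [map_sub, map_one, sub_pow_char_pow, ← map_pow, hζ, map_one, one_pow, sub_self]
  exact (pow_eq_zero_iff (pow_ne_zero a (Fact.out : p.Prime).ne_zero)).mp h1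

/-- the finite sets `𝓔` for all characters at once -/
theorem exists_𝓔 {p : ℕ} [Fact p.Prime] (hp2 : p ≠ 2) (hpO : (p : O) ∈ maximalIdeal O)
    (hinj : Function.Injective φ) (h2 : IsUnit (2 : O)) {a : ℕ} {ζ : O}
    (hζ : IsPrimitiveRoot ζ (p ^ a)) :
    ∃ 𝓔 : Finset O, (∀ E ∈ 𝓔, E ∈ maximalIdeal O) ∧ (∀ E ∈ 𝓔, φ E ≠ 0) ∧
      ∀ z : C, z ^ (p ^ a) = 1 → z ≠ 1 → ∃ E ∈ 𝓔, φ E = ((z - z⁻¹) / 2) ^ 2 := by
  classical
  have hp : p.Prime := Fact.out
  obtain ⟨w2, hw2⟩ := h2.exists_right_inv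
  have h2C : (2 : C) ≠ 0 := two_ne_zero
  have hw2C : φ w2 = 1 / 2 := by
    have := congrArg φ hw2
    rw [map_mul, map_ofNat, map_one] at this
    field_simp
    linear_combination this
  have hN : 0 < p ^ a := pow_pos hp.pos a
  set g : ℕ → O := fun j => ((ζ ^ j - ζ ^ (p ^ a - j)) * w2) ^ 2 with hg
  have hζC := hζ.map_of_injective hinj
  have hφg : ∀ j ≤ p ^ a, φ (g j) = ((φ ζ ^ j - (φ ζ ^ j)⁻¹) / 2) ^ 2 := by
    intro j hj
    have h3 : φ ζ ^ (p ^ a - j) = (φ ζ ^ j)⁻¹ := by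
      refine eq_inv_of_mul_eq_one_left ?_
      rw [← pow_add, Nat.sub_add_cancel hj, hζC.pow_eq_one]
    rw [hg]
    simp only [map_pow, map_mul, map_sub]
    rw [h3, hw2C]
    ring
  refine ⟨((Finset.range (p ^ a)).filter fun j => j ≠ 0).image g, ?_, ?_, ?_⟩
  · intro E hE
    obtain ⟨j, hj, rfl⟩ := Finset.mem_image.mp hE
    have h1 : ∀ i, ζ ^ i - 1 ∈ maximalIdeal O := fun i => sub_one_mem_of_pow hpO (a := a) (by
      rw [← pow_mul, mul_comm, pow_mul, hζ.pow_eq_one, one_pow])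
    have h3 : ζ ^ j - ζ ^ (p ^ a - j) ∈ maximalIdeal O := by
      have := sub_mem (h1 j) (h1 (p ^ a - j))
      rwa [sub_sub_sub_cancel_right] at this
    exact Ideal.pow_mem_of_mem _ (Ideal.mul_mem_right _ _ h3) 2 two_pos
  · intro E hE
    obtain ⟨j, hj, rfl⟩ := Finset.mem_image.mp hE
    rw [Finset.mem_filter, Finset.mem_range] at hj
    rw [hφg j hj.1.le]
    refine pow_ne_zero _ (div_ne_zero ?_ h2C)
    intro h
    have hz0 : φ ζ ^ j ≠ 0 := pow_ne_zero _ (hζC.ne_zero hN.ne')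
    have h3 : φ ζ ^ (j * 2) = 1 := by
      rw [pow_mul, pow_two]
      nth_rewrite 2 [sub_eq_zero.mp h]
      exact mul_inv_cancel₀ hz0
    have h4 : p ^ a ∣ j * 2 := hζC.dvd_of_pow_eq_one _ h3
    have h5 : Nat.Coprime (p ^ a) 2 :=
      Nat.Coprime.pow_left a ((Nat.coprime_primes hp Nat.prime_two).mpr hp2)
    have h6 := Nat.le_of_dvd (Nat.pos_of_ne_zero hj.2) (h5.dvd_of_dvd_mul_right h4)
    omega
  · intro z hz hz1
    haveI : NeZero (p ^ a) := ⟨hN.ne'⟩
    obtain ⟨j, hj, rfl⟩ := hζC.eq_pow_of_pow_eq_one hz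
    refine ⟨g j, Finset.mem_image_of_mem _ ?_, hφg j hj.le⟩
    rw [Finset.mem_filter, Finset.mem_range]
    refine ⟨hj, ?_⟩
    rintro rfl
    exact hz1 (pow_zero _)

end roots

section embedding

variable (p : ℕ) [Fact p.Prime]

instance cnl_padicInt : CNL ℤ_[p] where
  isLocal := inferInstance
  isNoeth := inferInstance
  isCompl := inferInstance
  finRes := by
    haveI : Finite (ZMod p) := inferInstance
    exact Finite.of_equiv _ (PadicInt.residueField (p := p)).toEquiv.symm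

/-- existence of embeddings into `ℂ_[p]` -/
theorem exists_embedding (O : Type*) [CommRing O] [IsDomain O] [CNL O] [Algebra ℤ_[p] O]
    [Module.Finite ℤ_[p] O] (htf : Function.Injective (algebraMap ℤ_[p] O)) :
    ∃ (φ : O →+* ℂ_[p]) (c : ℝ), Function.Injective φ ∧ (∀ a, ‖φ a‖ ≤ 1) ∧ c < 1 ∧
      (∀ a ∈ maximalIdeal O, ‖φ a‖ ≤ c) ∧
      ∀ x : ℤ_[p], φ (algebraMap ℤ_[p] O x) = algebraMap ℚ_[p] ℂ_[p] x := by
  set j : ℤ_[p] →+* ℂ_[p] := (algebraMap ℚ_[p] ℂ_[p]).comp (algebraMap ℤ_[p] ℚ_[p]) with hj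
  have hjn : ∀ x, ‖j x‖ = ‖x‖ := by
    intro x
    rw [hj, RingHom.comp_apply, norm_algebraMap', PadicInt.algebraMap_apply]
    rfl
  have hj1 : ∀ x, ‖j x‖ ≤ 1 := fun x => by rw [hjn]; exact PadicInt.norm_le_one x
  have hjinj : Function.Injective j := by
    rw [injective_iff_map_eq_zero]
    intro x hx
    have := hjn x
    rw [hx, norm_zero] at this
    exact norm_eq_zero.mp this.symm
  haveI : FaithfulSMul ℤ_[p] O := (faithfulSMul_iff_algebraMap_injective _ _).mpr htf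
  haveI : Algebra.IsIntegral ℤ_[p] O := Algebra.IsIntegral.of_finite _ _
  have hfin : (algebraMap ℤ_[p] O).Finite := by
    rw [RingHom.finite_algebraMap]
    infer_instance
  haveI hloc : IsLocalHom (algebraMap ℤ_[p] O) := Algebra.IsIntegral.isLocalHom _ _
  letI algC : Algebra ℤ_[p] ℂ_[p] := j.toAlgebra
  haveI : Module.IsTorsionFree ℤ_[p] O := by
    rw [Module.isTorsionFree_iff_algebraMap_injective]
    exact htf
  haveI : Module.IsTorsionFree ℤ_[p] ℂ_[p] := by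
    rw [Module.isTorsionFree_iff_algebraMap_injective]
    exact hjinj
  let L : O →ₐ[ℤ_[p]] ℂ_[p] := IsAlgClosed.lift
  have hLj : (L : O →+* ℂ_[p]).comp (algebraMap ℤ_[p] O) = j := by
    ext x
    exact L.commutes x
  have hLinj : Function.Injective L := by
    rw [injective_iff_map_eq_zero]
    intro y hy
    have hker : (RingHom.ker (L : O →+* ℂ_[p])).comap (algebraMap ℤ_[p] O) = ⊥ := by
      rw [eq_bot_iff]
      intro a ha
      rw [Ideal.mem_comap, RingHom.mem_ker, ← RingHom.comp_apply, hLj] at ha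
      rw [Ideal.mem_bot]
      exact hjinj (ha.trans (map_zero j).symm)
    have h5 := Ideal.eq_bot_of_comap_eq_bot hker
    have h6 : y ∈ RingHom.ker (L : O →+* ℂ_[p]) := hy
    rw [h5] at h6
    exact h6
  have hm : ∀ a ∈ maximalIdeal ℤ_[p], ‖j a‖ ≤ (p : ℝ)⁻¹ := by
    intro a ha
    rw [hjn]
    rw [PadicInt.maximalIdeal_eq_span_p, Ideal.mem_span_singleton] at ha
    obtain ⟨b, rfl⟩ := ha
    rw [norm_mul, PadicInt.norm_p]
    exact mul_le_of_le_one_right (by positivity) (PadicInt.norm_le_one b)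
  have hp1 : (p : ℝ)⁻¹ < 1 := by
    have : (1 : ℝ) < p := by exact_mod_cast (Fact.out : p.Prime).one_lt
    exact inv_lt_one_of_one_lt₀ this
  obtain ⟨M, hM1, hM⟩ := exists_contr (algebraMap ℤ_[p] O) hj1 hfin hp1 hm
  refine ⟨(L : O →+* ℂ_[p]), M, hLinj, ?_, hM1, fun a ha => hM _ hLj a ha, fun x => ?_⟩
  · exact norm_le_one_of_finite (algebraMap ℤ_[p] O) hj1 hfin hLj
  · exact L.commutes x

theorem norm_p_lt : ‖((p : ℕ) : ℂ_[p])‖ < 1 := by
  have h1 : ((p : ℕ) : ℂ_[p]) = algebraMap ℚ_[p] ℂ_[p] (p : ℚ_[p]) := by rw [map_natCast]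
  rw [h1, norm_algebraMap', Padic.norm_p]
  have : (1 : ℝ) < p := by exact_mod_cast (Fact.out : p.Prime).one_lt
  exact inv_lt_one_of_one_lt₀ this

end embedding

section final

variable {C : Type*} [NontriviallyNormedField C] [IsUltrametricDist C] [CompleteSpace C]
  [CharZero C] [IsAlgClosed C]
variable {ι κ : Type*} [Fintype ι] [Fintype κ] {n : ℕ}
  (e : (ι × Fin 6) ⊕ κ ≃ Fin n) {O : Type*} [CommRing O] [CNL O] {φ : O →+* C}
  (hφ : ∀ a, ‖φ a‖ ≤ 1)
variable {p : ℕ} (hp : p.Prime) (hp2 : p ≠ 2) (hpC : ‖(p : C)‖ < 1) (h2 : IsUnit (2 : O))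
  {q : ι → ℕ} {ε : ι → O} (hε : ∀ i, ε i ^ 2 = 1) {a m : ι → ℕ}
  (hqm : ∀ i, q i = p ^ a i * m i + 1) (ha : ∀ i, a i ≠ 0) (hm : ∀ i, ¬ p ∣ m i)
  (hpO : (p : O) ∈ maximalIdeal O)
  {c : ℝ} (hc1 : c < 1) (hc : ∀ a ∈ maximalIdeal O, ‖φ a‖ ≤ c)

include hqm ha hpO in
omit [Fintype ι] in
theorem q_sub_one_mem (i : ι) : (q i : O) - 1 ∈ maximalIdeal O := by
  rw [hqm, Nat.cast_add, Nat.cast_one, add_sub_cancel_right, Nat.cast_mul, Nat.cast_pow]
  exact Ideal.mul_mem_right _ _ (Ideal.pow_mem_of_mem _ hpO _ (Nat.pos_of_ne_zero (ha i)))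

include hqm hm in
omit [Fintype ι] in
theorem one_lt_q (hp : p.Prime) (i : ι) : 1 < q i := by
  have h1 : m i ≠ 0 := fun h => hm i (h ▸ dvd_zero p)
  have h2 : 0 < p ^ a i * m i := Nat.mul_pos (pow_pos hp.pos _) (Nat.pos_of_ne_zero h1)
  rw [hqm]
  omega

section

variable {R : Type*} [CommRing R] [CNL R] (θ : O →+* R) [IsLocalHom θ] (hfin : θ.Finite)
  {J : Type*} (ψ : J → R →+* C) (hψ : ∀ j, (ψ j).comp θ = φ)
  (hsep : ∀ r, (∀ j, ψ j r = 0) → r = 0)
  (ev : MvPowerSeries (Fin n) O →+* R) [IsLocalHom ev] (hev : ∀ a, ev (MvPowerSeries.C a) = θ a)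
  (hrel : ∀ i, (FU e (fun i => (q i : O)) ε i).map ev * (SU e i).map ev =
    ((SU e i).map ev) ^ (q i) * (FU e (fun i => (q i : O)) ε i).map ev)

omit [Fintype ι] [Fintype κ] [CompleteSpace C] [IsUltrametricDist C] [CharZero C]
  [IsAlgClosed C] [CNL R] [IsLocalHom ev] [CNL O] [CommRing O] [NontriviallyNormedField C] in
theorem trace_comp {A B D : Type*} [CommRing A] [CommRing B] [CommRing D] (f : A →+* B)
    (g : B →+* D) (M : Matrix (Fin 2) (Fin 2) A) :
    (M.map (g.comp f)).trace = g ((M.map f).trace) := by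
  rw [Matrix.trace_fin_two, Matrix.trace_fin_two, map_add]
  rfl

omit [Fintype ι] [Fintype κ] [CompleteSpace C] [IsUltrametricDist C] [CharZero C]
  [IsAlgClosed C] [CNL R] [IsLocalHom ev] in
include hrel in
theorem rel_comp (ψ : R →+* C) : Rel e q ε (ψ.comp ev) := by
  intro i
  have h1 := congrArg (fun M : Matrix (Fin 2) (Fin 2) R => M.map ψ) (hrel i)
  simp only [Matrix.map_mul, Matrix.map_map] at h1
  have h3 : ∀ (M : Matrix (Fin 2) (Fin 2) R) (k : ℕ), (M ^ k).map ψ = (M.map ψ) ^ k :=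
    fun M k => map_pow (ψ.mapMatrix) M k
  rw [h3, Matrix.map_map] at h1
  exact h1

include hφ hp hp2 hpC hε hqm ha hm hpO h2 hc1 hc hfin hψ hsep hev hrel in
omit [Fintype ι] [Fintype κ] in
/-- **(P) for type χ**: the algebra `R` (finite over `O`, with jointly injective points `ψ j`)
is killed by `I2` if all points are ramified of type `χ`. -/
theorem ev_I2_eq_zero {𝓔 : ι → Finset O}
    (h𝓔 : ∀ i, ∀ z : C, z ^ (p ^ a i) = 1 → z ≠ 1 → ∃ E ∈ 𝓔 i, φ E = ((z - z⁻¹) / 2) ^ 2)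
    (htr : ∀ j i, ψ j (((SU e i).map ev).trace) ≠ 2) :
    ∀ f ∈ I2 e hφ 𝓔, ev f = 0 := by
  intro f hf
  apply hsep
  intro j
  refine kill_I2 e hφ hp hp2 hpC hε (q_sub_one_mem hqm ha hpO) hqm ha hm h𝓔
    (contr_comp θ hφ hfin hc1 hc ev hev (hψ j)) (rel_comp e ev hrel (ψ j)) (fun i => ?_) hf h2
  have h1 := htr j i
  rw [trace_comp]
  exact h1

include hφ hp hp2 hpC hε hqm ha hm hpO h2 hc1 hc hfin hψ hsep hev hrel in
omit [Fintype ι] [Fintype κ] [IsAlgClosed C] in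
/-- **(P) for type 1**: the algebra `R` (finite over `O`, with jointly injective points `ψ j`)
is killed by `I1` if inertia is unipotent (`tr Σ = 2`). -/
theorem ev_I1_eq_zero {k : ι → O} (hk : ∀ i, 2 * k i = ε i * (q i - 1))
    (htr : ∀ j i, ψ j (((SU e i).map ev).trace) = 2) :
    ∀ f ∈ I1 e hφ k, ev f = 0 := by
  intro f hf
  apply hsep
  intro j
  refine kill_I1 e hφ hp hp2 hpC hε (q_sub_one_mem hqm ha hpO) (one_lt_q hqm hm hp) hk
    (fun a ha => (hc a ha).trans_lt hc1)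
    (contr_comp θ hφ hfin hc1 hc ev hev (hψ j)) (rel_comp e ev hrel (ψ j)) (fun i => ?_) hf h2
  rw [trace_comp]
  exact htr j i

include hφ hp hp2 hpC hε hqm ha hm hpO h2 hc1 hc hfin hψ hsep hev hrel in
omit [Fintype ι] [Fintype κ] [IsAlgClosed C] in
/-- **(P) for components of type 1**: all points are unramified outside `T` and Steinberg
(ramified, or with the Steinberg value of the trace of Frobenius) at `T`. -/
theorem ev_𝔭T_eq_zero {k : ι → O} (hk : ∀ i, 2 * k i = ε i * (q i - 1)) (T : ι → Bool)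
    (htr : ∀ j i, ψ j (((SU e i).map ev).trace) = 2)
    (hT0 : ∀ j i, T i = false → ((SU e i).map ev).map (ψ j) = 1)
    (hT1 : ∀ j i, T i = true → ((SU e i).map ev).map (ψ j) ≠ 1 ∨
      (ψ j (((FU e (fun i => (q i : O)) ε i).map ev).trace)) ^ 2 = ((q i : C) + 1) ^ 2) :
    ∀ f ∈ 𝔭T e hφ k T, ev f = 0 := by
  intro f hf
  apply hsep
  intro j
  refine kill_𝔭T e hφ hp hp2 hpC hε (q_sub_one_mem hqm ha hpO) (one_lt_q hqm hm hp) hk
    (fun a ha => (hc a ha).trans_lt hc1)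
    (contr_comp θ hφ hfin hc1 hc ev hev (hψ j)) (rel_comp e ev hrel (ψ j)) (fun i => ?_) T
    (fun i hi => ?_) (fun i hi => ?_) hf h2
  · rw [trace_comp]
    exact htr j i
  · have := hT0 j i hi
    rwa [Matrix.map_map] at this
  · rcases hT1 j i hi with h | h
    · left
      rwa [Matrix.map_map] at h
    · right
      rw [trace_comp]
      exact h

end

end final

end Fermat.Agent.TWLoc
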