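import Fermat.Agent.TWLoc.Ideals

set_option autoImplicit false
set_option linter.style.haveILetI false

/-! Power series that are non-zero modulo the maximal ideal take large values. -/

namespace Fermat.Agent.TWLoc

open Filter Topology MvPowerSeries IsLocalRing

theorem digits_inj {σ : Type*} [Fintype σ] {n B : ℕ} (idx : σ ≃ Fin n) {d d' : σ → ℕ}
    (hd : ∀ i, d i < B) (hd' : ∀ i, d' i < B)
    (h : ∑ i, d i * B ^ (idx i : ℕ) = ∑ i, d' i * B ^ (idx i : ℕ)) : d = d' := by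
  let f : Fin n → Fin B := fun j => ⟨d (idx.symm j), hd _⟩
  let f' : Fin n → Fin B := fun j => ⟨d' (idx.symm j), hd' _⟩
  have h1 : finFunctionFinEquiv f = finFunctionFinEquiv f' := by
    apply Fin.ext
    rw [finFunctionFinEquiv_apply, finFunctionFinEquiv_apply]
    rw [← idx.sum_comp, ← idx.sum_comp]
    simpa [f, f'] using h
  have h2 := finFunctionFinEquiv.injective h1
  funext i
  have h3 := congrArg Fin.val (congrFun h2 (idx i))
  simpa [f, f'] using h3

variable {C : Type*} [NontriviallyNormedField C] [IsUltrametricDist C]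
  {σ : Type*} [Fintype σ] {O : Type*} [CommRing O] [IsLocalRing O] {φ : O →+* C}

omit [IsUltrametricDist C] in
theorem norm_unit_eq_one (hφ : ∀ a, ‖φ a‖ ≤ 1) {a : O} (ha : a ∉ maximalIdeal O) : ‖φ a‖ = 1 := by
  rw [mem_maximalIdeal, mem_nonunits_iff, not_not] at ha
  obtain ⟨u, rfl⟩ := ha
  refine le_antisymm (hφ _) ?_
  have h1 : φ (u : O) * φ ((u⁻¹ : Oˣ) : O) = 1 := by rw [← map_mul, Units.mul_inv, map_one]
  have h2 : ‖φ (u : O)‖ * ‖φ ((u⁻¹ : Oˣ) : O)‖ = 1 := by rw [← norm_mul, h1, norm_one]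
  calc (1 : ℝ) = ‖φ (u : O)‖ * ‖φ ((u⁻¹ : Oˣ) : O)‖ := h2.symm
    _ ≤ ‖φ (u : O)‖ * 1 := mul_le_mul_of_nonneg_left (hφ _) (norm_nonneg _)
    _ = _ := mul_one _

open Classical in
theorem exists_large [IsAlgClosed C] [CompleteSpace C] (hφ : ∀ a, ‖φ a‖ ≤ 1) {c : ℝ} (hc0 : 0 ≤ c)
    (hc1 : c < 1) (hc : ∀ a ∈ maximalIdeal O, ‖φ a‖ ≤ c) {g : MvPowerSeries σ O}
    (hg : MvPowerSeries.map (residue O) g ≠ 0) {ρ : ℝ} (hρ : ρ < 1) :
    ∃ y : σ → C, (∀ i, ‖y i‖ < 1) ∧ ρ < ‖ev φ y g‖ := by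
  let U : Set (σ →₀ ℕ) := {d | coeff d g ∉ maximalIdeal O}
  have hU : U.Nonempty := by
    by_contra h
    rw [Set.not_nonempty_iff_eq_empty] at h
    apply hg
    ext d
    rw [coeff_map, map_zero, residue_eq_zero_iff]
    by_contra h'
    have : d ∈ U := h'
    rw [h] at this
    exact this
  -- minimal degree
  obtain ⟨d1, hd1, hdeg1⟩ : ∃ d1 ∈ U, ∀ d ∈ U, deg d1 ≤ deg d := by
    obtain ⟨d1, h1, h2⟩ := (measure (deg : (σ →₀ ℕ) → ℕ)).wf.has_min U hU
    exact ⟨d1, h1, fun d hd => not_lt.mp (h2 d hd)⟩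
  set D := deg d1 with hD
  set n := Fintype.card σ with hn
  let idx : σ ≃ Fin n := Fintype.equivFin σ
  set B := D + 1 with hB
  set K := D * B ^ n + 1 with hK
  let v : (σ →₀ ℕ) → ℕ := fun d => ∑ i, d i * B ^ (idx i : ℕ)
  let w : (σ →₀ ℕ) → ℕ := fun d => ∑ i, d i * (K + B ^ (idx i : ℕ))
  have hw : ∀ d, w d = K * deg d + v d := by
    intro d
    simp only [w, v, deg, mul_add, Finset.sum_add_distrib, Finset.mul_sum]
    congr 1
    exact Finset.sum_congr rfl fun i _ => mul_comm _ _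
  have hv : ∀ d, v d ≤ deg d * B ^ n := by
    intro d
    simp only [v, deg, Finset.sum_mul]
    exact Finset.sum_le_sum fun i _ => Nat.mul_le_mul_left _
      (Nat.pow_le_pow_right (by omega) (idx i).2.le)
  obtain ⟨d0, hd0, hw0⟩ : ∃ d0 ∈ U, ∀ d ∈ U, w d0 ≤ w d := by
    obtain ⟨d0, h1, h2⟩ := (measure w).wf.has_min U hU
    exact ⟨d0, h1, fun d hd => not_lt.mp (h2 d hd)⟩
  have hdegmin : ∀ d ∈ U, w d ≤ w d0 → deg d = D := by
    intro d hd hle
    have h1 := hdeg1 d hd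
    by_contra hne
    have h2 : D + 1 ≤ deg d := by omega
    have h3 := hw0 d1 hd1
    have h4 := hv d1
    rw [hw d] at hle
    rw [hw d1] at h3
    have h5 : K * (D + 1) ≤ K * deg d := Nat.mul_le_mul_left _ h2
    have h6 : K * (D + 1) = K * D + K := by ring
    rw [← hD] at h3 h4
    omega
  have hdigit : ∀ d : σ →₀ ℕ, deg d = D → ∀ i, d i < B := by
    intro d hd i
    have : d i ≤ deg d := Finset.single_le_sum (fun j _ => Nat.zero_le (d j)) (Finset.mem_univ i)
    omega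
  have huniq : ∀ d ∈ U, d ≠ d0 → w d0 < w d := by
    intro d hd hne
    by_contra hcon
    have h1 : w d ≤ w d0 := not_lt.mp hcon
    have h2 : w d = w d0 := le_antisymm h1 (hw0 d hd)
    have h3 := hdegmin d hd h1
    have h4 := hdegmin d0 hd0 le_rfl
    have h5 : v d = v d0 := by
      rw [hw, hw, h3, h4] at h2
      omega
    exact hne (DFunLike.coe_injective (digits_inj idx (hdigit d h3) (hdigit d0 h4) h5))
  set m := w d0 with hm
  -- the radius
  obtain ⟨x, hx0, hx1, hxm⟩ : ∃ x : C, 0 < ‖x‖ ∧ ‖x‖ < 1 ∧ max c ρ < ‖x‖ ^ m := by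
    have hcont : ContinuousAt (fun r : ℝ => r ^ m) 1 := by fun_prop
    have h3 : max c ρ < (fun r : ℝ => r ^ m) 1 := by simpa using ⟨hc1, hρ⟩
    have h4 : ∀ᶠ r in 𝓝 (1 : ℝ), max c ρ < r ^ m := hcont.eventually_const_lt h3
    obtain ⟨l, b, hb, hb2⟩ := (mem_nhds_iff_exists_Ioo_subset.mp h4)
    obtain ⟨x, hx1, hx2⟩ := exists_norm_between (C := C) (a := max (1 / 2) l) (b := 1)
      (lt_max_of_lt_left (by norm_num)) (max_lt (by norm_num) hb.1)
    refine ⟨x, lt_trans (lt_max_of_lt_left (by norm_num)) hx1, hx2, ?_⟩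
    exact hb2 ⟨(le_max_right _ _).trans_lt hx1, hx2.trans hb.2⟩
  let y : σ → C := fun i => x ^ (K + B ^ (idx i : ℕ))
  have hy : ∀ i, ‖y i‖ < 1 := fun i => by
    show ‖x ^ (K + B ^ (idx i : ℕ))‖ < 1
    rw [norm_pow]
    exact pow_lt_one₀ (norm_nonneg _) hx1 (by omega)
  have hmon : ∀ d, mon y d = x ^ w d := by
    intro d
    simp only [mon, y, w, ← pow_mul]
    rw [← Finset.prod_pow_eq_pow_sum]
    exact Finset.prod_congr rfl fun i _ => by rw [mul_comm]
  refine ⟨y, hy, ?_⟩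
  -- split off the main term
  set g' : MvPowerSeries σ O := g - monomial d0 (coeff d0 g) with hg'
  have hcg' : ∀ d, coeff d g' = if d = d0 then 0 else coeff d g := by
    intro d
    rw [hg', map_sub, coeff_monomial]
    split_ifs with h
    · rw [h, sub_self]
    · rw [sub_zero]
  have hev : ev φ y g = ev φ y g' + term φ y g d0 := by
    have h1 : g = g' + monomial d0 (coeff d0 g) := by rw [hg']; ring
    conv_lhs => rw [h1]
    rw [ev_add hφ hy]
    congr 1
    rw [ev, tsum_eq_single d0]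
    · rw [term, term, coeff_monomial, if_pos rfl]
    · intro d hd
      rw [term, coeff_monomial, if_neg hd, map_zero, zero_mul]
  have hmain : ‖term φ y g d0‖ = ‖x‖ ^ m := by
    rw [term, norm_mul, norm_unit_eq_one hφ hd0, one_mul, hmon, norm_pow]
  have hrest : ‖ev φ y g'‖ ≤ max c (‖x‖ ^ (m + 1)) := by
    rw [ev]
    refine (IsUltrametricDist.norm_tsum_le _).trans (Real.iSup_le (fun d => ?_)
      (le_max_of_le_left hc0))
    rw [term, hcg', norm_mul, hmon, norm_pow]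
    split_ifs with h
    · rw [map_zero, norm_zero, zero_mul]; exact le_max_of_le_left hc0
    · by_cases hd : d ∈ U
      · refine le_max_of_le_right ?_
        calc ‖φ (coeff d g)‖ * ‖x‖ ^ w d ≤ 1 * ‖x‖ ^ w d :=
              mul_le_mul_of_nonneg_right (hφ _) (by positivity)
          _ = ‖x‖ ^ w d := one_mul _
          _ ≤ ‖x‖ ^ (m + 1) := pow_le_pow_of_le_one hx0.le hx1.le (huniq d hd h)
      · refine le_max_of_le_left ?_
        have hd' : coeff d g ∈ maximalIdeal O := not_not.mp hd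
        calc ‖φ (coeff d g)‖ * ‖x‖ ^ w d ≤ c * 1 := mul_le_mul (hc _ hd')
              (pow_le_one₀ hx0.le hx1.le) (by positivity) hc0
          _ = c := mul_one _
  have hlt : ‖ev φ y g'‖ < ‖x‖ ^ m := by
    refine hrest.trans_lt (max_lt ((le_max_left _ _).trans_lt hxm) ?_)
    rw [pow_succ]
    exact mul_lt_of_lt_one_right (by positivity) hx1
  have hge : ‖x‖ ^ m ≤ ‖ev φ y g‖ := by
    have h1 : ‖term φ y g d0‖ ≤ max ‖ev φ y g‖ ‖ev φ y g'‖ := by
      have e : term φ y g d0 = ev φ y g - ev φ y g' := by rw [hev]; ring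
      rw [e]; exact nsub_le_max _ _
    rw [hmain] at h1
    rcases le_max_iff.mp h1 with h | h
    · exact h
    · exact absurd hlt (not_lt.mpr h)
  exact ((le_max_right c ρ).trans_lt hxm).trans_le hge

omit [IsLocalRing O] in
/-- power series are Lipschitz -/
theorem ev_lipschitz [CompleteSpace C] (hφ : ∀ a, ‖φ a‖ ≤ 1) {P Q : σ → C} (hP : ∀ i, ‖P i‖ < 1)
    (hQ : ∀ i, ‖Q i‖ < 1) {δ : ℝ} (hδ : 0 ≤ δ) (h : ∀ i, ‖P i - Q i‖ ≤ δ) (f : MvPowerSeries σ O) :
    ‖ev φ P f - ev φ Q f‖ ≤ δ := by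
  classical
  have hpow : ∀ (a b : C), ‖a‖ < 1 → ‖b‖ < 1 → ‖a - b‖ ≤ δ → ∀ n : ℕ, ‖a ^ n - b ^ n‖ ≤ δ := by
    intro a b ha hb hab n
    induction n with
    | zero => simpa using hδ
    | succ n ih =>
      have e : a ^ (n + 1) - b ^ (n + 1) = a ^ n * (a - b) + (a ^ n - b ^ n) * b := by ring
      rw [e]
      refine (IsUltrametricDist.norm_add_le_max _ _).trans (max_le ?_ ?_)
      · rw [norm_mul, norm_pow]
        calc ‖a‖ ^ n * ‖a - b‖ ≤ 1 * δ := mul_le_mul (pow_le_one₀ (norm_nonneg _) ha.le) hab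
              (norm_nonneg _) zero_le_one
          _ = δ := one_mul _
      · rw [norm_mul]
        calc ‖a ^ n - b ^ n‖ * ‖b‖ ≤ δ * 1 := mul_le_mul ih hb.le (norm_nonneg _) hδ
          _ = δ := mul_one _
  have hmon : ∀ d, ‖mon P d - mon Q d‖ ≤ δ := by
    intro d
    have key : ∀ s : Finset σ, ‖∏ i ∈ s, P i ^ d i - ∏ i ∈ s, Q i ^ d i‖ ≤ δ := by
      intro s
      induction s using Finset.induction_on with
      | empty => simpa using hδ
      | insert i s hi ih =>
        rw [Finset.prod_insert hi, Finset.prod_insert hi]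
        have e : P i ^ d i * ∏ i ∈ s, P i ^ d i - Q i ^ d i * ∏ i ∈ s, Q i ^ d i =
            P i ^ d i * (∏ i ∈ s, P i ^ d i - ∏ i ∈ s, Q i ^ d i) +
            (P i ^ d i - Q i ^ d i) * ∏ i ∈ s, Q i ^ d i := by ring
        rw [e]
        refine (IsUltrametricDist.norm_add_le_max _ _).trans (max_le ?_ ?_)
        · rw [norm_mul, norm_pow]
          calc ‖P i‖ ^ d i * _ ≤ 1 * δ := mul_le_mul (pow_le_one₀ (norm_nonneg _) (hP i).le) ih
                (norm_nonneg _) zero_le_one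
            _ = δ := one_mul _
        · rw [norm_mul, norm_prod]
          have h1 : ∏ i ∈ s, ‖Q i ^ d i‖ ≤ 1 :=
            Finset.prod_le_one (fun i _ => norm_nonneg _) fun i _ => by
              rw [norm_pow]; exact pow_le_one₀ (norm_nonneg _) (hQ i).le
          calc _ ≤ δ * 1 := mul_le_mul (hpow _ _ (hP i) (hQ i) (h i) _) h1
                (Finset.prod_nonneg fun i _ => norm_nonneg _) hδ
            _ = δ := mul_one _
    exact key Finset.univ
  rw [ev, ev, ← (summable_term hφ hP f).tsum_sub (summable_term hφ hQ f)]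
  refine (IsUltrametricDist.norm_tsum_le _).trans (Real.iSup_le (fun d => ?_) hδ)
  rw [term, term, ← mul_sub, norm_mul]
  calc _ ≤ 1 * δ := mul_le_mul (hφ _) (hmon d) (norm_nonneg _) zero_le_one
    _ = δ := one_mul _

end Fermat.Agent.TWLoc
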