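import Fermat.Agent.TWLoc.Special

set_option autoImplicit false
set_option linter.style.haveILetI false

/-! Type `χ` components specialise to every component of the special fibre. -/

namespace Fermat.Agent.TWLoc

open Filter Topology MvPowerSeries IsLocalRing

variable {C : Type*} [NontriviallyNormedField C] [IsUltrametricDist C] [CompleteSpace C]
variable {ι κ : Type*} [Fintype ι] [Fintype κ] {τ : Type*} [Fintype τ]
  (e : (ι × Fin 6) ⊕ κ ≃ τ) {O : Type*} [CommRing O] [IsLocalRing O] {φ : O →+* C}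
  (hφ : ∀ a, ‖φ a‖ ≤ 1)

/-- product sets of points -/
def TotE (X : ι → Set (Fin 6 → C)) : Set (τ → C) := {P | (fun t => P (e t)) ∈ Tot κ X}

include hφ in
omit [IsLocalRing O] in
theorem ev_sT (T : ι → Bool) {y : (ι × Fin 4) ⊕ κ → C} (hy : ∀ s, ‖y s‖ < 1)
    (f : MvPowerSeries τ O) : ev φ y (sT e O T f) = ev φ (fun t => pT T y (e.symm t)) f := by
  obtain ⟨M, hM0, hM1, hM⟩ := exists_bound hy
  have h1 := hom_eq_ev hφ (ψ := (evHom hφ hy).comp (sT e O T)) (κ := M) (fun a => by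
    rw [RingHom.comp_apply, sT_C, evHom_apply, ev_C]) hM0.le hM1 (fun f hf => by
    rw [RingHom.comp_apply, evHom_apply]
    have := norm_ev_le hφ hM0.le hM1.le hM (f := sT e O T f) (N := 1) (fun d hd => by
      have hd0 : d = 0 := by
        ext i
        have h2 : d i ≤ deg d := Finset.single_le_sum (fun j _ => Nat.zero_le (d j))
          (Finset.mem_univ i)
        have h3 : deg d = 0 := by omega
        show d i = 0
        omega
      rw [hd0]
      exact constantCoeff_sT e T hf)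
    rwa [pow_one] at this) f
  rw [RingHom.comp_apply, evHom_apply] at h1
  rw [h1]
  congr 1
  funext t
  have h2 : (X t : MvPowerSeries τ O) = X (e (e.symm t)) := by rw [Equiv.apply_symm_apply]
  rw [h2, RingHom.comp_apply, sT_X, map_aT]
  congr 1
  funext s
  rw [evHom_apply, ev_X]

/-- auxiliary elements -/
noncomputable def gT (R : Type*) [CommRing R] (T : ι → Bool) (i : ι) :
    MvPowerSeries ((ι × Fin 4) ⊕ κ) R :=
  if T i then X (Sum.inl (i, 0)) * X (Sum.inl (i, 2))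
  else X (Sum.inl (i, 0)) ^ 2 + X (Sum.inl (i, 1)) * X (Sum.inl (i, 2))

omit [Fintype ι] [Fintype κ] in
theorem quad_ne_zero {σ : Type*} (k : Type*) [CommRing k] [Nontrivial k] {a b c : σ}
    (hab : a ≠ b) : (X a ^ 2 + X b * X c : MvPowerSeries σ k) ≠ 0 := by
  classical
  intro h
  have h1 := congrArg (coeff (Finsupp.single a 2)) h
  have hne : Finsupp.single a 2 ≠ Finsupp.single b 1 + Finsupp.single c 1 := by
    intro h2
    have h3 := DFunLike.congr_fun h2 b
    rw [Finsupp.single_apply, if_neg hab, Finsupp.add_apply, Finsupp.single_eq_same] at h3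
    omega
  rw [map_add, coeff_X_pow, if_pos rfl, X_def, X_def, monomial_mul_monomial,
    coeff_monomial, if_neg hne, add_zero, map_zero] at h1
  exact one_ne_zero h1

omit [Fintype ι] [Fintype κ] in
theorem X_ne {σ : Type*} (k : Type*) [CommRing k] [Nontrivial k] (s : σ) :
    (X s : MvPowerSeries σ k) ≠ 0 := by
  classical
  intro h
  have h1 := congrArg (coeff (Finsupp.single s 1)) h
  rw [coeff_X, if_pos rfl, map_zero] at h1
  exact one_ne_zero h1

omit [Fintype ι] [Fintype κ] in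
theorem gT_ne_zero (k : Type*) [Field k] (T : ι → Bool) (i : ι) :
    gT (κ := κ) k T i ≠ 0 := by
  unfold gT
  split_ifs
  · exact mul_ne_zero (X_ne k _) (X_ne k _)
  · exact quad_ne_zero k (by simp)

omit [Fintype ι] [Fintype κ] in
theorem map_gT (T : ι → Bool) (i : ι) :
    MvPowerSeries.map (residue O) (gT (κ := κ) O T i) = gT (ResidueField O) T i := by
  unfold gT
  split_ifs <;> simp

include hφ in
theorem II_le_QT [IsAlgClosed C] {c : ℝ} (hc0 : 0 ≤ c) (hc1 : c < 1)
    (hc : ∀ a ∈ maximalIdeal O, ‖φ a‖ ≤ c) {E : ι → C} (hE1 : ∀ i, ‖E i‖ < 1) (T : ι → Bool) :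
    II hφ (TotE e fun i => XE (E i)) ≤ QT e O T := by
  classical
  intro f hf
  by_contra hfQ
  have hS : spT e O T f ≠ 0 := fun h => hfQ (RingHom.mem_ker.mpr h)
  -- the radius
  obtain ⟨M, hM0, hM1, hM⟩ := exists_bound hE1
  obtain ⟨ρ, hρ0, hρ1, hρM⟩ : ∃ ρ : ℝ, 0 < ρ ∧ ρ < 1 ∧ M < ρ ^ 6 := by
    have hcont : ContinuousAt (fun r : ℝ => r ^ 6) 1 := by fun_prop
    have h4 : ∀ᶠ r in 𝓝 (1 : ℝ), M < r ^ 6 := hcont.eventually_const_lt (by simpa using hM1)
    obtain ⟨l, b, hb, hb2⟩ := (mem_nhds_iff_exists_Ioo_subset.mp h4)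
    obtain ⟨r, hr1, hr2⟩ := exists_between (max_lt one_pos hb.1 : max (0 : ℝ) l < 1)
    exact ⟨r, (le_max_left _ _).trans_lt hr1, hr2,
      hb2 ⟨(le_max_right _ _).trans_lt hr1, hr2.trans hb.2⟩⟩
  have hE : ∀ i, ‖E i‖ < ρ ^ 6 := fun i => (hM i).trans_lt hρM
  -- the auxiliary power series
  have hG : MvPowerSeries.map (residue O) (sT e O T f * ∏ i, gT O T i) ≠ 0 := by
    rw [map_mul, map_prod]
    refine mul_ne_zero hS (Finset.prod_ne_zero_iff.mpr fun i _ => ?_)
    rw [map_gT]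
    exact gT_ne_zero _ T i
  obtain ⟨y, hy, hyG⟩ := exists_large hφ hc0 hc1 hc hG hρ1
  rw [ev_mul hφ hy, norm_mul] at hyG
  have hprod : ev φ y (∏ i, gT (κ := κ) O T i) = ∏ i, ev φ y (gT (κ := κ) O T i) :=
    map_prod (evHom hφ hy) _ _
  have hle1 : ∀ g : MvPowerSeries ((ι × Fin 4) ⊕ κ) O, ‖ev φ y g‖ ≤ 1 := norm_ev_le_one hφ hy
  have hf1 : ρ < ‖ev φ y (sT e O T f)‖ :=
    hyG.trans_le (mul_le_of_le_one_right (norm_nonneg _) (hle1 _))
  have hg1 : ∀ i, ρ < ‖ev φ y (gT (κ := κ) O T i)‖ := by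
    intro i
    refine hyG.trans_le ((mul_le_of_le_one_left (norm_nonneg _) (hle1 _)).trans ?_)
    rw [hprod, norm_prod, ← Finset.mul_prod_erase _ _ (Finset.mem_univ i)]
    exact mul_le_of_le_one_right (norm_nonneg _)
      (Finset.prod_le_one (fun i _ => norm_nonneg _) fun i _ => hle1 _)
  have hgv : ∀ i, ev φ y (gT (κ := κ) O T i) = if T i then y (Sum.inl (i, 0)) * y (Sum.inl (i, 2))
      else y (Sum.inl (i, 0)) ^ 2 + y (Sum.inl (i, 1)) * y (Sum.inl (i, 2)) := by
    intro i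
    have : ev φ y (gT (κ := κ) O T i) = evHom hφ hy (gT (κ := κ) O T i) := rfl
    rw [this]
    unfold gT
    split_ifs
    · rw [map_mul, evHom_apply, evHom_apply, ev_X, ev_X]
    · rw [map_add, map_pow, map_mul, evHom_apply, evHom_apply, evHom_apply, ev_X, ev_X, ev_X]
  -- the points
  have hblk : ∀ i, ∃ q ∈ XE (E i), ∀ j, ‖q j - pT T y (Sum.inl (i, j))‖ ≤ ρ ^ 2 := by
    intro i
    have h1 := hg1 i
    rw [hgv] at h1
    by_cases hT : T i = true
    · rw [if_pos hT] at h1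
      obtain ⟨h2, h3⟩ := blk_nil hρ0 hρ1 (hE i) (hy (Sum.inl (i, 0))) (hy (Sum.inl (i, 1)))
        (hy (Sum.inl (i, 2))) (hy (Sum.inl (i, 3))) h1
      refine ⟨_, h2, fun j => ?_⟩
      have e1 : pT T y (Sum.inl (i, j)) = _ := if_pos hT
      rw [e1]
      exact h3 j
    · rw [if_neg hT] at h1
      obtain ⟨ξ, h2, h3⟩ := blk_unr hρ0 hρ1 (hE i) (hy (Sum.inl (i, 0))) (hy (Sum.inl (i, 1)))
        (hy (Sum.inl (i, 2))) h1
      refine ⟨_, h2, fun j => ?_⟩
      have e1 : pT T y (Sum.inl (i, j)) = _ := if_neg hT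
      rw [e1]
      exact h3 j
  choose q hq hqd using hblk
  let P : (ι × Fin 6) ⊕ κ → C := Sum.elim (fun x => q x.1 x.2) fun k => y (Sum.inr k)
  have hP : P ∈ Tot κ fun i => XE (E i) := ⟨fun i => hq i, fun k => hy _⟩
  have hPn : ∀ t, ‖P t‖ < 1 := Tot.norm (fun i q hq => hq.1) hP
  have hρ2 : ρ ^ 2 < 1 := pow_lt_one₀ hρ0.le hρ1 two_ne_zero
  have hdiff : ∀ t, ‖P t - pT T y t‖ ≤ ρ ^ 2 := by
    intro t
    rcases t with ⟨i, j⟩ | k
    · exact hqd i j
    · show ‖y (Sum.inr k) - y (Sum.inr k)‖ ≤ _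
      rw [sub_self, norm_zero]; positivity
  have hpn : ∀ t, ‖pT T y t‖ < 1 := by
    intro t
    have e1 : pT T y t = P t - (P t - pT T y t) := by ring
    rw [e1]
    exact nsub_lt (hPn t) ((hdiff t).trans_lt hρ2)
  have h1 := ev_lipschitz hφ (P := fun t => P (e.symm t)) (Q := fun t => pT T y (e.symm t))
    (fun t => hPn _) (fun t => hpn _) (δ := ρ ^ 2) (by positivity) (fun t => hdiff _) f
  have h2 : ev φ (fun t => P (e.symm t)) f = 0 := by
    refine hf _ ?_ (fun t => hPn _)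
    show (fun t => (fun t => P (e.symm t)) (e t)) ∈ Tot κ fun i => XE (E i)
    simpa using hP
  rw [h2, zero_sub, norm_neg, ← ev_sT e hφ T hy] at h1
  have h3 : ρ ^ 2 < ρ := by
    rw [pow_two]; exact mul_lt_of_lt_one_left hρ0 hρ1
  exact absurd (hf1.trans_le h1) (not_lt.mpr h3.le)

/-- type 1 sets -/
def X1 (κs : ι → C) (T : ι → Bool) : ι → Set (Fin 6 → C) := fun i =>
  if T i then XSt (κs i) else Xun C

include hφ in
omit [Fintype ι] [Fintype κ] in
theorem eq_of_II_le_QT {k : ι → O} (hk : ∀ i, k i ∈ maximalIdeal O) {T T' : ι → Bool}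
    (h : II hφ (TotE e (X1 (fun i => φ (k i)) T')) ≤ QT e O T) : T' = T := by
  funext i
  by_contra hne
  rcases Bool.eq_false_or_eq_true (T i) with hT | hT
  · -- `T i = true`, `T' i = false`
    have hT' : T' i = false := by
      rw [hT] at hne
      exact Bool.eq_false_iff.mpr hne
    have h1 : (X (e (Sum.inl (i, 1))) : MvPowerSeries τ O) ∈
        II hφ (TotE e (X1 (fun i => φ (k i)) T')) := by
      intro P hP _
      rw [ev_X]
      have h2 := hP.1 i
      simp only [X1, hT'] at h2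
      exact h2.2.2.1
    have h3 := h h1
    rw [QT, RingHom.mem_ker, spT_X] at h3
    have e1 : aT (ResidueField O) (κ := κ) T (Sum.inl (i, 1)) = X (Sum.inl (i, 0)) *
        X (Sum.inl (i, 2)) ^ 2 := if_pos hT
    rw [e1] at h3
    exact mul_ne_zero (X_ne _ _) (pow_ne_zero _ (X_ne _ _)) h3
  · have hT' : T' i = true := by
      rw [hT] at hne
      exact Bool.eq_true_of_not_eq_false hne
    have h1 : (X (e (Sum.inl (i, 3))) ^ 2 + X (e (Sum.inl (i, 4))) * X (e (Sum.inl (i, 5))) -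
        MvPowerSeries.C (k i ^ 2) : MvPowerSeries τ O) ∈
        II hφ (TotE e (X1 (fun i => φ (k i)) T')) := by
      intro P hP hPn
      have h2 := hP.1 i
      simp only [X1, hT'] at h2
      have h3 := h2.2.2.1
      have e1 : ev φ P (X (e (Sum.inl (i, 3))) ^ 2 + X (e (Sum.inl (i, 4))) *
          X (e (Sum.inl (i, 5))) - MvPowerSeries.C (k i ^ 2)) = P (e (Sum.inl (i, 3))) ^ 2 +
          P (e (Sum.inl (i, 4))) * P (e (Sum.inl (i, 5))) - φ (k i) ^ 2 := by
        rw [← evHom_apply hφ hPn, map_sub, map_add, map_pow, map_mul, evHom_apply, evHom_apply,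
          evHom_apply, evHom_apply, ev_X, ev_X, ev_X, ev_C, map_pow]
      rw [e1, sub_eq_zero]
      exact h3
    have h3 := h h1
    rw [QT, RingHom.mem_ker, map_sub, map_add, map_pow, map_mul, spT_X, spT_X, spT_X] at h3
    have e0 : spT e O T (MvPowerSeries.C (k i ^ 2)) = 0 := by
      have := C_mem_QT e O T (Ideal.pow_mem_of_mem _ (hk i) 2 two_pos)
      rwa [QT, RingHom.mem_ker] at this
    have e3 : aT (ResidueField O) (κ := κ) T (Sum.inl (i, 3)) = X (Sum.inl (i, 0)) :=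
      if_neg (by rw [hT]; simp)
    have e4 : aT (ResidueField O) (κ := κ) T (Sum.inl (i, 4)) = X (Sum.inl (i, 1)) :=
      if_neg (by rw [hT]; simp)
    have e5 : aT (ResidueField O) (κ := κ) T (Sum.inl (i, 5)) = X (Sum.inl (i, 2)) :=
      if_neg (by rw [hT]; simp)
    rw [e0, e3, e4, e5, sub_zero] at h3
    exact quad_ne_zero _ (by simp) h3

end Fermat.Agent.TWLoc
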