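import Fermat.Agent.TWLoc.Below

set_option autoImplicit false
set_option linter.style.haveILetI false

/-! Dimension of the components. -/

namespace Fermat.Agent.TWLoc

open Filter Topology MvPowerSeries IsLocalRing

section general

/-- a bound for the dimension of a quotient -/
theorem dim_quot_le {A : Type*} [CommRing A] [IsLocalRing A] [IsNoetherianRing A] (𝔭 : Ideal A)
    [𝔭.IsPrime] (G : Finset A) (hG : ∀ g ∈ G, g ∈ maximalIdeal A)
    (h : ∀ 𝔮 : Ideal A, 𝔮.IsPrime → 𝔭 ≤ 𝔮 → (∀ g ∈ G, g ∈ 𝔮) → maximalIdeal A ≤ 𝔮) :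
    ringKrullDim (A ⧸ 𝔭) ≤ G.card := by
  classical
  have hsurj : Function.Surjective (Ideal.Quotient.mk 𝔭) := Ideal.Quotient.mk_surjective
  haveI : IsLocalRing (A ⧸ 𝔭) := IsLocalRing.of_surjective' _ hsurj
  haveI hloc : IsLocalHom (Ideal.Quotient.mk 𝔭) := by
    have := IsLocalHom.of_surjective (Ideal.Quotient.mk 𝔭) hsurj
    exact this
  rw [← IsLocalRing.maximalIdeal_height_eq_ringKrullDim]
  have h1 : maximalIdeal (A ⧸ 𝔭) ∈
      (Ideal.span ((G.image (Ideal.Quotient.mk 𝔭) : Finset (A ⧸ 𝔭)) : Set (A ⧸ 𝔭))).minimalPrimes := by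
    refine ⟨⟨inferInstance, ?_⟩, ?_⟩
    · rw [Ideal.span_le]
      intro x hx
      rw [Finset.coe_image] at hx
      obtain ⟨g, hg, rfl⟩ := hx
      have := hG g hg
      rw [SetLike.mem_coe, mem_maximalIdeal, mem_nonunits_iff]
      rw [mem_maximalIdeal, mem_nonunits_iff] at this
      exact fun hu => this (isUnit_of_map_unit _ _ hu)
    · rintro Q ⟨hQ, hQ2⟩ -
      intro x hx
      obtain ⟨a, rfl⟩ := hsurj x
      have h2 := h (Q.comap (Ideal.Quotient.mk 𝔭)) (Ideal.comap_isPrime _ _) (by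
        intro y hy
        rw [Ideal.mem_comap, Ideal.Quotient.eq_zero_iff_mem.mpr hy]
        exact zero_mem _) (fun g hg => by
        rw [Ideal.mem_comap]
        apply hQ2
        apply Ideal.subset_span
        rw [Finset.coe_image]
        exact ⟨g, hg, rfl⟩)
      refine h2 ?_
      rw [mem_maximalIdeal, mem_nonunits_iff] at hx ⊢
      exact fun hu => hx (hu.map _)
  have h2 := Ideal.height_le_card_of_mem_minimalPrimes_span_finset h1
  have h3 : (G.image (Ideal.Quotient.mk 𝔭)).card ≤ G.card := Finset.card_image_le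
  exact_mod_cast h2.trans (by exact_mod_cast h3)

end general

variable {C : Type*} [NontriviallyNormedField C] [IsUltrametricDist C] [CompleteSpace C]
variable {ι κ : Type*} [Fintype ι] [Fintype κ] {τ : Type*} [Fintype τ]
  (e : (ι × Fin 6) ⊕ κ ≃ τ) {O : Type*} [CommRing O] [IsLocalRing O] {φ : O →+* C}
  (hφ : ∀ a, ‖φ a‖ ≤ 1)

/-- the three kinds of local components -/
def IsTy (φ : O →+* C) (X : Set (Fin 6 → C)) : Prop :=
  X = Xun C ∨ (∃ k ∈ maximalIdeal O, φ k ≠ 0 ∧ X = XSt (φ k)) ∨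
    ∃ E ∈ maximalIdeal O, φ E ≠ 0 ∧ X = XE (φ E)

omit [IsUltrametricDist C] [CompleteSpace C] in
theorem IsTy.norm {X : Set (Fin 6 → C)} (hX : IsTy φ X) : ∀ q ∈ X, ∀ j, ‖q j‖ < 1 := by
  rcases hX with rfl | ⟨k, -, -, rfl⟩ | ⟨E, -, -, rfl⟩
  · exact fun q hq => hq.1
  · exact fun q hq => hq.1
  · exact fun q hq => hq.1

omit [IsUltrametricDist C] [CompleteSpace C] in
theorem IsTy.nonempty [IsAlgClosed C] (hm : ∀ a ∈ maximalIdeal O, ‖φ a‖ < 1)
    {X : Set (Fin 6 → C)} (hX : IsTy φ X) : X.Nonempty := by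
  rcases hX with rfl | ⟨k, hk, -, rfl⟩ | ⟨E, hE, -, rfl⟩
  · exact ⟨0, by intro j; simp, rfl, rfl, rfl⟩
  · refine ⟨![0, 0, 0, φ k, 0, 0], ?_, ?_, ?_, ?_, ?_, ?_, ?_⟩
    · intro j
      fin_cases j <;> simp [hm k hk]
    all_goals simp
  · obtain ⟨s, hs⟩ := IsAlgClosed.exists_pow_nat_eq (φ E) two_pos
    refine ⟨![s, 0, 0, 0, 0, 0], ?_, ?_, ?_, ?_, ?_⟩
    · intro j
      have hs1 : ‖s‖ < 1 := by
        have h1 : ‖s‖ ^ 2 < 1 := by rw [← norm_pow, hs]; exact hm E hE
        exact (pow_lt_one_iff_of_nonneg (norm_nonneg _) two_ne_zero).mp h1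
      fin_cases j <;> simp [hs1]
    · simpa using hs
    all_goals simp

omit [CompleteSpace C] in
theorem IsTy.irr [IsAlgClosed C] [CharZero C] (h2 : ‖(2 : C)‖ = 1)
    (hm : ∀ a ∈ maximalIdeal O, ‖φ a‖ < 1) {X : Set (Fin 6 → C)} (hX : IsTy φ X) : Irr X := by
  rcases hX with rfl | ⟨k, hk, hk0, rfl⟩ | ⟨E, hE, hE0, rfl⟩
  · exact irr_Xun
  · exact irr_XSt hk0 (hm k hk) h2
  · exact irr_XE hE0 (hm E hE)

/-- components of products are prime -/
theorem IsTy.prime [IsAlgClosed C] [CharZero C] (h2 : ‖(2 : C)‖ = 1)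
    (hm : ∀ a ∈ maximalIdeal O, ‖φ a‖ < 1) {X : ι → Set (Fin 6 → C)} (hX : ∀ i, IsTy φ (X i)) :
    (II (O := O) hφ (TotE e X)).IsPrime := by
  refine II_prime hφ ?_ ?_ ?_
  · intro P hP t
    have := Tot.norm (P := fun t => P (e t)) (fun i => (hX i).norm) hP (e.symm t)
    simpa using this
  · choose q hq using fun i => (hX i).nonempty hm
    refine ⟨fun t => Sum.elim (fun x : ι × Fin 6 => q x.1 x.2) (fun _ => 0) (e.symm t), ?_⟩
    refine ⟨fun i => ?_, fun k => ?_⟩
    · simpa using hq i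
    · simp
  · exact (irr_Tot (fun i => (hX i).norm) fun i => (hX i).irr h2 hm).reindex e

include hφ in
omit [IsLocalRing O] [Fintype ι] [Fintype κ] in
/-- membership of polynomial relations -/
theorem rel_mem_II {X : ι → Set (Fin 6 → C)} (i : ι) (f : MvPowerSeries τ O)
    (F : (Fin 6 → C) → C)
    (hf : ∀ (P : τ → C) (hP : ∀ t, ‖P t‖ < 1), evHom hφ hP f = F fun j => P (e (Sum.inl (i, j))))
    (hF : ∀ q ∈ X i, F q = 0) : f ∈ II hφ (TotE e X) := by
  intro P hP hPn
  rw [← evHom_apply hφ hPn, hf P hPn]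
  exact hF _ (hP.1 i)

omit [IsUltrametricDist C] [CompleteSpace C] in
theorem blk_dom {B : Type*} [CommRing B] [IsDomain B] (x : Fin 6 → B) (h1 : x 1 = x 3)
    (h2 : x 2 = x 4) (h5 : x 5 = 0)
    (h : (x 0 = 0 ∧ x 1 = 0 ∧ x 2 = 0) ∨
      (x 0 ^ 2 + x 1 * x 2 = 0 ∧ x 3 ^ 2 + x 4 * x 5 = 0 ∧ x 3 * x 0 + x 4 * x 2 = 0) ∨
      (x 0 ^ 2 + x 1 * x 2 = 0 ∧ x 0 * x 4 = x 1 * x 3 ∧ x 1 * x 5 = x 2 * x 4)) :
    ∀ j, x j = 0 := by
  have fin : x 0 = 0 → x 1 = 0 → x 2 = 0 → ∀ j, x j = 0 := by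
    intro a b c j
    fin_cases j
    · exact a
    · exact b
    · exact c
    · exact h1 ▸ b
    · exact h2 ▸ c
    · exact h5
  have sq : ∀ y : B, y ^ 2 = 0 → y = 0 := fun y hy => pow_eq_zero_iff (two_ne_zero) |>.mp hy
  rcases h with ⟨a, b, c⟩ | ⟨a, b, c⟩ | ⟨a, b, c⟩
  · exact fin a b c
  · have h3 : x 3 = 0 := sq _ (by rw [h5, mul_zero, add_zero] at b; exact b)
    have h4 : x 2 = 0 := sq _ (by rw [h3, zero_mul, zero_add, ← h2] at c; rw [pow_two]; exact c)
    exact fin (sq _ (by rw [h4, mul_zero, add_zero] at a; exact a)) (h1.trans h3) h4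
  · have h4 : x 2 = 0 := sq _ (by rw [h5, mul_zero, ← h2] at c; rw [pow_two]; exact c.symm)
    have h3 : x 1 = 0 := sq _ (by
      rw [← h2, h4, mul_zero, ← h1] at b; rw [pow_two]; exact b.symm)
    exact fin (sq _ (by rw [h4, mul_zero, add_zero] at a; exact a)) h3 h4

include hφ in
omit [Fintype ι] [Fintype κ] in
/-- blockwise vanishing -/
theorem IsTy.block {X : ι → Set (Fin 6 → C)} {i : ι} (hX : IsTy φ (X i))
    (𝔮 : Ideal (MvPowerSeries τ O)) [𝔮.IsPrime] (hC : ∀ a ∈ maximalIdeal O, MvPowerSeries.C a ∈ 𝔮)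
    (hI : II hφ (TotE e X) ≤ 𝔮)
    (h1 : MvPowerSeries.X (e (Sum.inl (i, 1))) - MvPowerSeries.X (e (Sum.inl (i, 3))) ∈ 𝔮)
    (h2 : MvPowerSeries.X (e (Sum.inl (i, 2))) - MvPowerSeries.X (e (Sum.inl (i, 4))) ∈ 𝔮)
    (h5 : MvPowerSeries.X (e (Sum.inl (i, 5))) ∈ 𝔮) (j : Fin 6) :
    MvPowerSeries.X (e (Sum.inl (i, j))) ∈ 𝔮 := by
  set Y : Fin 6 → MvPowerSeries τ O := fun j => MvPowerSeries.X (e (Sum.inl (i, j))) with hY
  have hev : ∀ (P : τ → C) (hP : ∀ t, ‖P t‖ < 1) (j : Fin 6),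
      evHom hφ hP (Y j) = P (e (Sum.inl (i, j))) := by
    intro P hP j
    rw [hY, evHom_apply, ev_X]
  have hevC : ∀ (P : τ → C) (hP : ∀ t, ‖P t‖ < 1) (a : O),
      evHom hφ hP (MvPowerSeries.C a) = φ a := by
    intro P hP j
    rw [evHom_apply, ev_C]
  have key : ∀ j, Ideal.Quotient.mk 𝔮 (Y j) = 0 := by
    have mkC : ∀ a ∈ maximalIdeal O, Ideal.Quotient.mk 𝔮 (MvPowerSeries.C a) = 0 := fun a ha =>
      Ideal.Quotient.eq_zero_iff_mem.mpr (hC a ha)
    refine blk_dom (fun j => Ideal.Quotient.mk 𝔮 (Y j)) ?_ ?_ ?_ ?_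
    · exact Ideal.Quotient.eq.mpr h1
    · exact Ideal.Quotient.eq.mpr h2
    · exact Ideal.Quotient.eq_zero_iff_mem.mpr h5
    · rcases hX with h | ⟨k, hk, -, h⟩ | ⟨E, hE, -, h⟩
      · left
        have a0 : Y 0 ∈ 𝔮 := hI (rel_mem_II e hφ i _ (fun q => q 0) (fun P hP => hev P hP 0)
          fun q hq => by rw [h] at hq; exact hq.2.1)
        have a1 : Y 1 ∈ 𝔮 := hI (rel_mem_II e hφ i _ (fun q => q 1) (fun P hP => hev P hP 1)
          fun q hq => by rw [h] at hq; exact hq.2.2.1)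
        have a2 : Y 2 ∈ 𝔮 := hI (rel_mem_II e hφ i _ (fun q => q 2) (fun P hP => hev P hP 2)
          fun q hq => by rw [h] at hq; exact hq.2.2.2)
        exact ⟨Ideal.Quotient.eq_zero_iff_mem.mpr a0, Ideal.Quotient.eq_zero_iff_mem.mpr a1,
          Ideal.Quotient.eq_zero_iff_mem.mpr a2⟩
      · right; left
        have a0 : Y 0 ^ 2 + Y 1 * Y 2 ∈ 𝔮 := hI (rel_mem_II e hφ i _
          (fun q => q 0 ^ 2 + q 1 * q 2) (fun P hP => by
            rw [map_add, map_pow, map_mul, hev, hev, hev])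
          fun q hq => by rw [h] at hq; exact hq.2.1)
        have a1 : Y 3 ^ 2 + Y 4 * Y 5 - MvPowerSeries.C k ^ 2 ∈ 𝔮 := hI (rel_mem_II e hφ i _
          (fun q => q 3 ^ 2 + q 4 * q 5 - φ k ^ 2) (fun P hP => by
            rw [map_sub, map_add, map_pow, map_mul, map_pow, hev, hev, hev, hevC])
          fun q hq => by rw [h] at hq; exact sub_eq_zero.mpr hq.2.2.1)
        have a2 : Y 3 * Y 0 + Y 4 * Y 2 - MvPowerSeries.C k * Y 0 ∈ 𝔮 := hI (rel_mem_II e hφ i _
          (fun q => q 3 * q 0 + q 4 * q 2 - φ k * q 0) (fun P hP => by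
            rw [map_sub, map_add, map_mul, map_mul, map_mul, hev, hev, hev, hev, hevC])
          fun q hq => by rw [h] at hq; exact sub_eq_zero.mpr hq.2.2.2.1)
        refine ⟨?_, ?_, ?_⟩
        · have := Ideal.Quotient.eq_zero_iff_mem.mpr a0
          simpa only [map_add, map_pow, map_mul] using this
        · have := Ideal.Quotient.eq_zero_iff_mem.mpr a1
          rw [map_sub, map_pow, mkC k hk] at this
          simpa only [map_add, map_pow, map_mul, ne_eq, OfNat.ofNat_ne_zero, not_false_eq_true,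
            zero_pow, sub_zero] using this
        · have := Ideal.Quotient.eq_zero_iff_mem.mpr a2
          rw [map_sub, map_mul _ (MvPowerSeries.C k), mkC k hk, zero_mul, sub_zero] at this
          simpa only [map_add, map_pow, map_mul] using this
      · right; right
        have a0 : Y 0 ^ 2 + Y 1 * Y 2 - MvPowerSeries.C E ∈ 𝔮 := hI (rel_mem_II e hφ i _
          (fun q => q 0 ^ 2 + q 1 * q 2 - φ E) (fun P hP => by
            rw [map_sub, map_add, map_pow, map_mul, hev, hev, hev, hevC])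
          fun q hq => by rw [h] at hq; exact sub_eq_zero.mpr hq.2.1)
        have a1 : Y 0 * Y 4 - Y 1 * Y 3 ∈ 𝔮 := hI (rel_mem_II e hφ i _
          (fun q => q 0 * q 4 - q 1 * q 3) (fun P hP => by
            rw [map_sub, map_mul, map_mul, hev, hev, hev, hev])
          fun q hq => by rw [h] at hq; exact sub_eq_zero.mpr hq.2.2.1)
        have a2 : Y 1 * Y 5 - Y 2 * Y 4 ∈ 𝔮 := hI (rel_mem_II e hφ i _
          (fun q => q 1 * q 5 - q 2 * q 4) (fun P hP => by
            rw [map_sub, map_mul, map_mul, hev, hev, hev, hev])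
          fun q hq => by rw [h] at hq; exact sub_eq_zero.mpr hq.2.2.2.2)
        refine ⟨?_, ?_, ?_⟩
        · have := Ideal.Quotient.eq_zero_iff_mem.mpr a0
          rw [map_sub, mkC E hE, sub_zero] at this
          simpa only [map_add, map_pow, map_mul] using this
        · have := Ideal.Quotient.eq.mpr a1
          simpa only [map_add, map_pow, map_mul] using this
        · have := Ideal.Quotient.eq.mpr a2
          simpa only [map_add, map_pow, map_mul] using this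
  exact Ideal.Quotient.eq_zero_iff_mem.mp (key j)

omit [NontriviallyNormedField C] [IsUltrametricDist C] [CompleteSpace C] in
theorem maximalIdeal_le_of (𝔮 : Ideal (MvPowerSeries τ O))
    (hC : ∀ a ∈ maximalIdeal O, MvPowerSeries.C a ∈ 𝔮) (hX : ∀ t, MvPowerSeries.X t ∈ 𝔮) :
    maximalIdeal (MvPowerSeries τ O) ≤ 𝔮 := by
  intro f hf
  have h1 : constantCoeff f ∈ maximalIdeal O := by
    rw [mem_maximalIdeal, mem_nonunits_iff] at hf ⊢
    rwa [MvPowerSeries.isUnit_iff_constantCoeff] at hf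
  obtain ⟨g, hg, -⟩ := exists_decomp (f := f - MvPowerSeries.C (constantCoeff f)) (N := 0) (by
    intro d hd
    have hd0 : d = 0 := by
      ext i
      have h2 : d i ≤ deg d := Finset.single_le_sum (fun j _ => Nat.zero_le (d j))
        (Finset.mem_univ i)
      show d i = 0
      omega
    rw [hd0]
    simp)
  have h2 : f = MvPowerSeries.C (constantCoeff f) + ∑ i, MvPowerSeries.X i * g i := by
    rw [← hg]; ring
  rw [h2]
  exact add_mem (hC _ h1) (Ideal.sum_mem _ fun i _ => Ideal.mul_mem_right _ _ (hX i))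

/-- **dimension of the components** -/
theorem IsTy.dim [IsNoetherianRing (MvPowerSeries τ O)] [IsAlgClosed C] [CharZero C]
    (h2 : ‖(2 : C)‖ = 1) (hm : ∀ a ∈ maximalIdeal O, ‖φ a‖ < 1) {X : ι → Set (Fin 6 → C)}
    (hX : ∀ i, IsTy φ (X i)) {lam : O} (hlam : maximalIdeal O = Ideal.span {lam}) :
    ringKrullDim (MvPowerSeries τ O ⧸ II hφ (TotE e X)) ≤
      (1 + 3 * Fintype.card ι + Fintype.card κ : ℕ) := by
  classical
  haveI := IsTy.prime e hφ h2 hm hX
  have hC : ∀ 𝔮 : Ideal (MvPowerSeries τ O), MvPowerSeries.C lam ∈ 𝔮 →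
      ∀ a ∈ maximalIdeal O, MvPowerSeries.C a ∈ 𝔮 := by
    intro 𝔮 h a ha
    rw [hlam, Ideal.mem_span_singleton'] at ha
    obtain ⟨b, rfl⟩ := ha
    rw [map_mul]
    exact Ideal.mul_mem_left _ _ h
  set g : Option ((ι × Fin 3) ⊕ κ) → MvPowerSeries τ O := fun s => s.elim (MvPowerSeries.C lam)
    (Sum.elim (fun x => ![MvPowerSeries.X (e (Sum.inl (x.1, 1))) -
        MvPowerSeries.X (e (Sum.inl (x.1, 3))),
      MvPowerSeries.X (e (Sum.inl (x.1, 2))) - MvPowerSeries.X (e (Sum.inl (x.1, 4))),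
      MvPowerSeries.X (e (Sum.inl (x.1, 5)))] x.2) fun k => MvPowerSeries.X (e (Sum.inr k)))
    with hg
  have hXm : ∀ t, (MvPowerSeries.X t : MvPowerSeries τ O) ∈ maximalIdeal (MvPowerSeries τ O) := by
    intro t
    rw [mem_maximalIdeal, mem_nonunits_iff, MvPowerSeries.isUnit_iff_constantCoeff]
    simp
  have hgm : ∀ s, g s ∈ maximalIdeal (MvPowerSeries τ O) := by
    intro s
    rcases s with _ | ⟨i, j⟩ | k
    · show MvPowerSeries.C lam ∈ _
      rw [mem_maximalIdeal, mem_nonunits_iff, MvPowerSeries.isUnit_iff_constantCoeff,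
        constantCoeff_C, ← mem_nonunits_iff, ← mem_maximalIdeal, hlam]
      exact Ideal.mem_span_singleton_self _
    · fin_cases j
      · exact sub_mem (hXm _) (hXm _)
      · exact sub_mem (hXm _) (hXm _)
      · exact hXm _
    · exact hXm _
  have h1 := dim_quot_le (II (O := O) hφ (TotE e X)) (Finset.univ.image g)
    (by
      intro x hx
      obtain ⟨s, -, rfl⟩ := Finset.mem_image.mp hx
      exact hgm s)
    (by
      intro 𝔮 h𝔮 hle hG
      have hG' : ∀ s, g s ∈ 𝔮 := fun s => hG _ (Finset.mem_image_of_mem _ (Finset.mem_univ s))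
      have hC' := hC 𝔮 (hG' none)
      refine maximalIdeal_le_of 𝔮 hC' fun t => ?_
      obtain ⟨s, rfl⟩ := e.surjective t
      rcases s with ⟨i, j⟩ | k
      · exact (hX i).block e hφ 𝔮 hC' hle (hG' (some (Sum.inl (i, 0))))
          (hG' (some (Sum.inl (i, 1)))) (hG' (some (Sum.inl (i, 2)))) j
      · exact hG' (some (Sum.inr k)))
  refine h1.trans ?_
  have h3 : (Finset.univ.image g).card ≤ 1 + 3 * Fintype.card ι + Fintype.card κ := by
    refine Finset.card_image_le.trans ?_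
    rw [Finset.card_univ, Fintype.card_option, Fintype.card_sum, Fintype.card_prod,
      Fintype.card_fin]
    omega
  exact_mod_cast h3

end Fermat.Agent.TWLoc
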