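import Fermat.Agent.TWLoc.OneDim

set_option autoImplicit false
set_option linter.style.haveILetI false

/-! Evaluation of power series with integral coefficients on the open unit polydisc. -/

namespace Fermat.Agent.TWLoc

open Filter Topology MvPowerSeries

variable {C : Type*} [NontriviallyNormedField C] [IsUltrametricDist C]

instance nonarchRing : NonarchimedeanRing C where
  is_nonarchimedean := NonarchimedeanAddGroup.is_nonarchimedean

variable {τ : Type*} [Fintype τ]

/-- total degree -/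
def deg (d : τ →₀ ℕ) : ℕ := ∑ i, d i

theorem deg_add (d e : τ →₀ ℕ) : deg (d + e) = deg d + deg e := by
  simp [deg, Finset.sum_add_distrib]

theorem finite_deg (N : ℕ) : {d : τ →₀ ℕ | deg d < N}.Finite := by
  classical
  refine ((Set.finite_Iic (fun _ : τ => N)).preimage
    (f := fun d : τ →₀ ℕ => (d : τ → ℕ)) DFunLike.coe_injective.injOn).subset ?_
  intro d hd i
  have h1 : d i ≤ deg d := Finset.single_le_sum (fun j _ => Nat.zero_le (d j)) (Finset.mem_univ i)
  have h2 : deg d < N := hd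
  show d i ≤ N
  omega

/-- monomials -/
def mon (P : τ → C) (d : τ →₀ ℕ) : C := ∏ i, P i ^ d i

omit [IsUltrametricDist C] in
theorem mon_add (P : τ → C) (d e : τ →₀ ℕ) : mon P (d + e) = mon P d * mon P e := by
  simp [mon, pow_add, Finset.prod_mul_distrib]

omit [IsUltrametricDist C] in
theorem norm_mon_le {P : τ → C} {M : ℝ} (hP : ∀ i, ‖P i‖ ≤ M) (d : τ →₀ ℕ) :
    ‖mon P d‖ ≤ M ^ deg d := by
  rw [mon, norm_prod, deg, ← Finset.prod_pow_eq_pow_sum]
  exact Finset.prod_le_prod (fun i _ => norm_nonneg _) fun i _ => by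
    rw [norm_pow]; exact pow_le_pow_left₀ (norm_nonneg _) (hP i) _

omit [IsUltrametricDist C] in
theorem exists_bound {P : τ → C} (hP : ∀ i, ‖P i‖ < 1) : ∃ M : ℝ, 0 < M ∧ M < 1 ∧ ∀ i, ‖P i‖ ≤ M := by
  classical
  rcases isEmpty_or_nonempty τ with h | h
  · exact ⟨1 / 2, by norm_num, by norm_num, fun i => (IsEmpty.false i).elim⟩
  · obtain ⟨i, hi⟩ := Finite.exists_max fun i => ‖P i‖
    refine ⟨max (1 / 2) ‖P i‖, lt_max_of_lt_left (by norm_num), max_lt (by norm_num) (hP i),
      fun j => (hi j).trans (le_max_right _ _)⟩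

variable {O : Type*} [CommRing O] (φ : O →+* C)

/-- the terms of the evaluation -/
def term (P : τ → C) (f : MvPowerSeries τ O) (d : τ →₀ ℕ) : C := φ (coeff d f) * mon P d

/-- evaluation at a point of the open polydisc -/
noncomputable def ev (P : τ → C) (f : MvPowerSeries τ O) : C := ∑' d, term φ P f d

variable {φ} (hφ : ∀ a, ‖φ a‖ ≤ 1)

include hφ

omit [IsUltrametricDist C] in
theorem norm_term_le {P : τ → C} {M : ℝ} (_ : 0 ≤ M) (hP : ∀ i, ‖P i‖ ≤ M)
    (f : MvPowerSeries τ O) (d : τ →₀ ℕ) : ‖term φ P f d‖ ≤ M ^ deg d := by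
  rw [term, norm_mul]
  calc ‖φ (coeff d f)‖ * ‖mon P d‖ ≤ 1 * M ^ deg d :=
        mul_le_mul (hφ _) (norm_mon_le hP d) (norm_nonneg _) zero_le_one
    _ = _ := one_mul _

variable [CompleteSpace C]

theorem summable_term {P : τ → C} (hP : ∀ i, ‖P i‖ < 1) (f : MvPowerSeries τ O) :
    Summable (term φ P f) := by
  obtain ⟨M, hM0, hM1, hM⟩ := exists_bound hP
  apply NonarchimedeanAddGroup.summable_of_tendsto_cofinite_zero
  rw [Metric.tendsto_nhds]
  intro ε hε
  obtain ⟨N, hN⟩ := exists_pow_lt_of_lt_one hε hM1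
  rw [Filter.eventually_cofinite]
  refine (finite_deg (τ := τ) N).subset fun d hd => ?_
  by_contra h
  apply hd
  have h' : N ≤ deg d := not_lt.mp h
  rw [dist_zero_right]
  calc ‖term φ P f d‖ ≤ M ^ deg d := norm_term_le hφ hM0.le hM f d
    _ ≤ M ^ N := pow_le_pow_of_le_one hM0.le hM1.le h'
    _ < ε := hN

omit [CompleteSpace C] [IsUltrametricDist C] hφ in
theorem ev_C (P : τ → C) (a : O) : ev φ P (MvPowerSeries.C a) = φ a := by
  classical
  rw [ev, tsum_eq_single 0]
  · simp [term, mon]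
  · intro d hd
    rw [term, MvPowerSeries.coeff_C, if_neg hd, map_zero, zero_mul]

omit [CompleteSpace C] [IsUltrametricDist C] hφ in
theorem ev_X (P : τ → C) (i : τ) : ev φ P (MvPowerSeries.X i) = P i := by
  classical
  rw [ev, tsum_eq_single (Finsupp.single i 1)]
  · rw [term, MvPowerSeries.coeff_X, if_pos rfl, map_one, one_mul, mon,
      Finset.prod_eq_single i]
    · simp
    · intro j _ hj
      simp [Ne.symm hj]
    · intro h
      exact absurd (Finset.mem_univ _) h
  · intro d hd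
    rw [term, MvPowerSeries.coeff_X, if_neg hd, map_zero, zero_mul]

theorem ev_add {P : τ → C} (hP : ∀ i, ‖P i‖ < 1) (f g : MvPowerSeries τ O) :
    ev φ P (f + g) = ev φ P f + ev φ P g := by
  rw [ev, ev, ev, ← (summable_term hφ hP f).tsum_add (summable_term hφ hP g)]
  congr 1
  funext d
  simp [term, add_mul]

theorem ev_mul {P : τ → C} (hP : ∀ i, ‖P i‖ < 1) (f g : MvPowerSeries τ O) :
    ev φ P (f * g) = ev φ P f * ev φ P g := by
  classical
  have hf := summable_term hφ hP f
  have hg := summable_term hφ hP g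
  rw [ev, ev, ev, hf.tsum_mul_tsum_eq_tsum_sum_antidiagonal hg (hf.mul_of_nonarchimedean hg)]
  congr 1
  funext d
  rw [term, MvPowerSeries.coeff_mul, map_sum, Finset.sum_mul]
  refine Finset.sum_congr rfl fun x hx => ?_
  rw [Finset.HasAntidiagonal.mem_antidiagonal] at hx
  rw [term, term, map_mul, ← hx, mon_add]
  ring

/-- evaluation as a ring homomorphism -/
noncomputable def evHom {P : τ → C} (hP : ∀ i, ‖P i‖ < 1) : MvPowerSeries τ O →+* C where
  toFun := ev φ P
  map_one' := by
    have := ev_C (φ := φ) P 1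
    rwa [map_one, map_one] at this
  map_mul' := ev_mul hφ hP
  map_zero' := by
    have := ev_C (φ := φ) P 0
    rwa [map_zero, map_zero] at this
  map_add' := ev_add hφ hP

theorem evHom_apply {P : τ → C} (hP : ∀ i, ‖P i‖ < 1) (f : MvPowerSeries τ O) :
    evHom hφ hP f = ev φ P f := rfl

omit [CompleteSpace C] in
/-- bound by the low order terms -/
theorem norm_ev_le {P : τ → C} {M : ℝ} (hM : 0 ≤ M) (hM1 : M ≤ 1) (hP : ∀ i, ‖P i‖ ≤ M)
    {f : MvPowerSeries τ O} {N : ℕ} (hf : ∀ d, deg d < N → coeff d f = 0) :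
    ‖ev φ P f‖ ≤ M ^ N := by
  rw [ev]
  refine (IsUltrametricDist.norm_tsum_le _).trans (Real.iSup_le (fun d => ?_) (by positivity))
  by_cases hd : deg d < N
  · rw [term, hf d hd, map_zero, zero_mul, norm_zero]; positivity
  · exact (norm_term_le hφ hM hP f d).trans (pow_le_pow_of_le_one hM hM1 (not_lt.mp hd))

omit [CompleteSpace C] in
theorem norm_ev_le_one {P : τ → C} (hP : ∀ i, ‖P i‖ < 1) (f : MvPowerSeries τ O) :
    ‖ev φ P f‖ ≤ 1 := by
  obtain ⟨M, hM0, hM1, hM⟩ := exists_bound hP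
  have := norm_ev_le hφ hM0.le hM1.le hM (f := f) (N := 0) (fun d hd => absurd hd (Nat.not_lt_zero _))
  rwa [pow_zero] at this

omit hφ [CompleteSpace C] [Fintype τ] in
/-- good functions on the open unit polydisc: uniform limits of polynomials -/
def Good (F : (τ → C) → C) : Prop := ∀ M : ℝ, 0 ≤ M → M < 1 → ∀ ε : ℝ, 0 < ε →
  ∃ p : MvPolynomial τ C, ∀ P, (∀ i, ‖P i‖ ≤ M) → ‖F P - MvPolynomial.eval P p‖ ≤ ε

/-- power series define good functions -/
theorem good_ev (f : MvPowerSeries τ O) : Good fun P : τ → C => ev φ P f := by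
  classical
  intro M hM hM1 ε hε
  obtain ⟨N, hN⟩ := exists_pow_lt_of_lt_one hε hM1
  set s := (finite_deg (τ := τ) N).toFinset with hs
  set t : MvPowerSeries τ O := ((∑ d ∈ s, MvPolynomial.monomial d (coeff d f) :
    MvPolynomial τ O) : MvPowerSeries τ O) with ht
  have hcoeff : ∀ d, coeff d t = if deg d < N then coeff d f else 0 := by
    intro d
    rw [ht, MvPolynomial.coeff_coe, MvPolynomial.coeff_sum]
    simp only [MvPolynomial.coeff_monomial]
    rw [Finset.sum_ite_eq']
    simp [hs]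
  refine ⟨∑ d ∈ s, MvPolynomial.monomial d (φ (coeff d f)), fun P hP => ?_⟩
  have hP1 : ∀ i, ‖P i‖ < 1 := fun i => (hP i).trans_lt hM1
  have h1 : ev φ P t = MvPolynomial.eval P (∑ d ∈ s, MvPolynomial.monomial d (φ (coeff d f))) := by
    rw [ev, tsum_eq_sum (s := s), map_sum]
    · refine Finset.sum_congr rfl fun d hd => ?_
      rw [MvPolynomial.eval_monomial, term, hcoeff, if_pos (by simpa [hs] using hd), mon,
        Finsupp.prod_fintype]
      intro i; exact pow_zero _
    · intro d hd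
      rw [term, hcoeff, if_neg (by simpa [hs] using hd), map_zero, zero_mul]
  have h2 : ev φ P f = ev φ P t + ev φ P (f - t) := by
    rw [← ev_add hφ hP1, add_sub_cancel]
  show ‖ev φ P f - _‖ ≤ ε
  rw [h2, h1, add_sub_cancel_left]
  refine (norm_ev_le hφ hM hM1.le hP (N := N) fun d hd => ?_).trans hN.le
  rw [map_sub, hcoeff, if_pos hd, sub_self]

end Fermat.Agent.TWLoc
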