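import Mathlib

set_option autoImplicit false
set_option linter.style.haveILetI false

/-! Nonarchimedean fields: units in general position. -/

namespace Fermat.Agent.TWLoc

open Polynomial

variable {C : Type*} [NontriviallyNormedField C] [IsUltrametricDist C]

theorem nsub_le_max (a b : C) : ‖a - b‖ ≤ max ‖a‖ ‖b‖ := by
  rw [sub_eq_add_neg, ← norm_neg b]
  exact IsUltrametricDist.norm_add_le_max a (-b)

variable (C) in
/-- roots of unity of order prime to the residue characteristic -/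
def TU : Set C := {u | ∃ N : ℕ, 0 < N ∧ ‖(N : C)‖ = 1 ∧ u ^ N = 1}

omit [IsUltrametricDist C] in
theorem TU.norm {u : C} (hu : u ∈ TU C) : ‖u‖ = 1 := by
  obtain ⟨N, hN, -, h⟩ := hu
  have h1 : ‖u‖ ^ N = 1 := by rw [← norm_pow, h, norm_one]
  exact (pow_eq_one_iff_of_nonneg (norm_nonneg _) hN.ne').mp h1

omit [IsUltrametricDist C] in
theorem TU.ne_zero {u : C} (hu : u ∈ TU C) : u ≠ 0 := by
  rintro rfl
  have := TU.norm hu
  rw [norm_zero] at this
  exact zero_ne_one this

theorem norm_sub_one_of_pow {w : C} {N : ℕ} (hN : ‖(N : C)‖ = 1) (hw : w ^ N = 1)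
    (hn : ‖w‖ = 1) (h1 : w ≠ 1) : ‖w - 1‖ = 1 := by
  have hle : ‖w - 1‖ ≤ 1 := by
    refine (nsub_le_max w 1).trans ?_
    rw [hn, norm_one, max_self]
  refine le_antisymm hle (not_lt.mp fun hlt => ?_)
  have h2 : ∀ i : ℕ, ‖w ^ i - 1‖ < 1 := by
    intro i
    induction i with
    | zero => simp
    | succ i ih =>
      have e : w ^ (i + 1) - 1 = w ^ i * (w - 1) + (w ^ i - 1) := by ring
      rw [e]
      refine (IsUltrametricDist.norm_add_le_max _ _).trans_lt (max_lt ?_ ih)
      rw [norm_mul, norm_pow, hn, one_pow, one_mul]; exact hlt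
  have h3 : (w - 1) * ∑ i ∈ Finset.range N, w ^ i = 0 := by
    rw [mul_comm, geom_sum_mul, hw, sub_self]
  have h4 : ∑ i ∈ Finset.range N, w ^ i = 0 :=
    (mul_eq_zero.mp h3).resolve_left (sub_ne_zero.mpr h1)
  have h5 : (N : C) = -∑ i ∈ Finset.range N, (w ^ i - 1) := by
    rw [Finset.sum_sub_distrib, h4]; simp
  have h6 : ‖(N : C)‖ < 1 := by
    rw [h5, norm_neg]
    rcases Nat.eq_zero_or_pos N with rfl | hpos
    · simp
    · obtain ⟨i, -, hi⟩ := IsUltrametricDist.exists_norm_finsetSum_le_of_nonempty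
        (Finset.nonempty_range_iff.mpr hpos.ne') (fun i => w ^ i - 1)
      exact hi.trans_lt (h2 i)
  rw [hN] at h6
  exact lt_irrefl _ h6

theorem TU.sub {u v : C} (hu : u ∈ TU C) (hv : v ∈ TU C) (h : u ≠ v) : ‖u - v‖ = 1 := by
  have hun := TU.norm hu
  have hvn := TU.norm hv
  have hv0 := TU.ne_zero hv
  obtain ⟨N, hN, hN1, huN⟩ := hu
  obtain ⟨M, hM, hM1, hvM⟩ := hv
  have h1 : ‖u / v - 1‖ = 1 := by
    refine norm_sub_one_of_pow (N := N * M) ?_ ?_ ?_ ?_
    · rw [Nat.cast_mul, norm_mul, hN1, hM1, one_mul]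
    · rw [div_pow, pow_mul, huN, one_pow, mul_comm N M, pow_mul, hvM, one_pow, div_one]
    · rw [norm_div, hun, hvn, div_one]
    · rwa [ne_eq, div_eq_one_iff_eq hv0]
  have e : u - v = (u / v - 1) * v := by field_simp
  rw [e, norm_mul, h1, hvn, one_mul]

theorem TU_infinite [IsAlgClosed C] [CharZero C] : (TU C).Infinite := by
  intro hfin
  set k := hfin.toFinset.card with hk
  obtain ⟨N, hNk, hN⟩ : ∃ N : ℕ, k < N ∧ ‖(N : C)‖ = 1 := by
    have h1 : ∀ n : ℕ, ‖(n : C)‖ ≤ 1 := IsUltrametricDist.norm_natCast_le_one C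
    by_contra hcon
    push Not at hcon
    have a1 := lt_of_le_of_ne (h1 (k + 1)) (hcon (k + 1) (by omega))
    have a2 := lt_of_le_of_ne (h1 (k + 2)) (hcon (k + 2) (by omega))
    have e : (1 : C) = ((k + 2 : ℕ) : C) - ((k + 1 : ℕ) : C) := by push_cast; ring
    have a3 : ‖(1 : C)‖ < 1 := by
      rw [e]
      exact (nsub_le_max _ _).trans_lt (max_lt a2 a1)
    rw [norm_one] at a3
    exact lt_irrefl _ a3
  haveI : NeZero N := ⟨by omega⟩
  have hcard : Nat.card (rootsOfUnity N C) = N :=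
    HasEnoughRootsOfUnity.natCard_rootsOfUnity C N
  haveI : Finite (rootsOfUnity N C) := Nat.finite_of_card_ne_zero (by rw [hcard]; omega)
  haveI : Finite (TU C) := hfin.to_subtype
  let f : rootsOfUnity N C → TU C := fun u => ⟨((u : Cˣ) : C), N, by omega, hN, by
    have := (mem_rootsOfUnity N (u : Cˣ)).mp u.2
    rw [← Units.val_pow_eq_pow_val, this, Units.val_one]⟩
  have hf : Function.Injective f := by
    intro u v huv
    exact Subtype.ext (Units.ext (congrArg Subtype.val huv))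
  have h2 := Nat.card_le_card_of_injective f hf
  rw [hcard, Nat.card_coe_set_eq, Set.ncard_eq_toFinset_card _ hfin] at h2
  omega

omit [IsUltrametricDist C] in
theorem exists_norm_between [IsAlgClosed C] {a b : ℝ} (ha : 0 < a) (hab : a < b) :
    ∃ x : C, a < ‖x‖ ∧ ‖x‖ < b := by
  obtain ⟨y, hy⟩ := NormedField.exists_one_lt_norm C
  have hba : 1 < b / a := (one_lt_div ha).mpr hab
  obtain ⟨n, hn⟩ := pow_unbounded_of_one_lt ‖y‖ hba
  have hn0 : 0 < n := by
    rcases Nat.eq_zero_or_pos n with rfl | h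
    · rw [pow_zero] at hn; exact absurd hy (not_lt.mpr hn.le)
    · exact h
  obtain ⟨z, hz⟩ := IsAlgClosed.exists_pow_nat_eq y hn0
  have hz1 : ‖z‖ ^ n = ‖y‖ := by rw [← norm_pow, hz]
  have hz2 : 1 < ‖z‖ := by
    by_contra h
    have := pow_le_one₀ (norm_nonneg z) (not_lt.mp h) (n := n)
    rw [hz1] at this
    exact absurd hy (not_lt.mpr this)
  have hz3 : ‖z‖ < b / a := by
    by_contra h
    have := pow_le_pow_left₀ (by positivity) (not_lt.mp h) n
    rw [hz1] at this
    exact absurd hn (not_lt.mpr this)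
  obtain ⟨m, hm1, hm2⟩ := exists_mem_Ico_zpow ha hz2
  refine ⟨z ^ (m + 1), by rw [norm_zpow]; exact hm2, ?_⟩
  have hz0 : ‖z‖ ≠ 0 := by positivity
  rw [norm_zpow, zpow_add_one₀ hz0]
  calc ‖z‖ ^ m * ‖z‖ ≤ a * ‖z‖ := mul_le_mul_of_nonneg_right hm1 (norm_nonneg _)
    _ < a * (b / a) := mul_lt_mul_of_pos_left hz3 ha
    _ = b := by field_simp

/-- Lagrange type estimate -/
theorem exists_good (d : ℕ) : ∀ (Q : C[X]), Q.natDegree ≤ d → ∀ T : Finset C, ↑T ⊆ TU C →
    d < T.card → ∃ u ∈ T, ∀ n, ‖Q.coeff n‖ ≤ ‖Q.eval u‖ := by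
  classical
  induction d with
  | zero =>
    intro Q hQ T hT hcard
    obtain ⟨u, hu⟩ := Finset.card_pos.mp hcard
    refine ⟨u, hu, fun n => ?_⟩
    rw [Polynomial.eq_C_of_natDegree_le_zero hQ, eval_C, coeff_C]
    split_ifs
    · exact le_rfl
    · rw [norm_zero]; exact norm_nonneg _
  | succ d ih =>
    intro Q hQ T hT hcard
    obtain ⟨u0, hu0⟩ := Finset.card_pos.mp (by omega : 0 < T.card)
    set Q1 := Q /ₘ (X - Polynomial.C u0) with hQ1
    have hdeg : Q1.natDegree ≤ d := by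
      rw [hQ1, natDegree_divByMonic _ (monic_X_sub_C u0), natDegree_X_sub_C]
      omega
    have hdecomp : Q = Polynomial.C (Q.eval u0) + (X - Polynomial.C u0) * Q1 := by
      have := modByMonic_add_div Q (X - Polynomial.C u0)
      rw [modByMonic_X_sub_C_eq_C_eval] at this
      exact this.symm
    obtain ⟨u, hu, hgood⟩ := ih Q1 hdeg (T.erase u0)
      ((Finset.coe_subset.mpr (Finset.erase_subset _ _)).trans hT)
      (by rw [Finset.card_erase_of_mem hu0]; omega)
    have hne : u ≠ u0 := Finset.ne_of_mem_erase hu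
    have huT := Finset.mem_of_mem_erase hu
    have hn0 : ‖u0‖ = 1 := TU.norm (hT hu0)
    have hsub : ‖u - u0‖ = 1 := TU.sub (hT huT) (hT hu0) hne
    have heval : Q.eval u = Q.eval u0 + (u - u0) * Q1.eval u := by
      conv_lhs => rw [hdecomp]
      simp
    have hQ1u : ‖Q1.eval u‖ ≤ max ‖Q.eval u‖ ‖Q.eval u0‖ := by
      have e : (u - u0) * Q1.eval u = Q.eval u - Q.eval u0 := by rw [heval]; ring
      have : ‖Q1.eval u‖ = ‖Q.eval u - Q.eval u0‖ := by
        rw [← e, norm_mul, hsub, one_mul]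
      rw [this]
      exact nsub_le_max _ _
    have hcoef : ∀ n, ‖Q.coeff n‖ ≤ max ‖Q.eval u‖ ‖Q.eval u0‖ := by
      intro n
      have e : Q.coeff n = (Polynomial.C (Q.eval u0)).coeff n +
          ((X * Q1).coeff n - u0 * Q1.coeff n) := by
        conv_lhs => rw [hdecomp]
        rw [coeff_add, sub_mul, coeff_sub, coeff_C_mul]
      rw [e]
      refine (IsUltrametricDist.norm_add_le_max _ _).trans (max_le ?_ ?_)
      · rw [coeff_C]
        split_ifs
        · exact le_max_right _ _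
        · rw [norm_zero]; exact (norm_nonneg _).trans (le_max_left _ _)
      · refine (nsub_le_max _ _).trans (max_le ?_ ?_)
        · cases n with
          | zero =>
            rw [mul_comm, coeff_mul_X_zero, norm_zero]
            exact (norm_nonneg _).trans (le_max_left _ _)
          | succ n =>
            rw [mul_comm, coeff_mul_X]
            exact (hgood n).trans hQ1u
        · rw [norm_mul, hn0, one_mul]
          exact (hgood n).trans hQ1u
    rcases le_total ‖Q.eval u‖ ‖Q.eval u0‖ with h | h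
    · exact ⟨u0, hu0, fun n => (hcoef n).trans (max_le h le_rfl)⟩
    · exact ⟨u, huT, fun n => (hcoef n).trans (max_le le_rfl h)⟩

/-- for almost all `u` the value at `ϖ u` has the Gauss norm -/
theorem finite_bad (P : C[X]) (ϖ : C) :
    {u | u ∈ TU C ∧ ¬ ∀ n, ‖P.coeff n‖ * ‖ϖ‖ ^ n ≤ ‖P.eval (ϖ * u)‖}.Finite := by
  classical
  by_contra hinf
  obtain ⟨T, hT, hcard⟩ := Set.Infinite.exists_subset_card_eq hinf (P.natDegree + 1)
  set Q := P.comp (Polynomial.C ϖ * X) with hQ
  have hdeg : Q.natDegree ≤ P.natDegree := by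
    refine (natDegree_comp_le).trans ?_
    have : (Polynomial.C ϖ * X).natDegree ≤ 1 := (natDegree_C_mul_le _ _).trans natDegree_X_le
    calc P.natDegree * (Polynomial.C ϖ * X).natDegree ≤ P.natDegree * 1 :=
          Nat.mul_le_mul_left _ this
      _ = P.natDegree := mul_one _
  obtain ⟨u, hu, hgood⟩ := exists_good P.natDegree Q hdeg T (fun u hu => (hT hu).1)
    (by rw [hcard]; omega)
  apply (hT hu).2
  intro n
  have h1 := hgood n
  rw [hQ, comp_C_mul_X_coeff, norm_mul, norm_pow, eval_comp, eval_mul, eval_C, eval_X] at h1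
  exact h1

theorem norm_eval_le {P : C[X]} {x : C} {B : ℝ} (hB : 0 ≤ B)
    (h : ∀ n, ‖P.coeff n‖ * ‖x‖ ^ n ≤ B) : ‖P.eval x‖ ≤ B := by
  rw [eval_eq_sum_range]
  refine IsUltrametricDist.norm_sum_le_of_forall_le_of_nonneg hB fun i _ => ?_
  rw [norm_mul, norm_pow]
  exact h i

/-- Laurent type functions -/
def IsLau (h : C → C) : Prop := ∃ (P : C[X]) (k : ℕ), ∀ x, x ≠ 0 → h x * x ^ k = P.eval x

end Fermat.Agent.TWLoc
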