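import Fermat.Agent.TWLoc.Eval

set_option autoImplicit false
set_option linter.style.haveILetI false

/-! Good functions: one-dimensional families and irreducibility. -/

namespace Fermat.Agent.TWLoc

open Filter Topology

variable {C : Type*} [NontriviallyNormedField C] [IsUltrametricDist C]

variable {τ : Type*} [Fintype τ]

omit [IsUltrametricDist C] [Fintype τ] in
theorem Good.comp {σ : Type*} {F : (τ → C) → C} (hF : Good F) (g : τ → MvPolynomial σ C)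
    (hg : ∀ M : ℝ, 0 ≤ M → M < 1 → ∃ M' : ℝ, 0 ≤ M' ∧ M' < 1 ∧ ∀ q : σ → C,
      (∀ i, ‖q i‖ ≤ M) → ∀ t, ‖MvPolynomial.eval q (g t)‖ ≤ M') :
    Good fun q : σ → C => F fun t => MvPolynomial.eval q (g t) := by
  intro M hM hM1 ε hε
  obtain ⟨M', h0, h1, h2⟩ := hg M hM hM1
  obtain ⟨p, hp⟩ := hF M' h0 h1 ε hε
  refine ⟨MvPolynomial.bind₁ g p, fun q hq => ?_⟩
  have e : MvPolynomial.eval q (MvPolynomial.bind₁ g p) =
      MvPolynomial.eval (fun t => MvPolynomial.eval q (g t)) p := by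
    show MvPolynomial.eval₂Hom _ _ (MvPolynomial.bind₁ g p) = _
    rw [MvPolynomial.eval₂Hom_bind₁]
    rfl
  rw [e]
  exact hp _ (h2 q hq)

omit [IsUltrametricDist C] in
theorem Good.continuousAt {F : (τ → C) → C} (hF : Good F) {P : τ → C} (hP : ∀ i, ‖P i‖ < 1) :
    ContinuousAt F P := by
  obtain ⟨M, hM0, hM1, hM⟩ := exists_bound hP
  have hM' : M < (M + 1) / 2 := by linarith
  have hM2 : (M + 1) / 2 < 1 := by linarith
  rw [Metric.continuousAt_iff]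
  intro ε hε
  obtain ⟨p, hp⟩ := hF ((M + 1) / 2) (by linarith) hM2 (ε / 4) (by positivity)
  have hc : Continuous fun Q : τ → C => MvPolynomial.eval Q p := MvPolynomial.continuous_eval p
  obtain ⟨δ, hδ, h1⟩ := Metric.continuousAt_iff.mp (hc.continuousAt (x := P)) (ε / 4) (by positivity)
  refine ⟨min δ ((1 - M) / 2), lt_min hδ (by linarith), fun Q hQ => ?_⟩
  have h2 := h1 (hQ.trans_le (min_le_left _ _))
  have hQM : ∀ i, ‖Q i‖ ≤ (M + 1) / 2 := by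
    intro i
    have h3 : dist (Q i) (P i) ≤ dist Q P := dist_le_pi_dist Q P i
    have h4 : dist Q P < (1 - M) / 2 := hQ.trans_le (min_le_right _ _)
    have h5 : ‖Q i‖ ≤ ‖P i‖ + ‖Q i - P i‖ := by
      have := norm_add_le (P i) (Q i - P i)
      rwa [add_sub_cancel] at this
    rw [dist_eq_norm] at h3
    have h6 := hM i
    linarith
  have h7 := hp Q hQM
  have h8 := hp P (fun i => (hM i).trans hM'.le)
  rw [dist_eq_norm] at h2 ⊢
  have e : F Q - F P = (F Q - MvPolynomial.eval Q p) +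
      (MvPolynomial.eval Q p - MvPolynomial.eval P p) - (F P - MvPolynomial.eval P p) := by ring
  rw [e]
  have h9 := norm_sub_le (F Q - MvPolynomial.eval Q p + (MvPolynomial.eval Q p -
    MvPolynomial.eval P p)) (F P - MvPolynomial.eval P p)
  have h10 := norm_add_le (F Q - MvPolynomial.eval Q p) (MvPolynomial.eval Q p -
    MvPolynomial.eval P p)
  linarith

variable (C) in
/-- generic units -/
def UU : Filter C := cofinite ⊓ 𝓟 (TU C)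

omit [IsUltrametricDist C] in
theorem eventually_UU {q : C → Prop} : (∀ᶠ u in UU C, q u) ↔ {u | u ∈ TU C ∧ ¬ q u}.Finite := by
  rw [UU, eventually_inf_principal, eventually_cofinite]
  refine iff_of_eq (congrArg _ (Set.ext fun u => ?_))
  simp only [Set.mem_ofPred_eq, Classical.not_imp]

variable [IsAlgClosed C] [CharZero C]

instance : (UU C).NeBot := by
  rw [UU, inf_principal_neBot_iff]
  intro s hs
  rw [mem_cofinite] at hs
  by_contra h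
  rw [Set.not_nonempty_iff_eq_empty] at h
  apply TU_infinite (C := C)
  refine hs.subset fun u hu hus => ?_
  have : u ∈ s ∩ TU C := ⟨hus, hu⟩
  rw [h] at this
  exact this

omit [IsAlgClosed C] [CharZero C] [IsUltrametricDist C] in
theorem UU_mem : ∀ᶠ u in UU C, u ∈ TU C :=
  (mem_inf_of_right (mem_principal_self _) : TU C ∈ UU C)

theorem Good.annFun {F : (τ → C) → C} (hF : Good F) {Q : C → τ → C}
    (hQ : ∀ i, IsLau fun x => Q x i) {R1 R2 : ℝ}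
    (hlt : ∀ x, x ≠ 0 → R1 < ‖x‖ → ‖x‖ < R2 → ∀ i, ‖Q x i‖ < 1) :
    AnnFun R1 R2 fun x => F (Q x) := by
  intro y1 y2 hy1 hR1 h12 hR2 ε hε
  have hb : ∀ i, ∃ M, 0 ≤ M ∧ M < 1 ∧ ∀ x, ‖y1‖ ≤ ‖x‖ → ‖x‖ ≤ ‖y2‖ → ‖Q x i‖ ≤ M := by
    intro i
    have hy1' : 0 < ‖y1‖ := norm_pos_iff.mpr hy1
    refine (hQ i).bound hy1 h12 (fun x hx => ?_) (fun x hx => ?_)
    · exact hlt x (norm_pos_iff.mp (by rw [hx]; exact hy1')) (by rw [hx]; exact hR1)
        (by rw [hx]; exact h12.trans_lt hR2) i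
    · exact hlt x (norm_pos_iff.mp (by rw [hx]; exact hy1'.trans_le h12))
        (by rw [hx]; exact hR1.trans_le h12) (by rw [hx]; exact hR2) i
  choose M hM0 hM1 hM using hb
  obtain ⟨M', hM'0, hM'1, hM'⟩ : ∃ M' : ℝ, 0 ≤ M' ∧ M' < 1 ∧ ∀ i, M i ≤ M' := by
    rcases isEmpty_or_nonempty τ with h | h
    · exact ⟨0, le_rfl, one_pos, fun i => (IsEmpty.false i).elim⟩
    · obtain ⟨i, hi⟩ := Finite.exists_max M
      exact ⟨M i, hM0 i, hM1 i, hi⟩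
  obtain ⟨p, hp⟩ := hF M' hM'0 hM'1 ε hε
  exact ⟨fun x => MvPolynomial.eval (Q x) p, IsLau.mvpoly hQ p, fun x hx1 hx2 =>
    hp _ fun i => (hM i x hx1 hx2).trans (hM' i)⟩

/-- generic points on a circle of an annulus -/
theorem Good.generic {F : (τ → C) → C} (hF : Good F) {Q : C → τ → C}
    (hQ : ∀ i, IsLau fun x => Q x i) {R1 R2 : ℝ}
    (hlt : ∀ x, x ≠ 0 → R1 < ‖x‖ → ‖x‖ < R2 → ∀ i, ‖Q x i‖ < 1)
    {x0 : C} (hx0 : x0 ≠ 0) (hx1 : R1 < ‖x0‖) (hx2 : ‖x0‖ < R2) (hne : F (Q x0) ≠ 0) {ϖ : C}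
    (hϖ : ϖ ≠ 0) (hϖ1 : R1 < ‖ϖ‖) (hϖ2 : ‖ϖ‖ < R2) : ∀ᶠ u in UU C, F (Q (ϖ * u)) ≠ 0 := by
  rw [eventually_UU]
  refine ((hF.annFun hQ hlt).finite_zeros hx0 hx1 hx2 hne hϖ hϖ1 hϖ2).subset fun u hu => ?_
  exact ⟨hu.1, not_not.mp hu.2⟩

omit [IsUltrametricDist C] [IsAlgClosed C] [CharZero C] in
/-- moving away from zero -/
theorem Good.nonzero {F : (τ → C) → C} (hF : Good F) {Q : C → τ → C}
    (hc : ∀ i, ContinuousAt (fun x => Q x i) 0) (hlt : ∀ i, ‖Q 0 i‖ < 1) (hne : F (Q 0) ≠ 0)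
    {δ : ℝ} (hδ : 0 < δ) : ∃ x, x ≠ 0 ∧ ‖x‖ < δ ∧ F (Q x) ≠ 0 := by
  have h1 : ContinuousAt (fun x => F (Q x)) 0 :=
    ContinuousAt.comp (f := Q) (g := F) (hF.continuousAt hlt) (continuousAt_pi.mpr hc)
  have h2 : ∀ᶠ x in 𝓝 (0 : C), F (Q x) ≠ 0 := h1.eventually_ne hne
  have h3 : ∀ᶠ x in 𝓝 (0 : C), ‖x‖ < δ := by
    have := Metric.ball_mem_nhds (0 : C) hδ
    filter_upwards [this] with x hx
    rwa [Metric.mem_ball, dist_zero_right] at hx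
  have h4 : ∀ᶠ x in 𝓝[≠] (0 : C), F (Q x) ≠ 0 ∧ ‖x‖ < δ :=
    (h2.and h3).filter_mono nhdsWithin_le_nhds
  have h5 : ∀ᶠ x in 𝓝[≠] (0 : C), x ≠ 0 := self_mem_nhdsWithin
  obtain ⟨x, ⟨hx1, hx2⟩, hx3⟩ := (h4.and h5).exists
  exact ⟨x, hx3, hx2, hx1⟩

/-- generic points on a circle of a disc -/
theorem Good.generic_disc {F : (τ → C) → C} (hF : Good F) {Q : C → τ → C}
    (hQ : ∀ i, IsLau fun x => Q x i) (hc : ∀ i, ContinuousAt (fun x => Q x i) 0) {R2 : ℝ}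
    (hlt : ∀ x, ‖x‖ < R2 → ∀ i, ‖Q x i‖ < 1)
    {x0 : C} (hx2 : ‖x0‖ < R2) (hne : F (Q x0) ≠ 0) {ϖ : C}
    (hϖ : ϖ ≠ 0) (hϖ2 : ‖ϖ‖ < R2) : ∀ᶠ u in UU C, F (Q (ϖ * u)) ≠ 0 := by
  have hR2 : 0 < R2 := (norm_nonneg _).trans_lt hx2
  obtain ⟨x1, h1, h2, h3⟩ : ∃ x, x ≠ 0 ∧ ‖x‖ < R2 ∧ F (Q x) ≠ 0 := by
    by_cases h0 : x0 = 0
    · subst h0
      exact hF.nonzero hc (hlt 0 hx2) hne hR2
    · exact ⟨x0, h0, hx2, hne⟩
  exact hF.generic hQ (R1 := 0) (fun x _ _ hx i => hlt x hx i) h1 (norm_pos_iff.mpr h1) h2 h3 hϖ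
    (norm_pos_iff.mpr hϖ) hϖ2

omit [IsUltrametricDist C] [IsAlgClosed C] [CharZero C] [Fintype τ] in
/-- irreducible sets -/
def Irr (X : Set (τ → C)) : Prop := ∀ F G : (τ → C) → C, Good F → Good G →
  (∃ P ∈ X, F P ≠ 0) → (∃ P ∈ X, G P ≠ 0) → ∃ P ∈ X, F P ≠ 0 ∧ G P ≠ 0

end Fermat.Agent.TWLoc
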