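import Fermat.Agent.TWLoc.Prod

set_option autoImplicit false
set_option linter.style.haveILetI false

/-! Ideals of power series vanishing on sets of points. -/

namespace Fermat.Agent.TWLoc

open Filter Topology MvPowerSeries

section decomp

variable {τ : Type*} [Fintype τ] {O : Type*} [CommRing O]

open Classical in
/-- power series of high order are combinations of the variables -/
theorem exists_decomp {f : MvPowerSeries τ O} {N : ℕ} (hf : ∀ d, deg d < N + 1 → coeff d f = 0) :
    ∃ g : τ → MvPowerSeries τ O, f = ∑ i, X i * g i ∧ ∀ i d, deg d < N → coeff d (g i) = 0 := by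
  have hsel : ∀ d : τ →₀ ℕ, d ≠ 0 → ∃ i, d i ≠ 0 := by
    intro d hd
    by_contra h
    push Not at h
    exact hd (Finsupp.ext h)
  let sel : (τ →₀ ℕ) → Option τ := fun d => if h : d ≠ 0 then some (hsel d h).choose else none
  have hsel1 : ∀ d i, sel d = some i → d i ≠ 0 := by
    intro d i h
    by_cases hd : d ≠ 0
    · simp only [sel, dif_pos hd, Option.some.injEq] at h
      rw [← h]; exact (hsel d hd).choose_spec
    · simp only [sel, dif_neg hd] at h
      exact absurd h (by simp)
  have hsel2 : ∀ d, d ≠ 0 → ∃ i, sel d = some i := by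
    intro d hd
    exact ⟨_, dif_pos hd⟩
  let g : τ → MvPowerSeries τ O := fun i d =>
    if sel (d + Finsupp.single i 1) = some i then coeff (d + Finsupp.single i 1) f else 0
  have hg : ∀ i d, coeff d (g i) =
      if sel (d + Finsupp.single i 1) = some i then coeff (d + Finsupp.single i 1) f else 0 :=
    fun i d => rfl
  have hX : ∀ i d, coeff d (X i * g i) = if sel d = some i then coeff d f else 0 := by
    intro i d
    by_cases hd : d i = 0
    · have h1 : ¬ Finsupp.single i 1 ≤ d := by
        intro h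
        have := h i
        rw [Finsupp.single_eq_same, hd] at this
        omega
      have h2 : sel d ≠ some i := fun h => hsel1 d i h hd
      rw [if_neg h2, X_def, coeff_monomial_mul, if_neg h1]
    · have h1 : Finsupp.single i 1 ≤ d := by
        rw [Finsupp.single_le_iff]
        omega
      have h3 : d - Finsupp.single i 1 + Finsupp.single i 1 = d := tsub_add_cancel_of_le h1
      rw [X_def, coeff_monomial_mul, if_pos h1, one_mul, hg, h3]
  refine ⟨g, ?_, ?_⟩
  · ext d
    rw [map_sum]
    simp only [hX]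
    by_cases hd : d = 0
    · subst hd
      have h1 : coeff 0 f = 0 := hf 0 (by simp [deg])
      rw [h1]
      symm
      exact Finset.sum_eq_zero fun i _ => by split_ifs <;> rfl
    · obtain ⟨i, hi⟩ := hsel2 d hd
      rw [hi, Finset.sum_eq_single i]
      · rw [if_pos rfl]
      · intro j _ hj
        rw [if_neg]
        intro h
        exact hj (Option.some.inj h).symm
      · intro h
        exact absurd (Finset.mem_univ _) h
  · intro i d hd
    rw [hg]
    split_ifs
    · apply hf
      rw [deg_add]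
      have : deg (Finsupp.single i 1 : τ →₀ ℕ) = 1 := by
        simp [deg, Finsupp.single_apply]
      omega
    · rfl

end decomp

variable {C : Type*} [NontriviallyNormedField C] [IsUltrametricDist C]
  {τ : Type*} [Fintype τ] {O : Type*} [CommRing O] {φ : O →+* C}

omit [IsUltrametricDist C] in
theorem norm_hom_pow [IsUltrametricDist C] {ψ : MvPowerSeries τ O →+* C} {κ : ℝ} (hκ : 0 ≤ κ)
    (hψ : ∀ f, constantCoeff f = 0 → ‖ψ f‖ ≤ κ) (hψ1 : ∀ f, ‖ψ f‖ ≤ 1) (N : ℕ) :
    ∀ f, (∀ d, deg d < N → coeff d f = 0) → ‖ψ f‖ ≤ κ ^ N := by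
  induction N with
  | zero => intro f _; rw [pow_zero]; exact hψ1 f
  | succ N ih =>
    intro f hf
    obtain ⟨g, hg, hg'⟩ := exists_decomp hf
    rw [hg, map_sum]
    refine IsUltrametricDist.norm_sum_le_of_forall_le_of_nonneg (by positivity) fun i _ => ?_
    rw [map_mul, norm_mul, pow_succ']
    exact mul_le_mul (hψ _ (by simp)) (ih _ (hg' i)) (norm_nonneg _) hκ

variable (hφ : ∀ a, ‖φ a‖ ≤ 1) [CompleteSpace C]

include hφ in
/-- contracting homomorphisms are evaluations -/
theorem hom_eq_ev {ψ : MvPowerSeries τ O →+* C} (hψC : ∀ a, ψ (MvPowerSeries.C a) = φ a) {κ : ℝ}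
    (hκ : 0 ≤ κ) (hκ1 : κ < 1) (hψ : ∀ f, constantCoeff f = 0 → ‖ψ f‖ ≤ κ)
    (f : MvPowerSeries τ O) : ψ f = ev φ (fun t => ψ (X t)) f := by
  classical
  have hψ1 : ∀ f, ‖ψ f‖ ≤ 1 := by
    intro f
    have e : f = MvPowerSeries.C (constantCoeff f) + (f - MvPowerSeries.C (constantCoeff f)) := by
      ring
    rw [e, map_add, hψC]
    refine (IsUltrametricDist.norm_add_le_max _ _).trans (max_le (hφ _) ?_)
    exact (hψ _ (by simp)).trans hκ1.le
  have hP : ∀ t, ‖ψ (X t)‖ ≤ κ := fun t => hψ _ (by simp)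
  have hP1 : ∀ t, ‖ψ (X t)‖ < 1 := fun t => (hP t).trans_lt hκ1
  -- compare on truncations
  have key : ∀ N : ℕ, ‖ψ f - ev φ (fun t => ψ (X t)) f‖ ≤ κ ^ N := by
    intro N
    set s := (finite_deg (τ := τ) N).toFinset with hs
    set p : MvPolynomial τ O := ∑ d ∈ s, MvPolynomial.monomial d (coeff d f) with hp
    have hcoeff : ∀ d, coeff d (p : MvPowerSeries τ O) = if deg d < N then coeff d f else 0 := by
      intro d
      rw [hp, MvPolynomial.coeff_coe, MvPolynomial.coeff_sum]
      simp only [MvPolynomial.coeff_monomial]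
      rw [Finset.sum_ite_eq']
      simp [hs]
    have hpoly : ψ (p : MvPowerSeries τ O) = ev φ (fun t => ψ (X t)) (p : MvPowerSeries τ O) := by
      have h1 : ∀ q : MvPolynomial τ O, ψ (q : MvPowerSeries τ O) =
          evHom hφ hP1 (q : MvPowerSeries τ O) := by
        intro q
        induction q using MvPolynomial.induction_on with
        | C a =>
          rw [MvPolynomial.coe_C, hψC, evHom_apply, ev_C]
        | add q r hq hr => rw [MvPolynomial.coe_add, map_add, map_add, hq, hr]
        | mul_X q i hq =>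
          rw [MvPolynomial.coe_mul, map_mul, map_mul, hq, MvPolynomial.coe_X, evHom_apply hφ hP1
            (X i), ev_X]
      exact h1 p
    have e : ψ f - ev φ (fun t => ψ (X t)) f = ψ (f - p) - ev φ (fun t => ψ (X t)) (f - p) := by
      have h2 : ev φ (fun t => ψ (X t)) (f - p) = ev φ (fun t => ψ (X t)) f -
          ev φ (fun t => ψ (X t)) (p : MvPowerSeries τ O) := map_sub (evHom hφ hP1) _ _
      rw [h2, map_sub, hpoly]; ring
    have hz : ∀ d, deg d < N → coeff d (f - (p : MvPowerSeries τ O)) = 0 := by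
      intro d hd
      rw [map_sub, hcoeff, if_pos hd, sub_self]
    rw [e]
    exact (nsub_le_max _ _).trans (max_le (norm_hom_pow hκ hψ hψ1 N _ hz)
      (norm_ev_le hφ hκ hκ1.le hP hz))
  have h0 : ‖ψ f - ev φ (fun t => ψ (X t)) f‖ ≤ 0 := by
    refine le_of_forall_pos_le_add fun ε hε => ?_
    obtain ⟨N, hN⟩ := exists_pow_lt_of_lt_one hε hκ1
    rw [zero_add]
    exact (key N).trans hN.le
  exact sub_eq_zero.mp (norm_le_zero_iff.mp h0)

/-- the ideal of a set of points -/
def II (X : Set (τ → C)) : Ideal (MvPowerSeries τ O) where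
  carrier := {f | ∀ P ∈ X, (∀ t, ‖P t‖ < 1) → ev φ P f = 0}
  zero_mem' := fun P _ hP => map_zero (evHom hφ hP)
  add_mem' := fun {a b} ha hb P hPX hP => by
    have h1 := map_add (evHom hφ hP) a b
    rw [evHom_apply, evHom_apply, evHom_apply, ha P hPX hP, hb P hPX hP, add_zero] at h1
    exact h1
  smul_mem' := fun c x hx P hPX hP => by
    have h1 := map_mul (evHom hφ hP) c x
    rw [evHom_apply, evHom_apply, evHom_apply, hx P hPX hP, mul_zero] at h1
    exact h1

theorem mem_II {X : Set (τ → C)} {f : MvPowerSeries τ O} :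
    f ∈ II hφ X ↔ ∀ P ∈ X, (∀ t, ‖P t‖ < 1) → ev φ P f = 0 := Iff.rfl

theorem II_anti {X Y : Set (τ → C)} (h : X ⊆ Y) : II (O := O) hφ Y ≤ II hφ X :=
  fun _ hf P hP => hf P (h hP)

theorem II_prime {X : Set (τ → C)} (hX : ∀ P ∈ X, ∀ t, ‖P t‖ < 1) (hne : X.Nonempty)
    (hirr : Irr X) : (II (O := O) hφ X).IsPrime := by
  refine ⟨?_, ?_⟩
  · obtain ⟨P, hP⟩ := hne
    intro h
    have h1 : (1 : MvPowerSeries τ O) ∈ II hφ X := by rw [h]; trivial
    have h2 := h1 P hP (hX P hP)
    have h3 := map_one (evHom hφ (hX P hP))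
    rw [evHom_apply, h2] at h3
    exact zero_ne_one h3
  · intro f g hfg
    by_contra hcon
    push Not at hcon
    obtain ⟨hf, hg⟩ := hcon
    simp only [mem_II] at hf hg
    push Not at hf hg
    obtain ⟨P, hP, -, hPf⟩ := hf
    obtain ⟨P', hP', -, hPg⟩ := hg
    obtain ⟨P'', hP'', h1, h2⟩ := hirr _ _ (good_ev hφ f) (good_ev hφ g) ⟨P, hP, hPf⟩ ⟨P', hP', hPg⟩
    have h3 := hfg P'' hP'' (hX P'' hP'')
    have h4 := map_mul (evHom hφ (hX P'' hP'')) f g
    rw [evHom_apply, evHom_apply, evHom_apply, h3] at h4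
    exact (mul_ne_zero h1 h2) h4.symm

omit [CompleteSpace C] [IsUltrametricDist C] [Fintype τ] in
/-- transport of irreducible sets -/
theorem Irr.reindex {T : Type*} {X : Set (T → C)} (hX : Irr X) (e : T ≃ τ) :
    Irr {P : τ → C | (fun t => P (e t)) ∈ X} := by
  rintro F G hF hG ⟨P, hP, hPF⟩ ⟨P', hP', hPG⟩
  have comp : ∀ F : (τ → C) → C, Good F → Good fun Q : T → C => F fun t => Q (e.symm t) := by
    intro F hF
    have := hF.comp (fun t => MvPolynomial.X (e.symm t) : τ → MvPolynomial T C)
      (fun M hM hM1 => ⟨M, hM, hM1, fun q hq t => by simpa using hq _⟩)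
    simpa using this
  have back : ∀ P : τ → C, (fun t => (fun t => P (e t)) (e.symm t)) = P := by
    intro P; funext t; simp
  obtain ⟨Q, hQ, h1, h2⟩ := hX _ _ (comp F hF) (comp G hG) ⟨_, hP, by rw [back]; exact hPF⟩
    ⟨_, hP', by rw [back]; exact hPG⟩
  refine ⟨fun t => Q (e.symm t), ?_, h1, h2⟩
  show (fun t => Q (e.symm (e t))) ∈ X
  simpa using hQ

end Fermat.Agent.TWLoc
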