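import Fermat.Agent.TWLoc.Points

set_option autoImplicit false
set_option linter.style.haveILetI false

/-! Points of finite algebras; the field `ℂ_[p]`; the finite sets `𝓔`. -/

namespace Fermat.Agent.TWLoc

open IsLocalRing Fermat.Agent.TWPatch

section integral

variable {C : Type*} [NontriviallyNormedField C] [IsUltrametricDist C]

/-- integral elements have norm at most one -/
theorem norm_le_one_of_integral {O : Type*} [CommRing O] {φ : O →+* C} (hφ : ∀ a, ‖φ a‖ ≤ 1)
    {x : C} (hx : φ.IsIntegralElem x) : ‖x‖ ≤ 1 := by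
  obtain ⟨P, hP, hP0⟩ := hx
  by_contra hcon
  push Not at hcon
  have hx0 : 0 < ‖x‖ := lt_trans one_pos hcon
  rcases Nat.eq_zero_or_pos P.natDegree with h0 | h0
  · have h1 : P = 1 := Polynomial.eq_one_of_monic_natDegree_zero hP h0
    rw [h1, Polynomial.eval₂_one] at hP0
    exact one_ne_zero hP0
  rw [Polynomial.eval₂_eq_sum_range, Finset.sum_range_succ] at hP0
  have hlead : P.coeff P.natDegree = 1 := hP
  rw [hlead, map_one, one_mul] at hP0
  have h1 : x ^ P.natDegree = -∑ i ∈ Finset.range P.natDegree, φ (P.coeff i) * x ^ i := by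
    linear_combination hP0
  obtain ⟨i, hi, hle⟩ := IsUltrametricDist.exists_norm_finsetSum_le_of_nonempty
    (Finset.nonempty_range_iff.mpr h0.ne') (fun i => φ (P.coeff i) * x ^ i)
  have h2 : ‖x‖ ^ P.natDegree ≤ ‖x‖ ^ i := by
    calc ‖x‖ ^ P.natDegree = ‖x ^ P.natDegree‖ := (norm_pow _ _).symm
      _ = ‖∑ i ∈ Finset.range P.natDegree, φ (P.coeff i) * x ^ i‖ := by rw [h1, norm_neg]
      _ ≤ ‖φ (P.coeff i) * x ^ i‖ := hle
      _ = ‖φ (P.coeff i)‖ * ‖x‖ ^ i := by rw [norm_mul, norm_pow]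
      _ ≤ 1 * ‖x‖ ^ i := mul_le_mul_of_nonneg_right (hφ _) (by positivity)
      _ = ‖x‖ ^ i := one_mul _
  have h3 : i < P.natDegree := Finset.mem_range.mp hi
  exact absurd h2 (not_le.mpr (pow_lt_pow_right₀ hcon h3))

end integral

section finite

variable {O R : Type*} [CommRing O] [CNL O] [CommRing R] [CNL R] (θ : O →+* R) [IsLocalHom θ]

omit [IsLocalHom θ] in
/-- the maximal ideal of a finite algebra is nilpotent modulo the maximal ideal of the base -/
theorem exists_pow_le (hfin : θ.Finite) [IsLocalHom θ] :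
    ∃ N : ℕ, maximalIdeal R ^ N ≤ (maximalIdeal O).map θ := by
  have hint : θ.IsIntegral := hfin.to_isIntegral
  have hrad : ((maximalIdeal O).map θ).radical = maximalIdeal R := by
    rw [Ideal.radical_eq_sInf]
    apply le_antisymm
    · exact sInf_le ⟨IsLocalRing.map_maximalIdeal_le θ, inferInstance⟩
    · refine le_sInf ?_
      rintro P ⟨hP, hPp⟩
      haveI := hPp
      have h1 : P.comap θ = maximalIdeal O := by
        have h2 : maximalIdeal O ≤ P.comap θ := Ideal.map_le_iff_le_comap.mp hP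
        exact ((maximalIdeal.isMaximal O).eq_of_le (Ideal.comap_ne_top θ hPp.ne_top) h2).symm
      have h2 : P.IsMaximal := Ideal.isMaximal_of_isIntegral_of_isMaximal_comap' θ hint P
        (by rw [h1]; exact maximalIdeal.isMaximal O)
      exact (IsLocalRing.eq_maximalIdeal h2).symm.le
  obtain ⟨N, hN⟩ := Ideal.exists_radical_pow_le_of_fg ((maximalIdeal O).map θ)
    (IsNoetherian.noetherian _)
  rw [hrad] at hN
  exact ⟨N, hN⟩

variable {C : Type*} [NontriviallyNormedField C] [IsUltrametricDist C] {φ : O →+* C}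
  (hφ : ∀ a, ‖φ a‖ ≤ 1)

include hφ in
omit [IsLocalHom θ] [CNL O] [CNL R] in
theorem norm_le_one_of_finite (hfin : θ.Finite) {ψ : R →+* C} (hψ : ψ.comp θ = φ) (r : R) :
    ‖ψ r‖ ≤ 1 := by
  refine norm_le_one_of_integral hφ ?_
  obtain ⟨P, hP, hP0⟩ := hfin.to_isIntegral r
  refine ⟨P, hP, ?_⟩
  have h1 := congrArg ψ hP0
  rw [map_zero, Polynomial.hom_eval₂, hψ] at h1
  exact h1

include hφ in
/-- homomorphisms from finite local algebras are contracting -/
theorem exists_contr (hfin : θ.Finite) {c : ℝ} (hc1 : c < 1)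
    (hc : ∀ a ∈ maximalIdeal O, ‖φ a‖ ≤ c) :
    ∃ M : ℝ, M < 1 ∧ ∀ ψ : R →+* C, ψ.comp θ = φ → ∀ r ∈ maximalIdeal R, ‖ψ r‖ ≤ M := by
  obtain ⟨N, hN⟩ := exists_pow_le θ hfin
  have hc0 : 0 ≤ c := by
    have := hc 0 (zero_mem _)
    rwa [map_zero, norm_zero] at this
  -- elements of the extended ideal
  have h1 : ∀ ψ : R →+* C, ψ.comp θ = φ → ∀ r ∈ (maximalIdeal O).map θ, ‖ψ r‖ ≤ c := by
    intro ψ hψ r hr
    refine Submodule.span_induction (p := fun r _ => ‖ψ r‖ ≤ c) ?_ ?_ ?_ ?_ hr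
    · rintro _ ⟨a, ha, rfl⟩
      rw [← RingHom.comp_apply, hψ]
      exact hc a ha
    · rw [map_zero, norm_zero]; exact hc0
    · intro x y _ _ hx hy
      rw [map_add]
      exact (IsUltrametricDist.norm_add_le_max _ _).trans (max_le hx hy)
    · intro a x _ hx
      rw [smul_eq_mul, map_mul, norm_mul]
      exact (mul_le_of_le_one_left (norm_nonneg _)
        (norm_le_one_of_finite θ hφ hfin hψ a)).trans hx
  -- a number `M < 1` with `c ≤ M ^ N`
  have hM : ∃ M : ℝ, 0 ≤ M ∧ M < 1 ∧ c < M ^ N := by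
    have hcont : ContinuousAt (fun r : ℝ => r ^ N) 1 := by fun_prop
    have h4 : ∀ᶠ r in nhds (1 : ℝ), c < r ^ N :=
      hcont.eventually_const_lt (by simpa using hc1)
    obtain ⟨l, b, hb, hb2⟩ := (mem_nhds_iff_exists_Ioo_subset.mp h4)
    obtain ⟨r, hr1, hr2⟩ := exists_between (max_lt one_pos hb.1 : max (0 : ℝ) l < 1)
    exact ⟨r, ((le_max_left _ _).trans_lt hr1).le, hr2,
      hb2 ⟨(le_max_right _ _).trans_lt hr1, hr2.trans hb.2⟩⟩
  obtain ⟨M, hM0, hM1, hM⟩ := hM
  refine ⟨M, hM1, fun ψ hψ r hr => ?_⟩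
  have h2 := h1 ψ hψ (r ^ N) (hN (Ideal.pow_mem_pow hr N))
  rw [map_pow, norm_pow] at h2
  by_contra hcon
  push Not at hcon
  have h3 : M ^ N ≤ ‖ψ r‖ ^ N := pow_le_pow_left₀ hM0 hcon.le N
  linarith

include hφ in
/-- composites with local homomorphisms are contracting -/
theorem contr_comp (hfin : θ.Finite) {c : ℝ} (hc1 : c < 1)
    (hc : ∀ a ∈ maximalIdeal O, ‖φ a‖ ≤ c) {n : ℕ} (ev : MvPowerSeries (Fin n) O →+* R)
    [IsLocalHom ev] (hev : ∀ a, ev (MvPowerSeries.C a) = θ a) {ψ : R →+* C} (hψ : ψ.comp θ = φ) :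
    Contr φ (ψ.comp ev) := by
  obtain ⟨M, hM1, hM⟩ := exists_contr θ hφ hfin hc1 hc
  refine ⟨fun a => ?_, M, hM1, fun f hf => ?_⟩
  · rw [RingHom.comp_apply, hev, ← RingHom.comp_apply, hψ]
  · rw [RingHom.comp_apply]
    apply hM ψ hψ
    have := map_pow_mem ev (k := 1) (a := f) (by rwa [pow_one])
    rwa [pow_one] at this

omit [CNL O] [CNL R] [IsLocalHom θ] [IsUltrametricDist C] in
/-- points separate the elements of reduced finite torsion free algebras -/
theorem exists_point_ne [IsDomain O] [IsReduced R] [IsAlgClosed C] (hfin : θ.Finite)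
    (hinj : Function.Injective φ) (htf : ∀ a r, θ a * r = 0 → a = 0 ∨ r = 0) {x : R}
    (hx : x ≠ 0) : ∃ ψ : R →+* C, ψ.comp θ = φ ∧ ψ x ≠ 0 := by
  have h1 : ∃ 𝔭 ∈ minimalPrimes R, x ∉ 𝔭 := by
    by_contra hcon
    push Not at hcon
    apply hx
    have h2 : x ∈ sInf (minimalPrimes R) := Ideal.mem_sInf.mpr fun {P} hP => hcon P hP
    have h3 : sInf (minimalPrimes R) = nilradical R := by
      have := Ideal.sInf_minimalPrimes (I := (⊥ : Ideal R))
      exact this
    rw [h3, nilradical_eq_zero] at h2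
    exact h2
  obtain ⟨𝔭, h𝔭, hx𝔭⟩ := h1
  haveI : 𝔭.IsPrime := h𝔭.1.1
  have hcomap : ∀ a, θ a ∈ 𝔭 → a = 0 := by
    intro a ha
    obtain ⟨y, hy, hxy⟩ := Ideal.exists_mul_mem_of_mem_minimalPrimes (I := (⊥ : Ideal R)) h𝔭 ha
    rw [Ideal.mem_bot] at hxy
    rcases htf a y hxy with h | h
    · exact h
    · exact absurd (h ▸ zero_mem _) hy
  letI alg : Algebra O (R ⧸ 𝔭) := ((Ideal.Quotient.mk 𝔭).comp θ).toAlgebra
  letI algC : Algebra O C := φ.toAlgebra
  haveI : Module.IsTorsionFree O (R ⧸ 𝔭) := by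
    rw [Module.isTorsionFree_iff_algebraMap_injective]
    rw [injective_iff_map_eq_zero]
    intro a ha
    apply hcomap
    exact Ideal.Quotient.eq_zero_iff_mem.mp ha
  haveI : Module.IsTorsionFree O C := by
    rw [Module.isTorsionFree_iff_algebraMap_injective]
    exact hinj
  haveI : Algebra.IsIntegral O (R ⧸ 𝔭) := by
    constructor
    intro y
    obtain ⟨r, rfl⟩ := Ideal.Quotient.mk_surjective y
    obtain ⟨P, hP, hP0⟩ := hfin.to_isIntegral r
    refine ⟨P, hP, ?_⟩
    have h1 := congrArg (Ideal.Quotient.mk 𝔭) hP0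
    rw [map_zero, Polynomial.hom_eval₂] at h1
    exact h1
  let L : (R ⧸ 𝔭) →ₐ[O] C := IsAlgClosed.lift
  have hLinj : Function.Injective L := by
    rw [injective_iff_map_eq_zero]
    intro y hy
    by_contra hy0
    -- `y` integral, so divides a nonzero element of `O`
    have hker : (RingHom.ker (L : (R ⧸ 𝔭) →+* C)).comap (algebraMap O (R ⧸ 𝔭)) = ⊥ := by
      rw [eq_bot_iff]
      intro a ha
      rw [Ideal.mem_comap, RingHom.mem_ker] at ha
      have : L (algebraMap O (R ⧸ 𝔭) a) = algebraMap O C a := L.commutes a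
      rw [Ideal.mem_bot]
      apply hinj
      rw [map_zero]
      exact this.symm.trans ha
    have h5 := Ideal.eq_bot_of_comap_eq_bot hker
    have h6 : y ∈ RingHom.ker (L : (R ⧸ 𝔭) →+* C) := hy
    rw [h5] at h6
    exact hy0 h6
  refine ⟨(L : (R ⧸ 𝔭) →+* C).comp (Ideal.Quotient.mk 𝔭), ?_, ?_⟩
  · ext a
    exact L.commutes a
  · intro h
    apply hx𝔭
    rw [← Ideal.Quotient.eq_zero_iff_mem]
    apply hLinj
    rw [map_zero]
    exact h

end finite

end Fermat.Agent.TWLoc
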