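import Fermat.Agent.TWLoc.Mat
import Fermat.Agent.TWPatch.Eval

set_option autoImplicit false
set_option linter.style.haveILetI false

/-! The universal pairs of matrices `Φ, Σ` over power series rings. -/

namespace Fermat.Agent.TWLoc

open IsLocalRing Fermat.Agent.TWPatch

section sqrt

variable {A : Type*} [CommRing A] [CNL A]

theorem isUnit_two_mul_add (h2 : IsUnit (2 : A)) {ε x : A} (hε : ε ^ 2 = 1)
    (hx : x ∈ maximalIdeal A) : IsUnit (2 * ε + x) := by
  have hεu : IsUnit ε := IsUnit.of_mul_eq_one ε (by rw [← pow_two]; exact hε)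
  by_contra h
  have h1 : 2 * ε + x ∈ maximalIdeal A := h
  have h3 : 2 * ε ∈ maximalIdeal A := by
    have := sub_mem h1 hx
    rwa [add_sub_cancel_right] at this
  exact h3 (h2.mul hεu)

theorem exists_sqrt (h2 : IsUnit (2 : A)) {a ε : A} (hε : ε ^ 2 = 1)
    (ha : a - 1 ∈ maximalIdeal A) : ∃ x, x ^ 2 = a ∧ x - ε ∈ maximalIdeal A := by
  have hεu : IsUnit ε := IsUnit.of_mul_eq_one ε (by rw [← pow_two]; exact hε)
  have hmon : (Polynomial.X ^ 2 - Polynomial.C a : Polynomial A).Monic :=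
    Polynomial.monic_X_pow_sub_C a two_ne_zero
  obtain ⟨x, hx, hx2⟩ := HenselianRing.is_henselian (I := maximalIdeal A)
    (Polynomial.X ^ 2 - Polynomial.C a) hmon ε (by
      rw [Polynomial.eval_sub, Polynomial.eval_pow, Polynomial.eval_X, Polynomial.eval_C, hε]
      have := neg_mem ha
      rwa [neg_sub] at this) (by
      have h3 : (Polynomial.derivative (Polynomial.X ^ 2 - Polynomial.C a)).eval ε = 2 * ε := by
        simp
        ring
      rw [h3]
      exact (h2.mul hεu).map _)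
  refine ⟨x, ?_, hx2⟩
  rw [Polynomial.IsRoot, Polynomial.eval_sub, Polynomial.eval_pow, Polynomial.eval_X,
    Polynomial.eval_C, sub_eq_zero] at hx
  exact hx

theorem sqrt_unique (h2 : IsUnit (2 : A)) {x y ε : A} (hε : ε ^ 2 = 1) (h : x ^ 2 = y ^ 2)
    (hx : x - ε ∈ maximalIdeal A) (hy : y - ε ∈ maximalIdeal A) : x = y := by
  have h3 := isUnit_two_mul_add h2 hε (add_mem hx hy)
  have e : 2 * ε + (x - ε + (y - ε)) = x + y := by ring
  rw [e] at h3
  have h4 : (x - y) * (x + y) = 0 := by linear_combination h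
  exact sub_eq_zero.mp (h3.mul_left_eq_zero.mp h4)

open Classical in
/-- the square root near `ε` -/
noncomputable def sq (ε a : A) : A :=
  if h : ∃ x, x ^ 2 = a ∧ x - ε ∈ maximalIdeal A then h.choose else 0

theorem sq_spec (h2 : IsUnit (2 : A)) {a ε : A} (hε : ε ^ 2 = 1) (ha : a - 1 ∈ maximalIdeal A) :
    sq ε a ^ 2 = a ∧ sq ε a - ε ∈ maximalIdeal A := by
  have h := exists_sqrt h2 hε ha
  rw [sq, dif_pos h]
  exact h.choose_spec

theorem sq_eq (h2 : IsUnit (2 : A)) {a ε x : A} (hε : ε ^ 2 = 1) (ha : a - 1 ∈ maximalIdeal A)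
    (h : x ^ 2 = a) (hx : x - ε ∈ maximalIdeal A) : sq ε a = x := by
  obtain ⟨h3, h4⟩ := sq_spec h2 hε ha
  exact sqrt_unique h2 hε (h3.trans h.symm) h4 hx

theorem sq_mem (h2 : IsUnit (2 : A)) {a ε : A} (hε : ε ^ 2 = 1) (ha : a - 1 ∈ maximalIdeal A)
    {J : Ideal A} (hJ : a - 1 ∈ J) : sq ε a - ε ∈ J := by
  obtain ⟨h3, h4⟩ := sq_spec h2 hε ha
  have h5 := isUnit_two_mul_add h2 hε h4
  have e : 2 * ε + (sq ε a - ε) = sq ε a + ε := by ring
  rw [e] at h5
  have h6 : (sq ε a - ε) * (sq ε a + ε) ∈ J := by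
    have e2 : (sq ε a - ε) * (sq ε a + ε) = a - 1 := by linear_combination h3 - hε
    rw [e2]; exact hJ
  obtain ⟨u, hu⟩ := h5
  have h7 := J.mul_mem_right ((u⁻¹ : Aˣ) : A) h6
  rwa [mul_assoc, ← hu, Units.mul_inv, mul_one] at h7

theorem map_sq {B : Type*} [CommRing B] [CNL B] (f : A →+* B) [IsLocalHom f]
    (h2 : IsUnit (2 : A)) {a ε : A} (hε : ε ^ 2 = 1) (ha : a - 1 ∈ maximalIdeal A) :
    f (sq ε a) = sq (f ε) (f a) := by
  obtain ⟨h3, h4⟩ := sq_spec h2 hε ha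
  have hm : ∀ x ∈ maximalIdeal A, f x ∈ maximalIdeal B := fun x hx => by
    have := map_pow_mem f (k := 1) (a := x) (by rwa [pow_one])
    rwa [pow_one] at this
  refine (sq_eq ?_ ?_ ?_ ?_ ?_).symm
  · have := h2.map f
    rwa [map_ofNat] at this
  · rw [← map_pow, hε, map_one]
  · have := hm _ ha
    rwa [map_sub, map_one] at this
  · rw [← map_pow, h3]
  · have := hm _ h4
    rwa [map_sub] at this

/-- the matrix with traceless part `(m, v, w)`, determinant `q` and trace near `2ε` -/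
noncomputable def mkM (q ε m v w : A) : Matrix (Fin 2) (Fin 2) A :=
  !![sq ε (q + (m ^ 2 + v * w)) + m, v; w, sq ε (q + (m ^ 2 + v * w)) - m]

omit [CNL A] in
theorem mem_aux {q m v w : A} {J : Ideal A} (hq : q - 1 ∈ J) (hm : m ∈ J) (hv : v ∈ J) :
    q + (m ^ 2 + v * w) - 1 ∈ J := by
  have e : q + (m ^ 2 + v * w) - 1 = (q - 1) + (m * m + w * v) := by ring
  rw [e]
  exact add_mem hq (add_mem (J.mul_mem_left _ hm) (J.mul_mem_left _ hv))

theorem det_mkM (h2 : IsUnit (2 : A)) {q ε m v w : A} (hε : ε ^ 2 = 1)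
    (hq : q - 1 ∈ maximalIdeal A) (hm : m ∈ maximalIdeal A) (hv : v ∈ maximalIdeal A) :
    (mkM q ε m v w).det = q := by
  obtain ⟨h3, -⟩ := sq_spec h2 hε (mem_aux (w := w) hq hm hv)
  rw [mkM, Matrix.det_fin_two_of]
  linear_combination h3

theorem mkM_sub_mem (h2 : IsUnit (2 : A)) {q ε m v w : A} (hε : ε ^ 2 = 1)
    {J : Ideal A} (hJ : J ≤ maximalIdeal A) (hq : q - 1 ∈ J) (hm : m ∈ J) (hv : v ∈ J)
    (hw : w ∈ J) (i j : Fin 2) : (mkM q ε m v w - ε • 1) i j ∈ J := by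
  have h3 := sq_mem h2 hε (hJ (mem_aux (w := w) hq hm hv)) (mem_aux (w := w) hq hm hv)
  fin_cases i <;> fin_cases j
  · show sq ε (q + (m ^ 2 + v * w)) + m - (ε • (1 : Matrix (Fin 2) (Fin 2) A)) 0 0 ∈ J
    rw [Matrix.smul_apply, Matrix.one_apply_eq, smul_eq_mul, mul_one, add_sub_right_comm]
    exact add_mem h3 hm
  · show v - (ε • (1 : Matrix (Fin 2) (Fin 2) A)) 0 1 ∈ J
    simpa using hv
  · show w - (ε • (1 : Matrix (Fin 2) (Fin 2) A)) 1 0 ∈ J
    simpa using hw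
  · show sq ε (q + (m ^ 2 + v * w)) - m - (ε • (1 : Matrix (Fin 2) (Fin 2) A)) 1 1 ∈ J
    rw [Matrix.smul_apply, Matrix.one_apply_eq, smul_eq_mul, mul_one, sub_right_comm]
    exact sub_mem h3 hm

theorem map_mkM {B : Type*} [CommRing B] [CNL B] (f : A →+* B) [IsLocalHom f]
    (h2 : IsUnit (2 : A)) {q ε m v w : A} (hε : ε ^ 2 = 1)
    (hq : q - 1 ∈ maximalIdeal A) (hm : m ∈ maximalIdeal A) (hv : v ∈ maximalIdeal A) :
    (mkM q ε m v w).map f = mkM (f q) (f ε) (f m) (f v) (f w) := by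
  have h3 := map_sq f h2 hε (mem_aux (w := w) hq hm hv)
  rw [map_add, map_add, map_mul, map_pow] at h3
  ext i j
  fin_cases i <;> fin_cases j
  · show f (sq ε (q + (m ^ 2 + v * w)) + m) = sq (f ε) _ + f m
    rw [map_add, h3]
  · rfl
  · rfl
  · show f (sq ε (q + (m ^ 2 + v * w)) - m) = sq (f ε) _ - f m
    rw [map_sub, h3]

/-- every matrix near `ε` with determinant `q` is of the form `mkM` -/
theorem eq_mkM (h2 : IsUnit (2 : A)) {q ε : A} (hε : ε ^ 2 = 1)
    (hq : q - 1 ∈ maximalIdeal A) {F : Matrix (Fin 2) (Fin 2) A} (hd : F.det = q)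
    (hF : ∀ i j, (F - ε • 1) i j ∈ maximalIdeal A) {m : A} (hm : 2 * m = F 0 0 - F 1 1) :
    m ∈ maximalIdeal A ∧ F 0 1 ∈ maximalIdeal A ∧ F 1 0 ∈ maximalIdeal A ∧
      F = mkM q ε m (F 0 1) (F 1 0) := by
  have h00 := hF 0 0
  have h11 := hF 1 1
  have h01 := hF 0 1
  have h10 := hF 1 0
  simp only [Matrix.sub_apply, Matrix.smul_apply, Matrix.one_apply_eq, smul_eq_mul, mul_one,
    Matrix.one_apply_ne (show (0 : Fin 2) ≠ 1 by decide),
    Matrix.one_apply_ne (show (1 : Fin 2) ≠ 0 by decide), mul_zero, sub_zero] at h00 h11 h01 h10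
  have hmm : m ∈ maximalIdeal A := by
    obtain ⟨u, hu⟩ := h2
    have h3 : 2 * m ∈ maximalIdeal A := by
      rw [hm]
      have e : F 0 0 - F 1 1 = (F 0 0 - ε) - (F 1 1 - ε) := by ring
      rw [e]; exact sub_mem h00 h11
    have h4 := (maximalIdeal A).mul_mem_left ((u⁻¹ : Aˣ) : A) h3
    rwa [← mul_assoc, ← hu, Units.inv_mul, one_mul] at h4
  refine ⟨hmm, h01, h10, ?_⟩
  rw [Matrix.det_fin_two] at hd
  have h5 : sq ε (q + (m ^ 2 + F 0 1 * F 1 0)) = F 0 0 - m := by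
    refine sq_eq h2 hε (mem_aux hq hmm h01) ?_ ?_
    · linear_combination hd - F 0 0 * hm
    · have e : F 0 0 - m - ε = (F 0 0 - ε) - m := by ring
      rw [e]; exact sub_mem h00 hmm
  ext i j
  fin_cases i <;> fin_cases j
  · show F 0 0 = sq ε _ + m
    rw [h5]; ring
  · rfl
  · rfl
  · show F 1 1 = sq ε _ - m
    rw [h5]; linear_combination hm

end sqrt

section universal

variable {O : Type*} [CommRing O] [CNL O] {ι κ : Type*} {n : ℕ} (e : (ι × Fin 6) ⊕ κ ≃ Fin n)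

/-- the variables -/
noncomputable def xv (i : ι) (j : Fin 6) : MvPowerSeries (Fin n) O :=
  MvPowerSeries.X (e (Sum.inl (i, j)))

/-- universal `Σ` -/
noncomputable def SU (i : ι) : Matrix (Fin 2) (Fin 2) (MvPowerSeries (Fin n) O) :=
  mkM 1 1 (xv e i 0) (xv e i 1) (xv e i 2)

/-- universal `Φ` -/
noncomputable def FU (q ε : ι → O) (i : ι) : Matrix (Fin 2) (Fin 2) (MvPowerSeries (Fin n) O) :=
  mkM (MvPowerSeries.C (q i)) (MvPowerSeries.C (ε i)) (xv e i 3) (xv e i 4) (xv e i 5)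

theorem X_mem (t : Fin n) : (MvPowerSeries.X t : MvPowerSeries (Fin n) O) ∈
    maximalIdeal (MvPowerSeries (Fin n) O) := by
  rw [mvps_mem_maximalIdeal, MvPowerSeries.constantCoeff_X]
  exact zero_mem _

theorem C_mem {a : O} (ha : a ∈ maximalIdeal O) : (MvPowerSeries.C a : MvPowerSeries (Fin n) O) ∈
    maximalIdeal (MvPowerSeries (Fin n) O) := by
  rw [mvps_mem_maximalIdeal, MvPowerSeries.constantCoeff_C]
  exact ha

theorem xv_mem (i : ι) (j : Fin 6) : xv e i j ∈ maximalIdeal (MvPowerSeries (Fin n) O) :=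
  X_mem _

variable (h2 : IsUnit (2 : O)) {q ε : ι → O} (hε : ∀ i, ε i ^ 2 = 1)
  (hq : ∀ i, q i - 1 ∈ maximalIdeal O)

theorem one_sub_one_mem {A : Type*} [CommRing A] (J : Ideal A) : (1 : A) - 1 ∈ J := by
  rw [sub_self]; exact zero_mem _

omit [CNL O] in
include h2 in
theorem two_unit : IsUnit (2 : MvPowerSeries (Fin n) O) := by
  have := h2.map (MvPowerSeries.C (σ := Fin n) (R := O))
  rwa [map_ofNat] at this

include hq in
theorem Cq_mem (i : ι) : (MvPowerSeries.C (q i) : MvPowerSeries (Fin n) O) - 1 ∈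
    maximalIdeal (MvPowerSeries (Fin n) O) := by
  have := C_mem (n := n) (hq i)
  rwa [map_sub, map_one] at this

include h2 in
theorem det_SU (i : ι) : (SU (O := O) e i).det = 1 :=
  det_mkM (two_unit h2) (one_pow 2) (one_sub_one_mem _) (X_mem _) (X_mem _)

include h2 hε hq in
theorem det_FU (i : ι) : (FU e q ε i).det = MvPowerSeries.C (q i) :=
  det_mkM (two_unit h2) (by rw [← map_pow, hε, map_one]) (Cq_mem hq i) (X_mem _) (X_mem _)

include h2 in
/-- entries of `Σ - 1` lie in every ideal containing the variables -/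
theorem SU_sub_mem (i : ι) {J : Ideal (MvPowerSeries (Fin n) O)}
    (hJ : J ≤ maximalIdeal (MvPowerSeries (Fin n) O)) (h : ∀ j, xv e i j ∈ J) (a b : Fin 2) :
    (SU (O := O) e i - 1) a b ∈ J := by
  have h3 := mkM_sub_mem (A := MvPowerSeries (Fin n) O) (two_unit h2) (q := 1) (ε := 1)
    (one_pow 2) hJ (one_sub_one_mem _) (h 0) (h 1) (h 2) a b
  rwa [one_smul] at h3

include h2 hε in
/-- entries of `Φ - ε` lie in every ideal containing the variables and `q - 1` -/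
theorem FU_sub_mem (i : ι) {J : Ideal (MvPowerSeries (Fin n) O)}
    (hJ : J ≤ maximalIdeal (MvPowerSeries (Fin n) O)) (h : ∀ j, xv e i j ∈ J)
    (hqJ : MvPowerSeries.C (q i) - 1 ∈ J) (a b : Fin 2) :
    (FU e q ε i - (MvPowerSeries.C (ε i) : MvPowerSeries (Fin n) O) •
      (1 : Matrix (Fin 2) (Fin 2) (MvPowerSeries (Fin n) O))) a b ∈ J :=
  mkM_sub_mem (A := MvPowerSeries (Fin n) O) (two_unit h2)
    (by rw [← map_pow, hε, map_one]) hJ hqJ (h 3) (h 4) (h 5) a b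

/-- the variables in terms of the matrices -/
theorem two_mul_X0 (i : ι) :
    2 * xv (O := O) e i 0 = (SU (O := O) e i) 0 0 - (SU (O := O) e i) 1 1 := by
  have h0 : (SU (O := O) e i) 0 0 = sq 1 (1 + (xv e i 0 ^ 2 + xv e i 1 * xv e i 2)) +
    xv e i 0 := rfl
  have h1 : (SU (O := O) e i) 1 1 = sq 1 (1 + (xv e i 0 ^ 2 + xv e i 1 * xv e i 2)) -
    xv e i 0 := rfl
  rw [h0, h1]
  ring

theorem two_mul_X3 (q ε : ι → O) (i : ι) :
    2 * xv (O := O) e i 3 = (FU e q ε i) 0 0 - (FU e q ε i) 1 1 := by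
  have h0 : (FU e q ε i) 0 0 = sq (MvPowerSeries.C (ε i)) (MvPowerSeries.C (q i) +
    (xv e i 3 ^ 2 + xv e i 4 * xv e i 5)) + xv e i 3 := rfl
  have h1 : (FU e q ε i) 1 1 = sq (MvPowerSeries.C (ε i)) (MvPowerSeries.C (q i) +
    (xv e i 3 ^ 2 + xv e i 4 * xv e i 5)) - xv e i 3 := rfl
  rw [h0, h1]
  ring

include h2 hε hq in
/-- **(L)** the universal property -/
theorem exists_lift {R : Type*} [CommRing R] [CNL R] (θ : O →+* R) [IsLocalHom θ]
    (F S : ι → Matrix (Fin 2) (Fin 2) R)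
    (hF : ∀ i a b, (F i - θ (ε i) • (1 : Matrix (Fin 2) (Fin 2) R)) a b ∈ maximalIdeal R)
    (hS : ∀ i a b, (S i - 1) a b ∈ maximalIdeal R)
    (hdF : ∀ i, (F i).det = θ (q i)) (hdS : ∀ i, (S i).det = 1)
    (x : κ → R) (hx : ∀ k, x k ∈ maximalIdeal R) :
    ∃ ev : MvPowerSeries (Fin n) O →+* R, IsLocalHom ev ∧ (∀ a, ev (MvPowerSeries.C a) = θ a) ∧
      (∀ i, (FU e q ε i).map ev = F i) ∧ (∀ i, (SU e i).map ev = S i) ∧
      ∀ k, ev (MvPowerSeries.X (e (Sum.inr k))) = x k := by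
  have h2R : IsUnit (2 : R) := by
    have := h2.map θ
    rwa [map_ofNat] at this
  obtain ⟨w2, hw2⟩ := h2R.exists_right_inv
  have hqR : ∀ i, θ (q i) - 1 ∈ maximalIdeal R := fun i => by
    have := map_pow_mem θ (k := 1) (a := q i - 1) (by rw [pow_one]; exact hq i)
    rwa [pow_one, map_sub, map_one] at this
  have hεR : ∀ i, θ (ε i) ^ 2 = 1 := fun i => by rw [← map_pow, hε, map_one]
  have hSr : ∀ i, (S i 0 0 - S i 1 1) * w2 ∈ maximalIdeal R ∧ S i 0 1 ∈ maximalIdeal R ∧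
      S i 1 0 ∈ maximalIdeal R ∧
      S i = mkM 1 1 ((S i 0 0 - S i 1 1) * w2) (S i 0 1) (S i 1 0) := by
    intro i
    refine eq_mkM h2R (one_pow 2) (one_sub_one_mem _) (hdS i) (fun a b => ?_) ?_
    · rw [one_smul]; exact hS i a b
    · linear_combination (S i 0 0 - S i 1 1) * hw2
  have hFr : ∀ i, (F i 0 0 - F i 1 1) * w2 ∈ maximalIdeal R ∧ F i 0 1 ∈ maximalIdeal R ∧
      F i 1 0 ∈ maximalIdeal R ∧
      F i = mkM (θ (q i)) (θ (ε i)) ((F i 0 0 - F i 1 1) * w2) (F i 0 1) (F i 1 0) := by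
    intro i
    refine eq_mkM h2R (hεR i) (hqR i) (hdF i) (hF i) ?_
    linear_combination (F i 0 0 - F i 1 1) * hw2
  obtain ⟨ev, hloc, hC, hX⟩ := exists_evalMv θ (n := n) (fun t => Sum.elim
    (fun y : ι × Fin 6 => (![(S y.1 0 0 - S y.1 1 1) * w2, S y.1 0 1, S y.1 1 0,
      (F y.1 0 0 - F y.1 1 1) * w2, F y.1 0 1, F y.1 1 0] : Fin 6 → R) y.2) x (e.symm t)) (by
      intro t
      obtain ⟨s, rfl⟩ := e.surjective t
      rw [Equiv.symm_apply_apply]
      rcases s with ⟨i, j⟩ | k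
      · fin_cases j
        exacts [(hSr i).1, (hSr i).2.1, (hSr i).2.2.1, (hFr i).1, (hFr i).2.1, (hFr i).2.2.1]
      · exact hx k)
  have hXs : ∀ s, ev (MvPowerSeries.X (e s)) = Sum.elim
      (fun y : ι × Fin 6 => (![(S y.1 0 0 - S y.1 1 1) * w2, S y.1 0 1, S y.1 1 0,
        (F y.1 0 0 - F y.1 1 1) * w2, F y.1 0 1, F y.1 1 0] : Fin 6 → R) y.2) x s := by
    intro s
    rw [hX, Equiv.symm_apply_apply]
  refine ⟨ev, hloc, hC, fun i => ?_, fun i => ?_, fun k => hXs _⟩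
  · rw [FU, map_mkM ev (two_unit h2) (by rw [← map_pow, hε, map_one]) (Cq_mem hq i)
      (xv_mem e i 3) (xv_mem e i 4), hC, hC]
    conv_rhs => rw [(hFr i).2.2.2]
    congr 1
    · exact hXs (Sum.inl (i, 3))
    · exact hXs (Sum.inl (i, 4))
    · exact hXs (Sum.inl (i, 5))
  · rw [SU, map_mkM ev (two_unit h2) (one_pow 2) (one_sub_one_mem _) (xv_mem e i 0)
      (xv_mem e i 1), map_one]
    conv_rhs => rw [(hSr i).2.2.2]
    congr 1
    · exact hXs (Sum.inl (i, 0))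
    · exact hXs (Sum.inl (i, 1))
    · exact hXs (Sum.inl (i, 2))

include h2 in
/-- uniqueness in the universal property -/
theorem lift_unique {R : Type*} [CommRing R] [CNL R] (ev ev' : MvPowerSeries (Fin n) O →+* R)
    [IsLocalHom ev] [IsLocalHom ev']
    (hC : ∀ a, ev (MvPowerSeries.C a) = ev' (MvPowerSeries.C a))
    (hF : ∀ i, (FU e q ε i).map ev = (FU e q ε i).map ev')
    (hS : ∀ i, (SU e i).map ev = (SU e i).map ev')
    (hx : ∀ k, ev (MvPowerSeries.X (e (Sum.inr k))) = ev' (MvPowerSeries.X (e (Sum.inr k)))) :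
    ev = ev' := by
  have h2R : IsUnit (2 : R) := by
    have h3 := (two_unit (n := n) h2).map ev
    rwa [map_ofNat] at h3
  refine mv_hom_ext ev ev' hC fun t => ?_
  obtain ⟨s, rfl⟩ := e.surjective t
  have ent : ∀ {M : Matrix (Fin 2) (Fin 2) (MvPowerSeries (Fin n) O)},
      M.map ev = M.map ev' → ∀ a b, ev (M a b) = ev' (M a b) := by
    intro M h a b
    exact congrFun (congrFun h a) b
  have half : ∀ {y : MvPowerSeries (Fin n) O}, ev (2 * y) = ev' (2 * y) → ev y = ev' y := by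
    intro y h
    rw [map_mul, map_mul, map_ofNat, map_ofNat] at h
    exact h2R.mul_right_injective h
  rcases s with ⟨i, j⟩ | k
  · fin_cases j
    · apply half
      have h5 := congrArg ev (two_mul_X0 (O := O) e i)
      have h6 := congrArg ev' (two_mul_X0 (O := O) e i)
      rw [map_sub, ent (hS i), ent (hS i), ← map_sub] at h5
      exact h5.trans h6.symm
    · exact ent (hS i) 0 1
    · exact ent (hS i) 1 0
    · apply half
      have h5 := congrArg ev (two_mul_X3 (O := O) e q ε i)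
      have h6 := congrArg ev' (two_mul_X3 (O := O) e q ε i)
      rw [map_sub, ent (hF i), ent (hF i), ← map_sub] at h5
      exact h5.trans h6.symm
    · exact ent (hF i) 0 1
    · exact ent (hF i) 1 0
  · exact hx k

end universal

end Fermat.Agent.TWLoc
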