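import Fermat.Agent.TWLoc.Dim

set_option autoImplicit false
set_option linter.style.haveILetI false

/-! The local ideals `I₁`, `I₂` and their properties (inputs of Ihara avoidance). -/

namespace Fermat.Agent.TWLoc

open Filter Topology MvPowerSeries IsLocalRing

variable {C : Type*} [NontriviallyNormedField C] [IsUltrametricDist C] [CompleteSpace C]
variable {ι κ : Type*} [Fintype ι] [Fintype κ] {τ : Type*} [Fintype τ]
  (e : (ι × Fin 6) ⊕ κ ≃ τ) {O : Type*} [CommRing O] [IsLocalRing O] {φ : O →+* C}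
  (hφ : ∀ a, ‖φ a‖ ≤ 1)

omit [IsLocalRing O] [Fintype ι] [Fintype κ] in
/-- the ideal of a union of products is an intersection -/
theorem II_union {A : ι → Type*} (X : ∀ i, A i → Set (Fin 6 → C)) :
    II (O := O) hφ (TotE e fun i => ⋃ a, X i a) =
      ⨅ c : ∀ i, A i, II hφ (TotE e fun i => X i (c i)) := by
  classical
  apply le_antisymm
  · refine le_iInf fun c => II_anti hφ ?_
    intro P hP
    exact ⟨fun i => Set.mem_iUnion.mpr ⟨c i, hP.1 i⟩, hP.2⟩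
  · intro f hf P hP hPn
    choose c hc using fun i => Set.mem_iUnion.mp (hP.1 i)
    exact (Ideal.mem_iInf.mp hf c) P ⟨hc, hP.2⟩ hPn

theorem exists_of_iInf_le {R : Type*} [CommRing R] {A : Type*} [Finite A] (J : A → Ideal R)
    {P : Ideal R} (hP : P.IsPrime) (h : ⨅ a, J a ≤ P) : ∃ a, J a ≤ P := by
  classical
  haveI := Fintype.ofFinite A
  have h1 : Finset.univ.inf J ≤ P := by rwa [Finset.inf_univ_eq_iInf]
  obtain ⟨a, -, ha⟩ := (Ideal.IsPrime.inf_le' hP).mp h1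
  exact ⟨a, ha⟩

theorem minimalPrimes_iInf {R : Type*} [CommRing R] {A : Type*} [Finite A] (J : A → Ideal R)
    (hJ : ∀ a, (J a).IsPrime) {P : Ideal R} (hP : P ∈ (⨅ a, J a).minimalPrimes) :
    ∃ a, P = J a := by
  obtain ⟨a, ha⟩ := exists_of_iInf_le J hP.1.1 hP.1.2
  exact ⟨a, le_antisymm (hP.2 ⟨hJ a, iInf_le J a⟩ ha) ha⟩

/-- the ideal of type `1` (unramified or Steinberg at every prime) -/
noncomputable def I1 (k : ι → O) : Ideal (MvPowerSeries τ O) :=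
  II hφ (TotE e fun i => Xun C ∪ XSt (φ (k i)))

/-- the ideal of type `χ` -/
noncomputable def I2 (𝓔 : ι → Finset O) : Ideal (MvPowerSeries τ O) :=
  II hφ (TotE e fun i => ⋃ E ∈ 𝓔 i, XE (φ E))

/-- the component of `I1` given by a set of Steinberg primes -/
noncomputable def 𝔭T (k : ι → O) (T : ι → Bool) : Ideal (MvPowerSeries τ O) :=
  II hφ (TotE e (X1 (fun i => φ (k i)) T))

omit [IsLocalRing O] [Fintype ι] [Fintype κ] in
theorem I1_eq (k : ι → O) : I1 e hφ k = ⨅ T : ι → Bool, 𝔭T e hφ k T := by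
  have h := II_union (O := O) e hφ (A := fun _ => Bool)
    (fun i b => if b then XSt (φ (k i)) else Xun C)
  have h2 : (fun i => ⋃ b : Bool, (if b then XSt (φ (k i)) else Xun C : Set (Fin 6 → C))) =
      fun i => Xun C ∪ XSt (φ (k i)) := by
    funext i
    ext q
    simp
  rw [h2] at h
  rw [I1, h]
  rfl

omit [IsLocalRing O] [Fintype ι] [Fintype κ] in
theorem I2_eq (𝓔 : ι → Finset O) : I2 (O := O) e hφ 𝓔 =
    ⨅ c : (∀ i, 𝓔 i), II hφ (TotE e fun i => XE (φ (c i : O))) := by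
  have h := II_union (O := O) e hφ (A := fun i => 𝓔 i) (fun i E => XE (φ (E : O)))
  have h2 : (fun i => ⋃ E : 𝓔 i, (XE (φ (E : O)) : Set (Fin 6 → C))) =
      fun i => ⋃ E ∈ 𝓔 i, XE (φ E) := by
    funext i
    ext q
    simp
  rw [h2] at h
  rw [I2, h]

section

variable [IsAlgClosed C] [CharZero C] (h2 : ‖(2 : C)‖ = 1) (hm : ∀ a ∈ maximalIdeal O, ‖φ a‖ < 1)

omit [IsUltrametricDist C] [CompleteSpace C] [IsAlgClosed C] [CharZero C] [Fintype ι] in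
theorem isTy_X1 {k : ι → O} (hk : ∀ i, k i ∈ maximalIdeal O) (hk0 : ∀ i, φ (k i) ≠ 0)
    (T : ι → Bool) (i : ι) : IsTy φ (X1 (fun i => φ (k i)) T i) := by
  unfold X1
  split_ifs
  · exact Or.inr (Or.inl ⟨k i, hk i, hk0 i, rfl⟩)
  · exact Or.inl rfl

include h2 hm in
theorem 𝔭T_prime {k : ι → O} (hk : ∀ i, k i ∈ maximalIdeal O) (hk0 : ∀ i, φ (k i) ≠ 0)
    (T : ι → Bool) : (𝔭T e hφ k T).IsPrime :=
  IsTy.prime e hφ h2 hm fun i => isTy_X1 hk hk0 T i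

include h2 hm in
theorem minimalPrimes_I1 {k : ι → O} (hk : ∀ i, k i ∈ maximalIdeal O) (hk0 : ∀ i, φ (k i) ≠ 0)
    {𝔭' : Ideal (MvPowerSeries τ O)} (h : 𝔭' ∈ (I1 e hφ k).minimalPrimes) :
    ∃ T, 𝔭' = 𝔭T e hφ k T := by
  rw [I1_eq] at h
  exact minimalPrimes_iInf _ (fun T => 𝔭T_prime e hφ h2 hm hk hk0 T) h

include h2 hm in
theorem minimalPrimes_I2 {𝓔 : ι → Finset O} (hE : ∀ i, ∀ E ∈ 𝓔 i, E ∈ maximalIdeal O)
    (hE0 : ∀ i, ∀ E ∈ 𝓔 i, φ E ≠ 0) {𝔭' : Ideal (MvPowerSeries τ O)}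
    (h : 𝔭' ∈ (I2 e hφ 𝓔).minimalPrimes) :
    ∃ c : (∀ i, 𝓔 i), 𝔭' = II hφ (TotE e fun i => XE (φ (c i : O))) := by
  rw [I2_eq] at h
  have hp : ∀ c : (∀ i, 𝓔 i), (II (O := O) hφ (TotE e fun i => XE (φ (c i : O)))).IsPrime :=
    fun c => IsTy.prime e hφ h2 hm (X := fun i => XE (φ (c i : O))) fun i =>
      Or.inr (Or.inr ⟨(c i : O), hE i _ (c i).2, hE0 i _ (c i).2, rfl⟩)
  haveI : Finite (∀ i, 𝓔 i) := Pi.finite
  exact minimalPrimes_iInf (fun c : (∀ i, 𝓔 i) =>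
    II (O := O) hφ (TotE e fun i => XE (φ (c i : O)))) hp h

include h2 hm in
/-- **D1 for type 1** -/
theorem dim_I1 [IsNoetherianRing (MvPowerSeries τ O)] {k : ι → O}
    (hk : ∀ i, k i ∈ maximalIdeal O) (hk0 : ∀ i, φ (k i) ≠ 0) {lam : O}
    (hlam : maximalIdeal O = Ideal.span {lam}) :
    ∀ 𝔭' ∈ (I1 e hφ k).minimalPrimes, ringKrullDim (MvPowerSeries τ O ⧸ 𝔭') ≤
      (1 + 3 * Fintype.card ι + Fintype.card κ : ℕ) := by
  intro 𝔭' h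
  obtain ⟨T, rfl⟩ := minimalPrimes_I1 e hφ h2 hm hk hk0 h
  exact IsTy.dim e hφ h2 hm (fun i => isTy_X1 hk hk0 T i) hlam

include h2 hm in
/-- **D1 for type χ** -/
theorem dim_I2 [IsNoetherianRing (MvPowerSeries τ O)] {𝓔 : ι → Finset O}
    (hE : ∀ i, ∀ E ∈ 𝓔 i, E ∈ maximalIdeal O) (hE0 : ∀ i, ∀ E ∈ 𝓔 i, φ E ≠ 0) {lam : O}
    (hlam : maximalIdeal O = Ideal.span {lam}) :
    ∀ 𝔭' ∈ (I2 e hφ 𝓔).minimalPrimes, ringKrullDim (MvPowerSeries τ O ⧸ 𝔭') ≤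
      (1 + 3 * Fintype.card ι + Fintype.card κ : ℕ) := by
  intro 𝔭' h
  obtain ⟨c, rfl⟩ := minimalPrimes_I2 e hφ h2 hm hE hE0 h
  exact IsTy.dim e hφ h2 hm (fun i =>
    Or.inr (Or.inr ⟨(c i : O), hE i _ (c i).2, hE0 i _ (c i).2, rfl⟩)) hlam

include h2 hm in
/-- **D2'** -/
theorem I2_le_QT {𝓔 : ι → Finset O} (hE : ∀ i, ∀ E ∈ 𝓔 i, E ∈ maximalIdeal O)
    (hE0 : ∀ i, ∀ E ∈ 𝓔 i, φ E ≠ 0) {c : ℝ} (hc1 : c < 1)
    (hc : ∀ a ∈ maximalIdeal O, ‖φ a‖ ≤ c) (T : ι → Bool) :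
    ∀ 𝔮 ∈ (I2 e hφ 𝓔).minimalPrimes, 𝔮 ≤ QT e O T := by
  intro 𝔮 h
  obtain ⟨d, rfl⟩ := minimalPrimes_I2 e hφ h2 hm hE hE0 h
  have hc0 : 0 ≤ c := by
    have := hc 0 (zero_mem _)
    rwa [map_zero, norm_zero] at this
  exact II_le_QT e hφ hc0 hc1 hc (fun i => hm _ (hE i _ (d i).2)) T

include h2 hm in
/-- **D3** -/
theorem unique_I1 {k : ι → O} (hk : ∀ i, k i ∈ maximalIdeal O) (hk0 : ∀ i, φ (k i) ≠ 0)
    (T : ι → Bool) : ∀ 𝔭' ∈ (I1 e hφ k).minimalPrimes, 𝔭' ≤ QT e O T → 𝔭' = 𝔭T e hφ k T := by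
  intro 𝔭' h hle
  obtain ⟨T', rfl⟩ := minimalPrimes_I1 e hφ h2 hm hk hk0 h
  rw [eq_of_II_le_QT e hφ hk hle]

end

end Fermat.Agent.TWLoc
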