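import Fermat.Agent.TWLoc.Main

set_option autoImplicit false
set_option linter.style.haveILetI false

/-! Matrices `Φ, Σ` with `Φ Σ = Σ ^ q Φ` over `C`. -/

namespace Fermat.Agent.TWLoc

open Filter Topology IsLocalRing

section roots

variable {C : Type*} [NontriviallyNormedField C] [IsUltrametricDist C]

theorem norm_natCast_le (m : ℕ) : ‖(m : C)‖ ≤ 1 := IsUltrametricDist.norm_natCast_le_one C m

theorem norm_natCast_eq_one {p : ℕ} (hp : p.Prime) (hpC : ‖(p : C)‖ < 1) {m : ℕ} (hm : ¬ p ∣ m) :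
    ‖(m : C)‖ = 1 := by
  have hcop : Nat.Coprime m p := ((Nat.Prime.coprime_iff_not_dvd hp).mpr hm).symm
  have hbez := Nat.gcd_eq_gcd_ab m p
  rw [hcop] at hbez
  have h1 : (1 : C) = (m : C) * (Nat.gcdA m p : C) + (p : C) * (Nat.gcdB m p : C) := by
    exact_mod_cast congrArg (Int.cast : ℤ → C) hbez
  refine le_antisymm (norm_natCast_le m) ?_
  by_contra hlt
  push Not at hlt
  have h2 : ‖(1 : C)‖ < 1 := by
    rw [h1]
    refine nadd_lt ?_ ?_
    · rw [norm_mul]
      exact (mul_le_of_le_one_right (norm_nonneg _)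
        (IsUltrametricDist.norm_intCast_le_one C _)).trans_lt hlt
    · rw [norm_mul]
      exact (mul_le_of_le_one_right (norm_nonneg _)
        (IsUltrametricDist.norm_intCast_le_one C _)).trans_lt hpC
  rw [norm_one] at h2
  exact lt_irrefl _ h2

theorem norm_le_one_of_sub {z : C} (hz : ‖z - 1‖ < 1) : ‖z‖ ≤ 1 := by
  have e : z = (z - 1) + 1 := by ring
  rw [e]
  exact (IsUltrametricDist.norm_add_le_max _ _).trans (max_le hz.le (by rw [norm_one]))

theorem norm_pow_sub_one {z : C} (hz : ‖z - 1‖ < 1) (n : ℕ) : ‖z ^ n - 1‖ < 1 := by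
  induction n with
  | zero => simp
  | succ n ih =>
    have e : z ^ (n + 1) - 1 = z ^ n * (z - 1) + (z ^ n - 1) := by ring
    rw [e]
    refine nadd_lt ?_ ih
    rw [norm_mul]
    refine (mul_le_of_le_one_left (norm_nonneg _) ?_).trans_lt hz
    rw [norm_pow]
    exact pow_le_one₀ (norm_nonneg _) (norm_le_one_of_sub hz)

theorem eq_one_of_pow {p : ℕ} (hp : p.Prime) (hpC : ‖(p : C)‖ < 1) {m : ℕ} (hm : ¬ p ∣ m) {z : C}
    (hz : ‖z - 1‖ < 1) (h : z ^ m = 1) : z = 1 := by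
  by_contra hne
  have h1 : (z - 1) * ∑ i ∈ Finset.range m, z ^ i = 0 := by
    rw [mul_comm, geom_sum_mul, h, sub_self]
  have h2 : ∑ i ∈ Finset.range m, z ^ i = 0 :=
    (mul_eq_zero.mp h1).resolve_left (sub_ne_zero.mpr hne)
  have h3 : ‖∑ i ∈ Finset.range m, (z ^ i - 1)‖ < 1 := by
    rcases Nat.eq_zero_or_pos m with hm0 | hm0
    · subst hm0; simp
    · obtain ⟨i, -, hi⟩ := IsUltrametricDist.exists_norm_finsetSum_le_of_nonempty
        (Finset.nonempty_range_iff.mpr hm0.ne') (fun i => z ^ i - 1)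
      exact hi.trans_lt (norm_pow_sub_one hz i)
  rw [Finset.sum_sub_distrib, h2] at h3
  simp only [Finset.sum_const, Finset.card_range, nsmul_eq_mul, mul_one, zero_sub, norm_neg] at h3
  rw [norm_natCast_eq_one hp hpC hm] at h3
  exact lt_irrefl _ h3

theorem norm_two_eq {p : ℕ} (hp : p.Prime) (hp2 : p ≠ 2) (hpC : ‖(p : C)‖ < 1) :
    ‖(2 : C)‖ = 1 := by
  have := norm_natCast_eq_one hp hpC (m := 2) (by
    intro h
    exact hp2 ((Nat.prime_dvd_prime_iff_eq hp Nat.prime_two).mp h))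
  simpa using this

end roots

section mat

variable {C : Type*} [NontriviallyNormedField C] [IsUltrametricDist C]

/-- traceless parts of `Σ` and `Φ` -/
def tl (S F : Matrix (Fin 2) (Fin 2) C) : Fin 6 → C :=
  ![(S 0 0 - S 1 1) / 2, S 0 1, S 1 0, (F 0 0 - F 1 1) / 2, F 0 1, F 1 0]

omit [IsUltrametricDist C] in
theorem charpoly2 (S : Matrix (Fin 2) (Fin 2) C) (hdet : S.det = 1) :
    S * S = S.trace • S - 1 := by
  rw [Matrix.det_fin_two] at hdet
  ext i j
  fin_cases i <;> fin_cases j <;>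
    simp [Matrix.mul_apply, Fin.sum_univ_two, Matrix.trace_fin_two] <;>
      first | ring1 | linear_combination -hdet

omit [IsUltrametricDist C] in
/-- powers of a matrix of determinant one -/
theorem pow_eq_lin (S : Matrix (Fin 2) (Fin 2) C) (hdet : S.det = 1) (n : ℕ) :
    ∃ a b : C, S ^ n = a • S + b • 1 ∧ ∀ z : C, z ^ 2 = S.trace * z - 1 → z ^ n = a * z + b := by
  induction n with
  | zero => exact ⟨0, 1, by simp, fun z _ => by simp⟩
  | succ n ih =>
    obtain ⟨a, b, h1, h2⟩ := ih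
    refine ⟨a * S.trace + b, -a, ?_, fun z hz => ?_⟩
    · rw [pow_succ, h1, add_mul, smul_mul_assoc, smul_mul_assoc, one_mul, charpoly2 S hdet]
      ext i j
      simp only [Matrix.add_apply, Matrix.smul_apply, Matrix.sub_apply, smul_eq_mul]
      ring
    · rw [pow_succ, h2 z hz]
      linear_combination a * hz

variable {p : ℕ} (hp : p.Prime) (hp2 : p ≠ 2) (hpC : ‖(p : C)‖ < 1)

include hp hp2 hpC in
theorem tl_norm {S F : Matrix (Fin 2) (Fin 2) C} {ε : C}
    (hS : ∀ i j, ‖(S - 1) i j‖ < 1) (hF : ∀ i j, ‖(F - ε • 1) i j‖ < 1) (j : Fin 6) :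
    ‖tl S F j‖ < 1 := by
  have h2 := norm_two_eq hp hp2 hpC
  have hS0 := hS 0 0
  have hS1 := hS 1 1
  have hF0 := hF 0 0
  have hF1 := hF 1 1
  simp only [Matrix.sub_apply, Matrix.one_apply_eq, Matrix.smul_apply, smul_eq_mul, mul_one]
    at hS0 hS1 hF0 hF1
  fin_cases j
  · show ‖(S 0 0 - S 1 1) / 2‖ < 1
    rw [norm_div, h2, div_one]
    have e : S 0 0 - S 1 1 = (S 0 0 - 1) - (S 1 1 - 1) := by ring
    rw [e]
    exact nsub_lt hS0 hS1
  · show ‖S 0 1‖ < 1
    simpa [Matrix.sub_apply] using hS 0 1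
  · show ‖S 1 0‖ < 1
    simpa [Matrix.sub_apply] using hS 1 0
  · show ‖(F 0 0 - F 1 1) / 2‖ < 1
    rw [norm_div, h2, div_one]
    have e : F 0 0 - F 1 1 = (F 0 0 - ε) - (F 1 1 - ε) := by ring
    rw [e]
    exact nsub_lt hF0 hF1
  · show ‖F 0 1‖ < 1
    simpa [Matrix.sub_apply] using hF 0 1
  · show ‖F 1 0‖ < 1
    simpa [Matrix.sub_apply] using hF 1 0

variable [CharZero C]

include hp hp2 hpC in
/-- **type χ points** -/
theorem tl_mem_XE [IsAlgClosed C] {q : ℕ} (hq0 : q ≠ 0) {a m : ℕ} (hqm : q = p ^ a * m + 1)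
    (ha : a ≠ 0) (hm : ¬ p ∣ m)
    {S F : Matrix (Fin 2) (Fin 2) C} {ε : C} (hdS : S.det = 1) (hdF : F.det = q)
    (hrel : F * S = S ^ q * F) (hS : ∀ i j, ‖(S - 1) i j‖ < 1) (hF : ∀ i j, ‖(F - ε • 1) i j‖ < 1)
    (htr : S.trace ≠ 2) :
    ∃ z : C, z ^ (p ^ a) = 1 ∧ z ≠ 1 ∧ tl S F ∈ XE (((z - z⁻¹) / 2) ^ 2) := by
  have h2 := norm_two_eq hp hp2 hpC
  have hp2' : ¬ p ∣ 2 := fun h => hp2 ((Nat.prime_dvd_prime_iff_eq hp Nat.prime_two).mp h)
  set t := S.trace with ht
  -- the eigenvalue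
  obtain ⟨z, hz⟩ : ∃ z : C, z ^ 2 = t * z - 1 := by
    obtain ⟨s, hs⟩ := IsAlgClosed.exists_pow_nat_eq (t ^ 2 - 4) two_pos
    refine ⟨(t + s) / 2, ?_⟩
    field_simp
    linear_combination hs
  have hz0 : z ≠ 0 := by
    rintro rfl
    norm_num at hz
  have htz : t = z + z⁻¹ := by field_simp; linear_combination -hz
  have hz' : z⁻¹ ^ 2 = t * z⁻¹ - 1 := by rw [htz]; field_simp; ring
  have ht2 : ‖t - 2‖ < 1 := by
    have e : t - 2 = (S - 1) 0 0 + (S - 1) 1 1 := by
      rw [ht, Matrix.trace_fin_two]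
      simp only [Matrix.sub_apply, Matrix.one_apply_eq]
      ring
    rw [e]
    exact nadd_lt (hS 0 0) (hS 1 1)
  have ht1 : ‖t‖ ≤ 1 := by
    have e : t = (t - 2) + 2 := by ring
    rw [e]
    exact (IsUltrametricDist.norm_add_le_max _ _).trans (max_le ht2.le h2.le)
  have hzn : ‖z‖ ≤ 1 := by
    by_contra hcon
    push Not at hcon
    have h3 : ‖z‖ ^ 2 ≤ max ‖z‖ 1 := by
      rw [← norm_pow, hz]
      refine (nsub_le_max _ _).trans (max_le_max ?_ (by rw [norm_one]))
      rw [norm_mul]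
      exact mul_le_of_le_one_left (norm_nonneg _) ht1
    rw [max_eq_left hcon.le] at h3
    nlinarith
  have hz1 : ‖z - 1‖ < 1 := by
    have h3 : ‖z - 1‖ ^ 2 < 1 := by
      rw [← norm_pow]
      have e : (z - 1) ^ 2 = (t - 2) * z := by linear_combination hz
      rw [e, norm_mul]
      exact (mul_le_of_le_one_right (norm_nonneg _) hzn).trans_lt ht2
    exact (pow_lt_one_iff_of_nonneg (norm_nonneg _) two_ne_zero).mp h3
  have hzne : z ≠ 1 := by
    rintro rfl
    apply htr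
    rw [htz]; norm_num
  have hzinv : z ≠ z⁻¹ := by
    intro h
    apply hzne
    refine eq_one_of_pow hp hpC hp2' hz1 ?_
    rw [pow_two]
    nth_rewrite 2 [h]
    exact mul_inv_cancel₀ hz0
  have hzinv' : z - z⁻¹ ≠ 0 := sub_ne_zero.mpr hzinv
  -- `S^q` has the same characteristic polynomial
  obtain ⟨α, β, hpow, hroot⟩ := pow_eq_lin S hdS q
  have r1 := hroot z hz
  have r2 := hroot z⁻¹ hz'
  have hq : (q : C) ≠ 0 := Nat.cast_ne_zero.mpr hq0
  have hunit : IsUnit F := by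
    rw [Matrix.isUnit_iff_isUnit_det, hdF]
    exact hq.isUnit
  have htrq : (S ^ q).trace = t := by
    obtain ⟨u, hu⟩ := hunit
    have h3 : S ^ q = (u : Matrix (Fin 2) (Fin 2) C) * S * ((u⁻¹ : (Matrix (Fin 2) (Fin 2) C)ˣ) :
        Matrix (Fin 2) (Fin 2) C) := by
      rw [hu, hrel, mul_assoc, ← hu, Units.mul_inv, mul_one]
    rw [h3, mul_assoc, Matrix.trace_mul_comm, mul_assoc, Units.inv_mul, mul_one]
  have htrq2 : α * t + 2 * β = t := by
    rw [hpow] at htrq
    simpa [Matrix.trace_add, Matrix.trace_smul, mul_comm] using htrq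
  have hsum : z ^ q + z⁻¹ ^ q = z + z⁻¹ := by
    rw [r1, r2, ← htz]
    linear_combination htrq2 - α * htz
  have hprod : (z ^ q - z) * (z ^ q - z⁻¹) = 0 := by
    have e1 : z ^ q * z⁻¹ ^ q = 1 := by rw [← mul_pow, mul_inv_cancel₀ hz0, one_pow]
    have e2 : z * z⁻¹ = 1 := mul_inv_cancel₀ hz0
    linear_combination z ^ q * hsum - e1 + e2
  have hzq : z ^ q = z := by
    rcases mul_eq_zero.mp hprod with h | h
    · exact sub_eq_zero.mp h
    · exfalso
      apply hzne
      refine eq_one_of_pow hp hpC (m := q + 1) ?_ hz1 ?_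
      · intro hdvd
        apply hp2'
        have h4 : p ∣ p ^ a * m := Dvd.dvd.mul_right (dvd_pow_self p ha) m
        have h5 : q + 1 = p ^ a * m + 2 := by omega
        rw [h5] at hdvd
        exact (Nat.dvd_add_right h4).mp hdvd
      · rw [pow_succ, sub_eq_zero.mp h, inv_mul_cancel₀ hz0]
  have hzq' : z⁻¹ ^ q = z⁻¹ := by rw [inv_pow, hzq]
  have hα : α = 1 := by
    have h3 : (α - 1) * (z - z⁻¹) = 0 := by
      rw [hzq] at r1
      rw [hzq'] at r2
      linear_combination r2 - r1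
    exact sub_eq_zero.mp ((mul_eq_zero.mp h3).resolve_right hzinv')
  have hβ : β = 0 := by
    rw [hzq, hα] at r1
    linear_combination -r1
  have hSq : S ^ q = S := by rw [hpow, hα, hβ, one_smul, zero_smul, add_zero]
  have hcomm : F * S = S * F := by rw [hrel, hSq]
  have hza : z ^ (p ^ a) = 1 := by
    refine eq_one_of_pow hp hpC hm (norm_pow_sub_one hz1 _) ?_
    rw [← pow_mul]
    have h3 : z ^ (p ^ a * m) * z = 1 * z := by rw [← pow_succ, ← hqm, hzq, one_mul]
    exact mul_right_cancel₀ hz0 h3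
  refine ⟨z, hza, hzne, tl_norm hp hp2 hpC hS hF, ?_, ?_, ?_, ?_⟩
  · show ((S 0 0 - S 1 1) / 2) ^ 2 + S 0 1 * S 1 0 = ((z - z⁻¹) / 2) ^ 2
    rw [Matrix.det_fin_two] at hdS
    rw [Matrix.trace_fin_two] at ht
    have e2 : z * z⁻¹ = 1 := mul_inv_cancel₀ hz0
    have e3 : S 0 0 + S 1 1 = z + z⁻¹ := by rw [← ht, htz]
    have e4 : ((S 0 0 - S 1 1) / 2) ^ 2 + S 0 1 * S 1 0 = ((S 0 0 + S 1 1) / 2) ^ 2 - 1 := by
      linear_combination -hdS
    rw [e4, e3]
    field_simp
    ring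
  · show (S 0 0 - S 1 1) / 2 * F 0 1 = S 0 1 * ((F 0 0 - F 1 1) / 2)
    have h3 := congrFun (congrFun hcomm 0) 1
    simp only [Matrix.mul_apply, Fin.sum_univ_two] at h3
    linear_combination -(1 / 2) * h3
  · show (S 0 0 - S 1 1) / 2 * F 1 0 = S 1 0 * ((F 0 0 - F 1 1) / 2)
    have h3 := congrFun (congrFun hcomm 1) 0
    simp only [Matrix.mul_apply, Fin.sum_univ_two] at h3
    linear_combination (1 / 2) * h3
  · show S 0 1 * F 1 0 = S 1 0 * F 0 1
    have h3 := congrFun (congrFun hcomm 0) 0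
    simp only [Matrix.mul_apply, Fin.sum_univ_two] at h3
    linear_combination -h3

omit [IsUltrametricDist C] [CharZero C] in
theorem pow_unip (S : Matrix (Fin 2) (Fin 2) C) (hdet : S.det = 1) (htr : S.trace = 2) (n : ℕ) :
    S ^ n = 1 + (n : C) • (S - 1) := by
  have hch := charpoly2 S hdet
  rw [htr] at hch
  induction n with
  | zero => simp
  | succ n ih =>
    rw [pow_succ, ih, add_mul, smul_mul_assoc, sub_mul, hch, one_mul]
    ext i j
    simp only [Matrix.add_apply, Matrix.smul_apply, Matrix.sub_apply, smul_eq_mul]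
    push_cast
    ring

include hp hp2 hpC in
/-- **type 1 points** -/
theorem tl_mem_X1 {q : ℕ} (hq1 : 1 < q) (hqp : ‖(q : C) - 1‖ < 1)
    {S F : Matrix (Fin 2) (Fin 2) C} {ε k : C} (hε : ε ^ 2 = 1) (hk : 2 * k = ε * (q - 1))
    (hdS : S.det = 1) (hdF : F.det = q)
    (hrel : F * S = S ^ q * F) (hS : ∀ i j, ‖(S - 1) i j‖ < 1) (hF : ∀ i j, ‖(F - ε • 1) i j‖ < 1)
    (htr : S.trace = 2) : (S = 1 ∧ tl S F ∈ Xun C) ∨ (S ≠ 1 ∧ tl S F ∈ XSt k) := by
  have h2 := norm_two_eq hp hp2 hpC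
  have hn := tl_norm hp hp2 hpC hS hF
  by_cases hS1 : S = 1
  · left
    refine ⟨hS1, hn, ?_, ?_, ?_⟩
    · show (S 0 0 - S 1 1) / 2 = 0
      rw [hS1]; simp
    · show S 0 1 = 0
      rw [hS1]; simp
    · show S 1 0 = 0
      rw [hS1]; simp
  right
  refine ⟨hS1, ?_⟩
  set N := S - 1 with hN
  have hN0 : N ≠ 0 := sub_ne_zero.mpr hS1
  have hpowq := pow_unip S hdS htr q
  have hrel2 : F * N = (q : C) • (N * F) := by
    rw [hpowq] at hrel
    rw [add_mul, one_mul, smul_mul_assoc] at hrel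
    rw [hN, mul_sub, mul_one, hrel, add_sub_cancel_left]
  have hS11 : S 1 1 = 2 - S 0 0 := by
    rw [Matrix.trace_fin_two] at htr
    linear_combination htr
  have hN00 : N 0 0 = S 0 0 - 1 := by rw [hN]; simp
  have hN01 : N 0 1 = S 0 1 := by rw [hN]; simp
  have hN10 : N 1 0 = S 1 0 := by rw [hN]; simp
  have hN11 : N 1 1 = -(S 0 0 - 1) := by
    rw [hN]; simp only [Matrix.sub_apply, Matrix.one_apply_eq]; rw [hS11]; ring
  set s := F.trace with hs
  have hq1' : (q : C) ≠ 1 := by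
    intro h
    have : q = 1 := by exact_mod_cast h
    omega
  have hqpos : (q : C) + 1 ≠ 0 := by
    have : ((q + 1 : ℕ) : C) ≠ 0 := Nat.cast_ne_zero.mpr (by omega)
    simpa using this
  have hq0 : (q : C) ≠ 0 := Nat.cast_ne_zero.mpr (by omega)
  -- polarised Cayley--Hamilton
  have hpol : F * N + N * F = s • N + (F * N).trace • 1 := by
    ext i j
    fin_cases i <;> fin_cases j <;>
      simp [Matrix.mul_apply, Fin.sum_univ_two, Matrix.trace_fin_two, hs, hN11, hN00] <;> ring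
  have htr0 : (F * N).trace = 0 := by
    have h3 : (F * N).trace = (q : C) * (F * N).trace := by
      conv_lhs => rw [hrel2]
      rw [Matrix.trace_smul, Matrix.trace_mul_comm, smul_eq_mul]
    have h4 : ((q : C) - 1) * (F * N).trace = 0 := by linear_combination -h3
    exact (mul_eq_zero.mp h4).resolve_left (sub_ne_zero.mpr hq1')
  rw [htr0, zero_smul, add_zero, hrel2] at hpol
  set β := s / ((q : C) + 1) with hβ
  have hsβ : s = ((q : C) + 1) * β := by rw [hβ]; field_simp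
  have hNF : N * F = β • N := by
    have h3 : ((q : C) + 1) • (N * F) = ((q : C) + 1) • (β • N) := by
      rw [add_smul, one_smul, hpol, smul_smul, ← hsβ]
    exact smul_right_injective _ hqpos h3
  have hFch : F * F = s • F - (q : C) • 1 := by
    rw [Matrix.det_fin_two] at hdF
    ext i j
    fin_cases i <;> fin_cases j <;>
      simp [Matrix.mul_apply, Fin.sum_univ_two, Matrix.trace_fin_two, hs] <;>
        first | ring1 | linear_combination -hdF
  have hβ2 : β ^ 2 = 1 := by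
    have h3 : N * (F * F) = (β * β) • N := by
      rw [← mul_assoc, hNF, smul_mul_assoc, hNF, smul_smul]
    rw [hFch, mul_sub, mul_smul_comm, hNF, mul_smul_comm, mul_one, smul_smul, ← sub_smul] at h3
    have h4 : s * β - q = β * β := smul_left_injective C hN0 h3
    have h5 : (q : C) * (β ^ 2 - 1) = 0 := by rw [hsβ] at h4; linear_combination h4
    exact sub_eq_zero.mp ((mul_eq_zero.mp h5).resolve_left hq0)
  have hεn : ‖ε‖ = 1 := by
    have h3 : ‖ε‖ ^ 2 = 1 := by rw [← norm_pow, hε, norm_one]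
    exact (pow_eq_one_iff_of_nonneg (norm_nonneg _) two_ne_zero).mp h3
  have hβε : β = ε := by
    have h3 : (β - ε) * (β + ε) = 0 := by linear_combination hβ2 - hε
    rcases mul_eq_zero.mp h3 with h | h
    · exact sub_eq_zero.mp h
    · exfalso
      have hβ' : β = -ε := by linear_combination h
      have h4 : ‖s - 2 * ε‖ < 1 := by
        have e : s - 2 * ε = (F - ε • 1) 0 0 + (F - ε • 1) 1 1 := by
          rw [hs, Matrix.trace_fin_two]
          simp only [Matrix.sub_apply, Matrix.one_apply_eq, Matrix.smul_apply, smul_eq_mul]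
          ring
        rw [e]
        exact nadd_lt (hF 0 0) (hF 1 1)
      have h5 : ‖(q : C) - 1 + 4‖ < 1 := by
        have e : s - 2 * ε = -(((q : C) - 1 + 4) * ε) := by rw [hsβ, hβ']; ring
        rw [e, norm_neg, norm_mul, hεn, mul_one] at h4
        exact h4
      have h6 : ‖(4 : C)‖ < 1 := by
        have e : (4 : C) = ((q : C) - 1 + 4) - ((q : C) - 1) := by ring
        rw [e]
        exact nsub_lt h5 hqp
      have h7 : ‖(4 : C)‖ = 1 := by
        have e : (4 : C) = 2 * 2 := by norm_num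
        rw [e, norm_mul, h2, mul_one]
      rw [h7] at h6
      exact lt_irrefl _ h6
  rw [hβε] at hNF hsβ
  have hFN : F * N = ((q : C) * ε) • N := by rw [hrel2, hNF, smul_smul]
  have hs' : F 0 0 + F 1 1 = ((q : C) + 1) * ε := by rw [← hsβ, hs, Matrix.trace_fin_two]
  have n00 := congrFun (congrFun hNF 0) 0
  have f00 := congrFun (congrFun hFN 0) 0
  have f01 := congrFun (congrFun hFN 0) 1
  have f10 := congrFun (congrFun hFN 1) 0
  simp only [Matrix.mul_apply, Fin.sum_univ_two, Matrix.smul_apply, smul_eq_mul, hN00, hN01, hN10,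
    hN11] at n00 f00 f01 f10
  have hn0 : (S 0 0 - S 1 1) / 2 = S 0 0 - 1 := by rw [hS11]; ring
  rw [Matrix.det_fin_two] at hdS hdF
  have h2' : (2 : C) ≠ 0 := two_ne_zero
  have hk' : k = ε * (q - 1) / 2 := by rw [← hk]; field_simp
  refine ⟨hn, ?_, ?_, ?_, ?_, ?_, ?_⟩
  · show ((S 0 0 - S 1 1) / 2) ^ 2 + S 0 1 * S 1 0 = 0
    rw [hn0]
    rw [hS11] at hdS
    linear_combination -hdS
  · show ((F 0 0 - F 1 1) / 2) ^ 2 + F 0 1 * F 1 0 = k ^ 2
    have e1 : ((F 0 0 - F 1 1) / 2) ^ 2 + F 0 1 * F 1 0 = ((F 0 0 + F 1 1) / 2) ^ 2 - q := by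
      linear_combination -hdF
    rw [e1, hs', hk']
    linear_combination (q : C) * hε
  · show (F 0 0 - F 1 1) / 2 * ((S 0 0 - S 1 1) / 2) + F 0 1 * S 1 0 = k * ((S 0 0 - S 1 1) / 2)
    rw [hn0, hk']
    linear_combination f00 - (S 0 0 - 1) / 2 * hs'
  · show (F 0 0 - F 1 1) / 2 * S 0 1 - F 0 1 * ((S 0 0 - S 1 1) / 2) = k * S 0 1
    rw [hn0, hk']
    linear_combination f01 - S 0 1 / 2 * hs'
  · show F 1 0 * ((S 0 0 - S 1 1) / 2) - (F 0 0 - F 1 1) / 2 * S 1 0 = k * S 1 0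
    rw [hn0, hk']
    linear_combination f10 - S 1 0 / 2 * hs'
  · show (F 0 0 - F 1 1) / 2 * ((S 0 0 - S 1 1) / 2) + F 1 0 * S 0 1 =
      -k * ((S 0 0 - S 1 1) / 2)
    rw [hn0, hk']
    linear_combination n00 - (S 0 0 - 1) / 2 * hs'

end mat

end Fermat.Agent.TWLoc
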