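import Fermat.Agent.TWLoc.Field

set_option autoImplicit false
set_option linter.style.haveILetI false

/-! Analytic functions on annuli. -/

namespace Fermat.Agent.TWLoc

open Polynomial

variable {C : Type*} [NontriviallyNormedField C] [IsUltrametricDist C]

namespace IsLau

variable {f g : C → C}

omit [IsUltrametricDist C] in
theorem const (c : C) : IsLau fun _ : C => c := ⟨Polynomial.C c, 0, fun x _ => by simp⟩

omit [IsUltrametricDist C] in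
theorem id : IsLau fun x : C => x := ⟨X, 0, fun x _ => by simp⟩

omit [IsUltrametricDist C] in
theorem inv : IsLau fun x : C => x⁻¹ := ⟨1, 1, fun x hx => by simp [hx]⟩

omit [IsUltrametricDist C] in
theorem add (hf : IsLau f) (hg : IsLau g) : IsLau fun x => f x + g x := by
  obtain ⟨P, k, hP⟩ := hf
  obtain ⟨Q, l, hQ⟩ := hg
  refine ⟨P * X ^ l + Q * X ^ k, k + l, fun x hx => ?_⟩
  rw [eval_add, eval_mul, eval_mul, eval_pow, eval_pow, eval_X, ← hP x hx, ← hQ x hx]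
  ring

omit [IsUltrametricDist C] in
theorem mul (hf : IsLau f) (hg : IsLau g) : IsLau fun x => f x * g x := by
  obtain ⟨P, k, hP⟩ := hf
  obtain ⟨Q, l, hQ⟩ := hg
  refine ⟨P * Q, k + l, fun x hx => ?_⟩
  rw [eval_mul, ← hP x hx, ← hQ x hx]
  ring

omit [IsUltrametricDist C] in
theorem neg (hf : IsLau f) : IsLau fun x => -f x := by
  obtain ⟨P, k, hP⟩ := hf
  exact ⟨-P, k, fun x hx => by rw [eval_neg, ← hP x hx]; ring⟩

omit [IsUltrametricDist C] in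
theorem sub (hf : IsLau f) (hg : IsLau g) : IsLau fun x => f x - g x := by
  simp only [sub_eq_add_neg]
  exact hf.add hg.neg

omit [IsUltrametricDist C] in
theorem pow (hf : IsLau f) (n : ℕ) : IsLau fun x => f x ^ n := by
  induction n with
  | zero => simpa using const (1 : C)
  | succ n ih => simpa only [pow_succ] using ih.mul hf

omit [IsUltrametricDist C] in
theorem div_id (hf : IsLau f) : IsLau fun x => f x / x := by
  simp only [div_eq_mul_inv]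
  exact hf.mul inv

omit [IsUltrametricDist C] in
theorem mvpoly {τ : Type*} {Q : C → τ → C} (h : ∀ i, IsLau fun x => Q x i)
    (p : MvPolynomial τ C) : IsLau fun x => MvPolynomial.eval (Q x) p := by
  induction p using MvPolynomial.induction_on with
  | C a => simpa using const a
  | add p q hp hq => simpa using hp.add hq
  | mul_X p i hp => simpa using hp.mul (h i)

end IsLau

variable [IsAlgClosed C] [CharZero C]

omit [IsAlgClosed C] [CharZero C] in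
theorem exists_good_unit (P : C[X]) (ϖ : C) {Z : Set C} (hZ : Z ⊆ TU C) (hinf : Z.Infinite) :
    ∃ u ∈ Z, ∀ n, ‖P.coeff n‖ * ‖ϖ‖ ^ n ≤ ‖P.eval (ϖ * u)‖ := by
  by_contra hcon
  push Not at hcon
  apply hinf
  refine (finite_bad P ϖ).subset fun u hu => ⟨hZ hu, ?_⟩
  obtain ⟨n, hn⟩ := hcon u hu
  intro h
  exact absurd (h n) (not_le.mpr hn)

omit [IsAlgClosed C] [CharZero C] [IsUltrametricDist C] in
theorem zpow_le_max {r r1 r2 : ℝ} (h1 : 0 < r1) (h : r1 ≤ r) (h' : r ≤ r2) (m : ℤ) :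
    r ^ m ≤ max (r1 ^ m) (r2 ^ m) := by
  have hr : 0 < r := h1.trans_le h
  rcases le_total 0 m with hm | hm
  · exact le_max_of_le_right (zpow_le_zpow_left₀ hm hr.le h')
  · refine le_max_of_le_left ?_
    obtain ⟨k, rfl⟩ : ∃ k : ℤ, m = -k := ⟨-m, by ring⟩
    rw [zpow_neg, zpow_neg]
    exact inv_anti₀ (zpow_pos h1 _) (zpow_le_zpow_left₀ (by omega) h1.le h)

/-- uniform bound on a closed annulus -/
theorem IsLau.bound {h : C → C} (hh : IsLau h) {y1 y2 : C} (hy1 : y1 ≠ 0) (hle : ‖y1‖ ≤ ‖y2‖)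
    (h1 : ∀ x, ‖x‖ = ‖y1‖ → ‖h x‖ < 1) (h2 : ∀ x, ‖x‖ = ‖y2‖ → ‖h x‖ < 1) :
    ∃ M, 0 ≤ M ∧ M < 1 ∧ ∀ x, ‖y1‖ ≤ ‖x‖ → ‖x‖ ≤ ‖y2‖ → ‖h x‖ ≤ M := by
  obtain ⟨P, k, hP⟩ := hh
  have hy1' : 0 < ‖y1‖ := norm_pos_iff.mpr hy1
  have hy2' : 0 < ‖y2‖ := hy1'.trans_le hle
  have hy2 : y2 ≠ 0 := norm_pos_iff.mp hy2'
  have key : ∀ y : C, y ≠ 0 → (∀ x, ‖x‖ = ‖y‖ → ‖h x‖ < 1) →
      ∃ M, 0 ≤ M ∧ M < 1 ∧ ∀ n : ℕ, ‖P.coeff n‖ * ‖y‖ ^ ((n : ℤ) - k) ≤ M := by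
    intro y hy hlt
    have hy' : 0 < ‖y‖ := norm_pos_iff.mpr hy
    obtain ⟨u, hu, hgood⟩ := exists_good_unit P y subset_rfl (TU_infinite (C := C))
    have hyu : y * u ≠ 0 := mul_ne_zero hy (TU.ne_zero hu)
    have hyn : ‖y * u‖ = ‖y‖ := by rw [norm_mul, TU.norm hu, mul_one]
    refine ⟨‖h (y * u)‖, norm_nonneg _, hlt _ hyn, fun n => ?_⟩
    have h3 := hgood n
    rw [← hP _ hyu, norm_mul, norm_pow, hyn] at h3
    rw [zpow_sub₀ hy'.ne', zpow_natCast, zpow_natCast, ← mul_div_assoc, div_le_iff₀ (by positivity)]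
    exact h3
  obtain ⟨M1, hM1, hM1', hb1⟩ := key y1 hy1 h1
  obtain ⟨M2, hM2, hM2', hb2⟩ := key y2 hy2 h2
  refine ⟨max M1 M2, le_max_of_le_left hM1, max_lt hM1' hM2', fun x hx1 hx2 => ?_⟩
  have hx' : 0 < ‖x‖ := hy1'.trans_le hx1
  have hx : x ≠ 0 := norm_pos_iff.mp hx'
  have h3 : ‖P.eval x‖ ≤ max M1 M2 * ‖x‖ ^ k := by
    refine norm_eval_le (by positivity) fun n => ?_
    have h4 : ‖P.coeff n‖ * ‖x‖ ^ ((n : ℤ) - k) ≤ max M1 M2 := by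
      calc ‖P.coeff n‖ * ‖x‖ ^ ((n : ℤ) - k) ≤
            ‖P.coeff n‖ * max (‖y1‖ ^ ((n : ℤ) - k)) (‖y2‖ ^ ((n : ℤ) - k)) :=
            mul_le_mul_of_nonneg_left (zpow_le_max hy1' hx1 hx2 _) (norm_nonneg _)
        _ = max (‖P.coeff n‖ * ‖y1‖ ^ ((n : ℤ) - k)) (‖P.coeff n‖ * ‖y2‖ ^ ((n : ℤ) - k)) :=
            mul_max_of_nonneg _ _ (norm_nonneg _)
        _ ≤ _ := max_le_max (hb1 n) (hb2 n)
    rw [zpow_sub₀ hx'.ne', zpow_natCast, zpow_natCast, ← mul_div_assoc,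
      div_le_iff₀ (by positivity)] at h4
    exact h4
  rw [← hP x hx, norm_mul, norm_pow] at h3
  exact le_of_mul_le_mul_right h3 (by positivity)

/-- analytic functions on an annulus -/
def AnnFun (R1 R2 : ℝ) (h : C → C) : Prop := ∀ y1 y2 : C, y1 ≠ 0 → R1 < ‖y1‖ → ‖y1‖ ≤ ‖y2‖ →
  ‖y2‖ < R2 → ∀ ε : ℝ, 0 < ε → ∃ g, IsLau g ∧ ∀ x, ‖y1‖ ≤ ‖x‖ → ‖x‖ ≤ ‖y2‖ → ‖h x - g x‖ ≤ ε

omit [IsUltrametricDist C] [IsAlgClosed C] [CharZero C] in
theorem exists_pow_small {a b δ : ℝ} (_ : 0 ≤ b) (hb : b < 1) (hδ : 0 < δ) :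
    ∃ N : ℕ, a * b ^ N ≤ δ := by
  by_cases ha : a ≤ 0
  · exact ⟨0, by rw [pow_zero, mul_one]; exact ha.trans hδ.le⟩
  · push Not at ha
    obtain ⟨N, hN⟩ := exists_pow_lt_of_lt_one (div_pos hδ ha) hb
    refine ⟨N, ?_⟩
    rw [lt_div_iff₀ ha] at hN
    rw [mul_comm]; exact hN.le

omit [IsUltrametricDist C] [IsAlgClosed C] [CharZero C] in
/-- three circles, outward -/
theorem three_out {c r r' r'' B ε δ : ℝ} {N : ℕ} (hr : 0 < r) (h1 : r < r')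
    (h2 : r' < r'') {m : ℤ} (hε : c * r ^ m ≤ ε) (hB : c * r'' ^ m ≤ B) (hB0 : 0 ≤ B) (hε0 : 0 ≤ ε)
    (hN : B * (r' / r'') ^ N ≤ δ) (hN' : ε * (r' / r) ^ N ≤ δ) : c * r' ^ m ≤ δ := by
  have hr' : 0 < r' := hr.trans h1
  have hr'' : 0 < r'' := hr'.trans h2
  rcases le_total (N : ℤ) m with hm | hm
  · have e : c * r' ^ m = c * r'' ^ m * (r' / r'') ^ m := by
      rw [div_zpow]; field_simp
    rw [e]
    have h3 : (r' / r'') ^ m ≤ (r' / r'') ^ (N : ℤ) :=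
      zpow_le_zpow_right_of_le_one₀ (by positivity) ((div_le_one hr'').mpr h2.le) hm
    rw [zpow_natCast] at h3
    calc c * r'' ^ m * (r' / r'') ^ m ≤ B * (r' / r'') ^ m :=
          mul_le_mul_of_nonneg_right hB (by positivity)
      _ ≤ B * (r' / r'') ^ N := mul_le_mul_of_nonneg_left h3 hB0
      _ ≤ δ := hN
  · have e : c * r' ^ m = c * r ^ m * (r' / r) ^ m := by
      rw [div_zpow]; field_simp
    rw [e]
    have h3 : (r' / r) ^ m ≤ (r' / r) ^ (N : ℤ) :=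
      zpow_le_zpow_right₀ ((one_le_div hr).mpr h1.le) hm
    rw [zpow_natCast] at h3
    calc c * r ^ m * (r' / r) ^ m ≤ ε * (r' / r) ^ m :=
          mul_le_mul_of_nonneg_right hε (by positivity)
      _ ≤ ε * (r' / r) ^ N := mul_le_mul_of_nonneg_left h3 hε0
      _ ≤ δ := hN'

omit [IsUltrametricDist C] [IsAlgClosed C] [CharZero C] in
/-- three circles, inward -/
theorem three_in {c r r' r'' B ε δ : ℝ} {N : ℕ} (hr'' : 0 < r'') (h2 : r'' < r')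
    (h1 : r' < r) {m : ℤ} (hε : c * r ^ m ≤ ε) (hB : c * r'' ^ m ≤ B) (hB0 : 0 ≤ B) (hε0 : 0 ≤ ε)
    (hN : B * (r'' / r') ^ N ≤ δ) (hN' : ε * (r / r') ^ N ≤ δ) : c * r' ^ m ≤ δ := by
  have hr' : 0 < r' := hr''.trans h2
  have hr : 0 < r := hr'.trans h1
  have key := three_out (c := c) (r := r⁻¹) (r' := r'⁻¹) (r'' := r''⁻¹) (B := B) (ε := ε) (δ := δ)
    (N := N) (m := -m) (by positivity) (inv_strictAnti₀ hr' h1) (inv_strictAnti₀ hr'' h2)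
    (by rwa [inv_zpow, zpow_neg, inv_inv]) (by rwa [inv_zpow, zpow_neg, inv_inv]) hB0 hε0
    (by rwa [inv_div_inv]) (by rwa [inv_div_inv])
  rwa [inv_zpow, zpow_neg, inv_inv] at key

/-- zeros of an analytic function on a circle -/
theorem AnnFun.finite_zeros {R1 R2 : ℝ} {h : C → C} (hh : AnnFun R1 R2 h)
    {x0 : C} (hx0 : x0 ≠ 0) (hx1 : R1 < ‖x0‖) (hx2 : ‖x0‖ < R2) (hne : h x0 ≠ 0) {ϖ : C}
    (hϖ : ϖ ≠ 0) (hϖ1 : R1 < ‖ϖ‖) (hϖ2 : ‖ϖ‖ < R2) : {u | u ∈ TU C ∧ h (ϖ * u) = 0}.Finite := by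
  by_contra hinf
  set Z := {u | u ∈ TU C ∧ h (ϖ * u) = 0} with hZ
  have hZsub : Z ⊆ TU C := fun u hu => hu.1
  have hr : 0 < ‖ϖ‖ := norm_pos_iff.mpr hϖ
  have hr' : 0 < ‖x0‖ := norm_pos_iff.mpr hx0
  apply hne
  -- it suffices to bound by all `δ`
  suffices H : ∀ δ : ℝ, 0 < δ → δ ≤ 1 → ‖h x0‖ ≤ δ by
    by_contra h0
    have h0' : 0 < ‖h x0‖ := norm_pos_iff.mpr h0
    have h3 := H (min 1 (‖h x0‖ / 2)) (lt_min one_pos (by positivity)) (min_le_left _ _)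
    have h4 := min_le_right 1 (‖h x0‖ / 2)
    linarith
  -- smallness on the circle through `ϖ`
  have small : ∀ (y1 y2 : C), y1 ≠ 0 → ‖y1‖ ≤ ‖ϖ‖ → ‖ϖ‖ ≤ ‖y2‖ → ∀ (ε : ℝ) (g : C → C)
      (P : C[X]) (k : ℕ), (∀ x, x ≠ 0 → g x * x ^ k = P.eval x) →
      (∀ x, ‖y1‖ ≤ ‖x‖ → ‖x‖ ≤ ‖y2‖ → ‖h x - g x‖ ≤ ε) →
      ∀ n : ℕ, ‖P.coeff n‖ * ‖ϖ‖ ^ ((n : ℤ) - k) ≤ ε := by
    intro y1 y2 _ hy1 hy2 ε g P k hP hg n
    obtain ⟨u, hu, hgood⟩ := exists_good_unit P ϖ hZsub hinf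
    have huT := hZsub hu
    have hun : ‖ϖ * u‖ = ‖ϖ‖ := by rw [norm_mul, TU.norm huT, mul_one]
    have h3 := hgood n
    rw [← hP _ (mul_ne_zero hϖ (TU.ne_zero huT)), norm_mul, norm_pow, hun] at h3
    have h4 := hg (ϖ * u) (by rw [hun]; exact hy1) (by rw [hun]; exact hy2)
    rw [hu.2, zero_sub, norm_neg] at h4
    rw [zpow_sub₀ hr.ne', zpow_natCast, zpow_natCast, ← mul_div_assoc, div_le_iff₀ (by positivity)]
    exact h3.trans (mul_le_mul_of_nonneg_right h4 (by positivity))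
  -- boundedness on the circle through `y`
  have bounded : ∀ (y y1 y2 : C), y ≠ 0 → y1 ≠ 0 → R1 < ‖y1‖ → ‖y1‖ ≤ ‖y‖ → ‖y‖ ≤ ‖y2‖ →
      ‖y2‖ < R2 → ∃ B : ℝ, 1 ≤ B ∧ ∀ (ε : ℝ) (g : C → C) (P : C[X]) (k : ℕ), ε ≤ 1 →
      (∀ x, x ≠ 0 → g x * x ^ k = P.eval x) →
      (∀ x, ‖y1‖ ≤ ‖x‖ → ‖x‖ ≤ ‖y2‖ → ‖h x - g x‖ ≤ ε) →
      ∀ n : ℕ, ‖P.coeff n‖ * ‖y‖ ^ ((n : ℤ) - k) ≤ B := by
    intro y y1 y2 hy hy1 hR1 h1y hy2 hR2
    have hyp : 0 < ‖y‖ := norm_pos_iff.mpr hy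
    obtain ⟨g0, ⟨P0, k0, hP0⟩, hg0⟩ := hh y1 y2 hy1 hR1 (h1y.trans hy2) hR2 1 one_pos
    obtain ⟨u0, hu0, hgood0⟩ := exists_good_unit P0 y subset_rfl (TU_infinite (C := C))
    set B0 := ‖P0.eval (y * u0)‖ / ‖y‖ ^ k0 with hB0
    have hhb : ∀ x, ‖x‖ = ‖y‖ → ‖h x‖ ≤ max 1 B0 := by
      intro x hx
      have hx0 : x ≠ 0 := norm_pos_iff.mp (by rw [hx]; exact hyp)
      have h3 : ‖P0.eval x‖ ≤ ‖P0.eval (y * u0)‖ :=
        norm_eval_le (norm_nonneg _) fun n => by rw [hx]; exact hgood0 n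
      rw [← hP0 x hx0, norm_mul, norm_pow, hx, ← le_div_iff₀ (by positivity)] at h3
      have h4 := hg0 x (by rw [hx]; exact h1y) (by rw [hx]; exact hy2)
      have e : h x = (h x - g0 x) + g0 x := by ring
      rw [e]
      exact (IsUltrametricDist.norm_add_le_max _ _).trans (max_le_max h4 h3)
    refine ⟨max 1 B0, le_max_left _ _, ?_⟩
    intro ε g P k hε hP hg n
    obtain ⟨u, hu, hgood⟩ := exists_good_unit P y subset_rfl (TU_infinite (C := C))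
    have hun : ‖y * u‖ = ‖y‖ := by rw [norm_mul, TU.norm hu, mul_one]
    have h3 := hgood n
    rw [← hP _ (mul_ne_zero hy (TU.ne_zero hu)), norm_mul, norm_pow, hun] at h3
    have h4 := hg (y * u) (by rw [hun]; exact h1y) (by rw [hun]; exact hy2)
    have h5 : ‖g (y * u)‖ ≤ max 1 B0 := by
      have e : g (y * u) = h (y * u) - (h (y * u) - g (y * u)) := by ring
      rw [e]
      exact (nsub_le_max _ _).trans (max_le (hhb _ hun) ((h4.trans hε).trans (le_max_left _ _)))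
    rw [zpow_sub₀ hyp.ne', zpow_natCast, zpow_natCast, ← mul_div_assoc,
      div_le_iff₀ (by positivity)]
    exact h3.trans (mul_le_mul_of_nonneg_right h5 (by positivity))
  -- evaluation at `x0`
  have final : ∀ (δ : ℝ) (g : C → C) (P : C[X]) (k : ℕ), 0 < δ →
      (∀ x, x ≠ 0 → g x * x ^ k = P.eval x) → ‖h x0 - g x0‖ ≤ δ →
      (∀ n : ℕ, ‖P.coeff n‖ * ‖x0‖ ^ ((n : ℤ) - k) ≤ δ) → ‖h x0‖ ≤ δ := by
    intro δ g P k hδ hP hg hco
    have h3 : ‖P.eval x0‖ ≤ δ * ‖x0‖ ^ k := by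
      refine norm_eval_le (by positivity) fun n => ?_
      have h4 := hco n
      rw [zpow_sub₀ hr'.ne', zpow_natCast, zpow_natCast, ← mul_div_assoc,
        div_le_iff₀ (by positivity)] at h4
      exact h4
    rw [← hP x0 hx0, norm_mul, norm_pow] at h3
    have h5 : ‖g x0‖ ≤ δ := le_of_mul_le_mul_right h3 (by positivity)
    have e : h x0 = (h x0 - g x0) + g x0 := by ring
    rw [e]
    exact (IsUltrametricDist.norm_add_le_max _ _).trans (max_le hg h5)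
  intro δ hδ hδ1
  rcases lt_trichotomy ‖ϖ‖ ‖x0‖ with hlt | heq | hgt
  · obtain ⟨y, hy1, hy2⟩ := exists_norm_between (C := C) hr' hx2
    have hy0 : y ≠ 0 := norm_pos_iff.mp (hr'.trans hy1)
    have hϖy : ‖ϖ‖ ≤ ‖y‖ := (hlt.trans hy1).le
    obtain ⟨B, hB1, hB⟩ := bounded y ϖ y hy0 hϖ hϖ1 hϖy le_rfl hy2
    obtain ⟨N, hN⟩ := exists_pow_small (a := B) (b := ‖x0‖ / ‖y‖) (by positivity)
      ((div_lt_one (hr'.trans hy1)).mpr hy1) hδ
    have hq : 0 < (‖x0‖ / ‖ϖ‖) ^ N := by positivity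
    set ε := min δ (δ / (‖x0‖ / ‖ϖ‖) ^ N) with hε
    have hε0 : 0 < ε := lt_min hδ (by positivity)
    obtain ⟨g, ⟨P, k, hP⟩, hg⟩ := hh ϖ y hϖ hϖ1 hϖy hy2 ε hε0
    have hεδ : ε ≤ δ := min_le_left _ _
    refine final δ g P k hδ hP ((hg x0 hlt.le hy1.le).trans hεδ) fun n => ?_
    refine three_out hr hlt hy1 (small ϖ y hϖ le_rfl hϖy ε g P k hP hg n)
      (hB ε g P k (hεδ.trans hδ1) hP hg n) (zero_le_one.trans hB1) hε0.le hN ?_
    have : ε ≤ δ / (‖x0‖ / ‖ϖ‖) ^ N := min_le_right _ _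
    rwa [le_div_iff₀ hq] at this
  · obtain ⟨g, ⟨P, k, hP⟩, hg⟩ := hh ϖ ϖ hϖ hϖ1 le_rfl hϖ2 δ hδ
    refine final δ g P k hδ hP (hg x0 heq.le heq.ge) fun n => ?_
    rw [← heq]
    exact small ϖ ϖ hϖ le_rfl le_rfl δ g P k hP hg n
  · obtain ⟨y, hy1, hy2⟩ := exists_norm_between (C := C) (a := max R1 (‖x0‖ / 2)) (b := ‖x0‖)
      (lt_max_of_lt_right (by positivity)) (max_lt hx1 (by linarith))
    have hyR : R1 < ‖y‖ := (le_max_left _ _).trans_lt hy1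
    have hyp : 0 < ‖y‖ := ((by positivity : 0 < ‖x0‖ / 2).trans_le (le_max_right _ _)).trans hy1
    have hy0 : y ≠ 0 := norm_pos_iff.mp hyp
    have hyϖ : ‖y‖ ≤ ‖ϖ‖ := (hy2.trans hgt).le
    obtain ⟨B, hB1, hB⟩ := bounded y y ϖ hy0 hy0 hyR le_rfl hyϖ hϖ2
    obtain ⟨N, hN⟩ := exists_pow_small (a := B) (b := ‖y‖ / ‖x0‖) (by positivity)
      ((div_lt_one hr').mpr hy2) hδ
    have hq : 0 < (‖ϖ‖ / ‖x0‖) ^ N := by positivity
    set ε := min δ (δ / (‖ϖ‖ / ‖x0‖) ^ N) with hε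
    have hε0 : 0 < ε := lt_min hδ (by positivity)
    obtain ⟨g, ⟨P, k, hP⟩, hg⟩ := hh y ϖ hy0 hyR hyϖ hϖ2 ε hε0
    have hεδ : ε ≤ δ := min_le_left _ _
    refine final δ g P k hδ hP ((hg x0 hy2.le hgt.le).trans hεδ) fun n => ?_
    refine three_in hyp hy2 hgt (small y ϖ hy0 hyϖ le_rfl ε g P k hP hg n)
      (hB ε g P k (hεδ.trans hδ1) hP hg n) (zero_le_one.trans hB1) hε0.le hN ?_
    have : ε ≤ δ / (‖ϖ‖ / ‖x0‖) ^ N := min_le_right _ _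
    rwa [le_div_iff₀ hq] at this

end Fermat.Agent.TWLoc
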