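import Fermat.Agent.TWLoc.Lift

set_option autoImplicit false
set_option linter.style.haveILetI false

/-! Points of local deformation rings kill the local ideals. -/

namespace Fermat.Agent.TWLoc

open IsLocalRing Fermat.Agent.TWPatch

variable {C : Type*} [NontriviallyNormedField C] [IsUltrametricDist C] [CompleteSpace C]
variable {ι κ : Type*} [Fintype ι] [Fintype κ] {n : ℕ}
  (e : (ι × Fin 6) ⊕ κ ≃ Fin n) {O : Type*} [CommRing O] [CNL O] {φ : O →+* C}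
  (hφ : ∀ a, ‖φ a‖ ≤ 1)

/-- contracting homomorphisms -/
def Contr (φ : O →+* C) (Ψ : MvPowerSeries (Fin n) O →+* C) : Prop :=
  (∀ a, Ψ (MvPowerSeries.C a) = φ a) ∧ ∃ M : ℝ, M < 1 ∧
    ∀ f ∈ maximalIdeal (MvPowerSeries (Fin n) O), ‖Ψ f‖ ≤ M

omit [Fintype ι] [Fintype κ] in
theorem kill {Ψ : MvPowerSeries (Fin n) O →+* C} (hΨ : Contr φ Ψ) {X : ι → Set (Fin 6 → C)}
    (hX : ∀ i, (fun j => Ψ (xv e i j)) ∈ X i) {f : MvPowerSeries (Fin n) O}
    (hf : f ∈ II hφ (TotE e X)) : Ψ f = 0 := by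
  obtain ⟨hC, M, hM1, hM⟩ := hΨ
  have hM0 : 0 ≤ M := by
    have := hM 0 (zero_mem _)
    rwa [map_zero, norm_zero] at this
  have hb : ∀ f : MvPowerSeries (Fin n) O, MvPowerSeries.constantCoeff f = 0 → ‖Ψ f‖ ≤ M := by
    intro f hf
    apply hM
    rw [mvps_mem_maximalIdeal, hf]
    exact zero_mem _
  have h1 := hom_eq_ev hφ hC hM0 hM1 hb f
  rw [h1]
  have hn : ∀ t, ‖Ψ (MvPowerSeries.X t)‖ < 1 := fun t =>
    (hb _ (MvPowerSeries.constantCoeff_X t)).trans_lt hM1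
  exact hf _ ⟨fun i => hX i, fun k => hn _⟩ hn

section

variable {p : ℕ} (hp : p.Prime) (hp2 : p ≠ 2) (hpC : ‖(p : C)‖ < 1)

include hp hp2 in
theorem isUnit_two_of {O : Type*} [CommRing O] [IsLocalRing O] (hpO : (p : O) ∈ maximalIdeal O) :
    IsUnit (2 : O) := by
  by_contra h
  have h1 : (2 : O) ∈ maximalIdeal O := h
  have hcop : Nat.Coprime 2 p := (Nat.coprime_primes Nat.prime_two hp).mpr (Ne.symm hp2)
  have hbez := Nat.gcd_eq_gcd_ab 2 p
  rw [hcop] at hbez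
  have h2 : (1 : O) = ((2 : ℕ) : O) * (Nat.gcdA 2 p : O) + (p : O) * (Nat.gcdB 2 p : O) := by
    exact_mod_cast congrArg (Int.cast : ℤ → O) hbez
  have h3 : (1 : O) ∈ maximalIdeal O := by
    rw [h2]
    refine add_mem (Ideal.mul_mem_right _ _ ?_) (Ideal.mul_mem_right _ _ hpO)
    simpa using h1
  exact (Ideal.ne_top_iff_one _).mp (maximalIdeal.isMaximal O).ne_top h3

variable (h2 : IsUnit (2 : O)) {q : ι → ℕ} {ε : ι → O} (hε : ∀ i, ε i ^ 2 = 1)
  (hqO : ∀ i, (q i : O) - 1 ∈ maximalIdeal O)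

omit [Fintype ι] [Fintype κ] [IsUltrametricDist C] [CompleteSpace C] in
/-- the traceless parts of the matrices at a point -/
theorem tl_map [CharZero C] (ε : ι → O) (Ψ : MvPowerSeries (Fin n) O →+* C) (i : ι) :
    tl ((SU e i).map Ψ) ((FU e (fun i => (q i : O)) ε i).map Ψ) = fun j => Ψ (xv e i j) := by
  have h2C : (2 : C) ≠ 0 := two_ne_zero
  have h0 := congrArg Ψ (two_mul_X0 (O := O) e i)
  have h3 := congrArg Ψ (two_mul_X3 (O := O) e (fun i => (q i : O)) ε i)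
  rw [map_sub, map_mul, map_ofNat] at h0 h3
  funext j
  fin_cases j
  · show (Ψ (SU e i 0 0) - Ψ (SU e i 1 1)) / 2 = Ψ (xv e i 0)
    rw [← h0]; field_simp
  · rfl
  · rfl
  · show (Ψ (FU e (fun i => (q i : O)) ε i 0 0) - Ψ (FU e (fun i => (q i : O)) ε i 1 1)) / 2 =
      Ψ (xv e i 3)
    rw [← h3]; field_simp
  · rfl
  · rfl

/-- the relation between Frobenius and the tame generator at a point -/
def Rel (e : (ι × Fin 6) ⊕ κ ≃ Fin n) (q : ι → ℕ) (ε : ι → O)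
    (Ψ : MvPowerSeries (Fin n) O →+* C) : Prop :=
  ∀ i, (FU e (fun i => (q i : O)) ε i).map Ψ * (SU e i).map Ψ =
    ((SU e i).map Ψ) ^ (q i) * (FU e (fun i => (q i : O)) ε i).map Ψ

omit [Fintype ι] [Fintype κ] [IsUltrametricDist C] [CompleteSpace C] in
include h2 in
theorem det_SU_map (Ψ : MvPowerSeries (Fin n) O →+* C) (i : ι) :
    ((SU (O := O) e i).map Ψ).det = 1 := by
  have h3 := congrArg Ψ (det_SU (O := O) e h2 i)
  rwa [RingHom.map_det, map_one] at h3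

omit [Fintype ι] [Fintype κ] [IsUltrametricDist C] [CompleteSpace C] in
include h2 hε hqO in
theorem det_FU_map (Ψ : MvPowerSeries (Fin n) O →+* C) (i : ι) :
    ((FU e (fun i => (q i : O)) ε i).map Ψ).det = q i := by
  have h3 := congrArg Ψ (det_FU (O := O) e h2 hε hqO i)
  rwa [RingHom.map_det, map_natCast, map_natCast] at h3

omit [Fintype ι] [Fintype κ] [IsUltrametricDist C] [CompleteSpace C] in
include h2 in
theorem norm_SU_map {Ψ : MvPowerSeries (Fin n) O →+* C} (hΨ : Contr φ Ψ) (i : ι) (a b : Fin 2) :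
    ‖((SU (O := O) e i).map Ψ - 1) a b‖ < 1 := by
  obtain ⟨-, M, hM1, hM⟩ := hΨ
  have h3 := SU_sub_mem (O := O) e h2 i le_rfl (fun j => xv_mem e i j) a b
  have h4 : ((SU (O := O) e i).map Ψ - 1) a b = Ψ ((SU (O := O) e i - 1) a b) := by
    rw [Matrix.sub_apply, Matrix.sub_apply, map_sub, Matrix.map_apply]
    congr 1
    rcases eq_or_ne a b with rfl | h
    · rw [Matrix.one_apply_eq, Matrix.one_apply_eq, map_one]
    · rw [Matrix.one_apply_ne h, Matrix.one_apply_ne h, map_zero]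
  rw [h4]
  exact (hM _ h3).trans_lt hM1

omit [Fintype ι] [Fintype κ] [IsUltrametricDist C] [CompleteSpace C] in
include h2 hε hqO in
theorem norm_FU_map {Ψ : MvPowerSeries (Fin n) O →+* C} (hΨ : Contr φ Ψ) (i : ι) (a b : Fin 2) :
    ‖((FU e (fun i => (q i : O)) ε i).map Ψ - (φ (ε i)) • (1 : Matrix (Fin 2) (Fin 2) C)) a b‖ <
      1 := by
  obtain ⟨hC, M, hM1, hM⟩ := hΨ
  have h3 := FU_sub_mem (O := O) (q := fun i => (q i : O)) e h2 hε i le_rfl
    (fun j => xv_mem e i j) (Cq_mem (q := fun i => (q i : O)) hqO i) a b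
  have h4 : ((FU e (fun i => (q i : O)) ε i).map Ψ - (φ (ε i)) •
      (1 : Matrix (Fin 2) (Fin 2) C)) a b = Ψ ((FU e (fun i => (q i : O)) ε i -
        (MvPowerSeries.C (ε i) : MvPowerSeries (Fin n) O) •
      (1 : Matrix (Fin 2) (Fin 2) (MvPowerSeries (Fin n) O))) a b) := by
    rw [Matrix.sub_apply, Matrix.sub_apply, map_sub, Matrix.map_apply, Matrix.smul_apply,
      Matrix.smul_apply, smul_eq_mul, smul_eq_mul, map_mul, hC]
    congr 2
    rcases eq_or_ne a b with rfl | h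
    · rw [Matrix.one_apply_eq, Matrix.one_apply_eq, map_one]
    · rw [Matrix.one_apply_ne h, Matrix.one_apply_ne h, map_zero]
  rw [h4]
  exact (hM _ h3).trans_lt hM1

variable [CharZero C] [IsAlgClosed C]

omit [Fintype ι] [Fintype κ] in
include hp hp2 hpC hε hqO in
/-- **(P), type χ** -/
theorem kill_I2 {𝓔 : ι → Finset O} {a m : ι → ℕ} (hqm : ∀ i, q i = p ^ a i * m i + 1)
    (ha : ∀ i, a i ≠ 0) (hm : ∀ i, ¬ p ∣ m i)
    (h𝓔 : ∀ i, ∀ z : C, z ^ (p ^ a i) = 1 → z ≠ 1 → ∃ E ∈ 𝓔 i, φ E = ((z - z⁻¹) / 2) ^ 2)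
    {Ψ : MvPowerSeries (Fin n) O →+* C} (hΨ : Contr φ Ψ) (hrel : Rel e q ε Ψ)
    (htr : ∀ i, ((SU e i).map Ψ).trace ≠ 2) {f : MvPowerSeries (Fin n) O}
    (hf : f ∈ I2 e hφ 𝓔) (h2 : IsUnit (2 : O)) : Ψ f = 0 := by
  refine kill e hφ hΨ (fun i => ?_) hf
  obtain ⟨z, hz1, hz2, hz3⟩ := tl_mem_XE hp hp2 hpC (q := q i) (by rw [hqm]; omega) (hqm i) (ha i)
    (hm i) (det_SU_map e h2 Ψ i) (det_FU_map e h2 hε hqO Ψ i) (hrel i)
    (norm_SU_map e h2 hΨ i) (norm_FU_map e h2 hε hqO hΨ i) (htr i)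
  obtain ⟨E, hE, hE2⟩ := h𝓔 i z hz1 hz2
  rw [tl_map e ε Ψ i, ← hE2] at hz3
  exact Set.mem_iUnion₂.mpr ⟨E, hE, hz3⟩

omit [Fintype ι] [Fintype κ] [CompleteSpace C] [IsAlgClosed C] in
include hp hp2 hpC hε hqO in
theorem mem_or_mem (hq1 : ∀ i, 1 < q i) {k : ι → O} (hk : ∀ i, 2 * k i = ε i * (q i - 1))
    (hm1 : ∀ a ∈ maximalIdeal O, ‖φ a‖ < 1)
    {Ψ : MvPowerSeries (Fin n) O →+* C} (hΨ : Contr φ Ψ) (hrel : Rel e q ε Ψ)
    (htr : ∀ i, ((SU e i).map Ψ).trace = 2) (h2 : IsUnit (2 : O)) (i : ι) :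
    ((SU e i).map Ψ = 1 ∧ (fun j => Ψ (xv e i j)) ∈ Xun C) ∨
      ((SU e i).map Ψ ≠ 1 ∧ (fun j => Ψ (xv e i j)) ∈ XSt (φ (k i))) := by
  have h3 := tl_mem_X1 hp hp2 hpC (q := q i) (hq1 i) (by
      have := hm1 _ (hqO i)
      rwa [map_sub, map_one, map_natCast] at this)
    (ε := φ (ε i)) (k := φ (k i)) (by rw [← map_pow, hε, map_one]) (by
      have := congrArg φ (hk i)
      rwa [map_mul, map_mul, map_sub, map_one, map_natCast, map_ofNat] at this)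
    (det_SU_map e h2 Ψ i) (det_FU_map e h2 hε hqO Ψ i) (hrel i)
    (norm_SU_map e h2 hΨ i) (norm_FU_map e h2 hε hqO hΨ i) (htr i)
  rwa [tl_map e ε Ψ i] at h3

omit [Fintype ι] [Fintype κ] [IsAlgClosed C] in
include hp hp2 hpC hε hqO in
/-- **(P), type 1** -/
theorem kill_I1 (hq1 : ∀ i, 1 < q i) {k : ι → O} (hk : ∀ i, 2 * k i = ε i * (q i - 1))
    (hm1 : ∀ a ∈ maximalIdeal O, ‖φ a‖ < 1)
    {Ψ : MvPowerSeries (Fin n) O →+* C} (hΨ : Contr φ Ψ) (hrel : Rel e q ε Ψ)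
    (htr : ∀ i, ((SU e i).map Ψ).trace = 2) {f : MvPowerSeries (Fin n) O}
    (hf : f ∈ I1 e hφ k) (h2 : IsUnit (2 : O)) : Ψ f = 0 := by
  refine kill e hφ hΨ (fun i => ?_) hf
  rcases mem_or_mem e hp hp2 hpC hε hqO hq1 hk hm1 hΨ hrel htr h2 i with h | h
  · exact Or.inl h.2
  · exact Or.inr h.2

omit [Fintype ι] [Fintype κ] [IsAlgClosed C] in
include hp hp2 hpC hε hqO in
/-- **(P), components**: unramified outside `T`, ramified (or with the Steinberg value of the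
trace of Frobenius) at `T` -/
theorem kill_𝔭T (hq1 : ∀ i, 1 < q i) {k : ι → O} (hk : ∀ i, 2 * k i = ε i * (q i - 1))
    (hm1 : ∀ a ∈ maximalIdeal O, ‖φ a‖ < 1)
    {Ψ : MvPowerSeries (Fin n) O →+* C} (hΨ : Contr φ Ψ) (hrel : Rel e q ε Ψ)
    (htr : ∀ i, ((SU e i).map Ψ).trace = 2) (T : ι → Bool)
    (hT0 : ∀ i, T i = false → (SU e i).map Ψ = 1)
    (hT1 : ∀ i, T i = true → (SU e i).map Ψ ≠ 1 ∨
      ((FU e (fun i => (q i : O)) ε i).map Ψ).trace ^ 2 = ((q i : C) + 1) ^ 2)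
    {f : MvPowerSeries (Fin n) O}
    (hf : f ∈ 𝔭T e hφ k T) (h2 : IsUnit (2 : O)) : Ψ f = 0 := by
  refine kill e hφ hΨ (fun i => ?_) hf
  have h3 := mem_or_mem e hp hp2 hpC hε hqO hq1 hk hm1 hΨ hrel htr h2 i
  unfold X1
  rcases Bool.eq_false_or_eq_true (T i) with hT | hT
  · rw [hT, if_pos rfl]
    rcases h3 with h | h
    · rcases hT1 i hT with h4 | h4
      · exact absurd h.1 h4
      · obtain ⟨hn, h5, h6, h7⟩ := h.2
        have hd := det_FU_map e h2 hε hqO Ψ i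
        rw [Matrix.det_fin_two] at hd
        rw [Matrix.trace_fin_two] at h4
        have hk2 : (2 : C) * φ (k i) = φ (ε i) * ((q i : C) - 1) := by
          have := congrArg φ (hk i)
          rwa [map_mul, map_mul, map_sub, map_one, map_natCast, map_ofNat] at this
        have hε2 : φ (ε i) ^ 2 = 1 := by rw [← map_pow, hε, map_one]
        have h2C : (2 : C) ≠ 0 := two_ne_zero
        have e3 : 2 * Ψ (xv e i 3) = ((FU e (fun i => (q i : O)) ε i).map Ψ) 0 0 -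
            ((FU e (fun i => (q i : O)) ε i).map Ψ) 1 1 := by
          have h3 := congrArg Ψ (two_mul_X3 (O := O) e (fun i => (q i : O)) ε i)
          rwa [map_sub, map_mul, map_ofNat] at h3
        have e4 : Ψ (xv e i 4) = ((FU e (fun i => (q i : O)) ε i).map Ψ) 0 1 := rfl
        have e5 : Ψ (xv e i 5) = ((FU e (fun i => (q i : O)) ε i).map Ψ) 1 0 := rfl
        refine ⟨hn, ?_, ?_, ?_, ?_, ?_, ?_⟩
        · show Ψ (xv e i 0) ^ 2 + Ψ (xv e i 1) * Ψ (xv e i 2) = 0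
          have a0 : Ψ (xv e i 0) = 0 := h5
          have a1 : Ψ (xv e i 1) = 0 := h6
          rw [a0, a1]; ring
        · show Ψ (xv e i 3) ^ 2 + Ψ (xv e i 4) * Ψ (xv e i 5) = φ (k i) ^ 2
          rw [e4, e5]
          have h8 : (4 : C) ≠ 0 := by norm_num
          apply mul_left_cancel₀ h8
          linear_combination (2 * Ψ (xv e i 3) + ((FU e (fun i => (q i : O)) ε i).map Ψ) 0 0 -
            ((FU e (fun i => (q i : O)) ε i).map Ψ) 1 1) * e3 + h4 - 4 * hd -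
            (2 * φ (k i) + φ (ε i) * ((q i : C) - 1)) * hk2 - ((q i : C) - 1) ^ 2 * hε2
        · show Ψ (xv e i 3) * Ψ (xv e i 0) + Ψ (xv e i 4) * Ψ (xv e i 2) = φ (k i) * Ψ (xv e i 0)
          have a0 : Ψ (xv e i 0) = 0 := h5
          have a2 : Ψ (xv e i 2) = 0 := h7
          rw [a0, a2]; ring
        · show Ψ (xv e i 3) * Ψ (xv e i 1) - Ψ (xv e i 4) * Ψ (xv e i 0) = φ (k i) * Ψ (xv e i 1)
          have a0 : Ψ (xv e i 0) = 0 := h5
          have a1 : Ψ (xv e i 1) = 0 := h6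
          rw [a0, a1]; ring
        · show Ψ (xv e i 5) * Ψ (xv e i 0) - Ψ (xv e i 3) * Ψ (xv e i 2) = φ (k i) * Ψ (xv e i 2)
          have a0 : Ψ (xv e i 0) = 0 := h5
          have a2 : Ψ (xv e i 2) = 0 := h7
          rw [a0, a2]; ring
        · show Ψ (xv e i 3) * Ψ (xv e i 0) + Ψ (xv e i 5) * Ψ (xv e i 1) =
            -φ (k i) * Ψ (xv e i 0)
          have a0 : Ψ (xv e i 0) = 0 := h5
          have a1 : Ψ (xv e i 1) = 0 := h6
          rw [a0, a1]; ring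
    · exact h.2
  · rw [hT, if_neg (by simp)]
    rcases h3 with h | h
    · exact h.2
    · exact absurd (hT0 i hT) h.1

end

omit [Fintype ι] [Fintype κ] in
/-- on a component unramified at `i`, `Σ_i = 1` -/
theorem xv_mem_𝔭T (k : ι → O) {T : ι → Bool} {i : ι} (hi : T i = false) :
    xv e i 0 ∈ 𝔭T e hφ k T ∧ xv e i 1 ∈ 𝔭T e hφ k T ∧ xv e i 2 ∈ 𝔭T e hφ k T := by
  have key : ∀ P ∈ TotE e (X1 (fun i => φ (k i)) T), (fun j => P (e (Sum.inl (i, j)))) ∈ Xun C := by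
    intro P hP
    have := hP.1 i
    simpa only [X1, hi, Bool.false_eq_true, if_false] using this
  refine ⟨fun P hP _ => ?_, fun P hP _ => ?_, fun P hP _ => ?_⟩
  · rw [xv, ev_X]; exact (key P hP).2.1
  · rw [xv, ev_X]; exact (key P hP).2.2.1
  · rw [xv, ev_X]; exact (key P hP).2.2.2

omit [Fintype ι] [Fintype κ] in
/-- on a component Steinberg at `i`: `W² = k²` -/
theorem frob_mem_𝔭T (k : ι → O) {T : ι → Bool} {i : ι} (hi : T i = true) :
    xv e i 3 ^ 2 + xv e i 4 * xv e i 5 - MvPowerSeries.C (k i ^ 2) ∈ 𝔭T e hφ k T := by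
  intro P hP hPn
  have h2 := hP.1 i
  simp only [X1, hi] at h2
  have h3 := h2.2.2.1
  have e1 : ev φ P (xv e i 3 ^ 2 + xv e i 4 * xv e i 5 - MvPowerSeries.C (k i ^ 2)) =
      P (e (Sum.inl (i, 3))) ^ 2 +
      P (e (Sum.inl (i, 4))) * P (e (Sum.inl (i, 5))) - φ (k i) ^ 2 := by
    rw [← evHom_apply hφ hPn, map_sub, map_add, map_pow, map_mul, evHom_apply, evHom_apply,
      evHom_apply, evHom_apply, xv, xv, xv, ev_X, ev_X, ev_X, ev_C, map_pow]
  rw [e1, sub_eq_zero]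
  exact h3

end Fermat.Agent.TWLoc
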