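import Fermat.Agent.TWLoc.TypeSt

set_option autoImplicit false
set_option linter.style.haveILetI false

/-! Products of irreducible sets. -/

namespace Fermat.Agent.TWLoc

open Filter Topology

variable {C : Type*} [NontriviallyNormedField C] [IsUltrametricDist C]

omit [IsUltrametricDist C] in
theorem Good.partial {T σ : Type*} [Fintype T] {F : (T → C) → C} (hF : Good F) {P : T → C}
    (hP : ∀ t, ‖P t‖ < 1) (sel : T → Option σ) :
    Good fun q : σ → C => F fun t => (sel t).elim (P t) q := by
  obtain ⟨M0, hM0, hM01, hM⟩ := exists_bound hP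
  have key := hF.comp (fun t => (sel t).elim (MvPolynomial.C (P t)) MvPolynomial.X :
    T → MvPolynomial σ C) (by
    intro M hM0' hM1'
    refine ⟨max M M0, le_max_of_le_left hM0', max_lt hM1' hM01, fun q hq t => ?_⟩
    cases sel t with
    | none => simpa using le_max_of_le_right (hM t)
    | some j => simpa using le_max_of_le_left (hq j))
  convert key using 3 with q t
  funext t
  cases sel t with
  | none => simp
  | some j => simp

variable {ι κ : Type*} [Fintype ι] [Fintype κ]

omit [IsUltrametricDist C] [Fintype ι] [Fintype κ] in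
/-- product sets -/
def Tot (κ : Type*) (X : ι → Set (Fin 6 → C)) : Set ((ι × Fin 6) ⊕ κ → C) :=
  {P | (∀ i, (fun j => P (Sum.inl (i, j))) ∈ X i) ∧ ∀ k, ‖P (Sum.inr k)‖ < 1}

omit [IsUltrametricDist C] [Fintype ι] [Fintype κ] in
theorem Tot.norm {X : ι → Set (Fin 6 → C)} (hX : ∀ i, ∀ q ∈ X i, ∀ j, ‖q j‖ < 1)
    {P : (ι × Fin 6) ⊕ κ → C} (hP : P ∈ Tot κ X) (t : (ι × Fin 6) ⊕ κ) : ‖P t‖ < 1 := by
  rcases t with ⟨i, j⟩ | k
  · exact hX i _ (hP.1 i) j
  · exact hP.2 k

variable [IsAlgClosed C] [CharZero C]

open Classical in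
theorem irr_Tot {X : ι → Set (Fin 6 → C)} (hX : ∀ i, ∀ q ∈ X i, ∀ j, ‖q j‖ < 1)
    (hirr : ∀ i, Irr (X i)) : Irr (Tot κ X) := by
  rintro F G hF hG ⟨P0, hP0, hF0⟩ ⟨P0', hP0', hG0⟩
  -- blocks
  have st1 : ∀ s : Finset ι, ∃ P ∈ Tot κ X, ∃ P' ∈ Tot κ X, F P ≠ 0 ∧ G P' ≠ 0 ∧
      ∀ i ∈ s, ∀ j, P (Sum.inl (i, j)) = P' (Sum.inl (i, j)) := by
    intro s
    induction s using Finset.induction_on with
    | empty => exact ⟨P0, hP0, P0', hP0', hF0, hG0, by simp⟩
    | insert i s _ ih =>
      obtain ⟨P, hP, P', hP', hFP, hGP, hag⟩ := ih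
      let sel : (ι × Fin 6) ⊕ κ → Option (Fin 6) :=
        Sum.elim (fun x => if x.1 = i then some x.2 else none) fun _ => none
      let upd : ((ι × Fin 6) ⊕ κ → C) → (Fin 6 → C) → ((ι × Fin 6) ⊕ κ → C) := fun P q t =>
        (sel t).elim (P t) q
      have upd_self : ∀ P : (ι × Fin 6) ⊕ κ → C, upd P (fun j => P (Sum.inl (i, j))) = P := by
        intro P
        funext t
        rcases t with ⟨i', j⟩ | k
        · show (if i' = i then some j else none).elim _ _ = _
          by_cases h : i' = i
          · subst h; rw [if_pos rfl]; rfl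
          · rw [if_neg h]; rfl
        · rfl
      have upd_i : ∀ P q j, upd P q (Sum.inl (i, j)) = q j := by
        intro P q j
        show (if i = i then some j else none).elim _ _ = _
        rw [if_pos rfl]; rfl
      have upd_ne : ∀ P q i' j, i' ≠ i → upd P q (Sum.inl (i', j)) = P (Sum.inl (i', j)) := by
        intro P q i' j h
        show (if i' = i then some j else none).elim _ _ = _
        rw [if_neg h]; rfl
      have upd_mem : ∀ P ∈ Tot κ X, ∀ q ∈ X i, upd P q ∈ Tot κ X := by
        intro P hP q hq
        refine ⟨fun i' => ?_, hP.2⟩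
        by_cases h : i' = i
        · subst h
          have : (fun j => upd P q (Sum.inl (i', j))) = q := funext fun j => upd_i P q j
          rw [this]; exact hq
        · have : (fun j => upd P q (Sum.inl (i', j))) = fun j => P (Sum.inl (i', j)) :=
            funext fun j => upd_ne P q i' j h
          rw [this]; exact hP.1 i'
      obtain ⟨q, hq, hq1, hq2⟩ := hirr i (fun q => F (upd P q)) (fun q => G (upd P' q))
        (hF.partial (Tot.norm hX hP) sel) (hG.partial (Tot.norm hX hP') sel)
        ⟨_, hP.1 i, by rw [upd_self]; exact hFP⟩ ⟨_, hP'.1 i, by rw [upd_self]; exact hGP⟩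
      refine ⟨upd P q, upd_mem P hP q hq, upd P' q, upd_mem P' hP' q hq, hq1, hq2, ?_⟩
      intro i' hi' j
      by_cases h : i' = i
      · subst h; rw [upd_i, upd_i]
      · rw [upd_ne _ _ _ _ h, upd_ne _ _ _ _ h]
        exact hag i' (Finset.mem_of_mem_insert_of_ne hi' h) j
  obtain ⟨ϖ, hϖ1, hϖ2⟩ := exists_norm_between (C := C) (a := 1 / 2) (b := 1) (by norm_num)
    (by norm_num)
  have hϖ : ϖ ≠ 0 := norm_pos_iff.mp (lt_trans (by norm_num) hϖ1)
  have st2 : ∀ s : Finset κ, ∃ P ∈ Tot κ X, ∃ P' ∈ Tot κ X, F P ≠ 0 ∧ G P' ≠ 0 ∧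
      (∀ i, ∀ j, P (Sum.inl (i, j)) = P' (Sum.inl (i, j))) ∧
      ∀ k ∈ s, P (Sum.inr k) = P' (Sum.inr k) := by
    intro s
    induction s using Finset.induction_on with
    | empty =>
      obtain ⟨P, hP, P', hP', h1, h2, h3⟩ := st1 Finset.univ
      exact ⟨P, hP, P', hP', h1, h2, fun i => h3 i (Finset.mem_univ _), by simp⟩
    | insert k s _ ih =>
      obtain ⟨P, hP, P', hP', hFP, hGP, hag, hag'⟩ := ih
      have gen : ∀ (F : ((ι × Fin 6) ⊕ κ → C) → C), Good F → ∀ P ∈ Tot κ X, F P ≠ 0 →
          ∀ᶠ u in UU C, F (Function.update P (Sum.inr k) (ϖ * u)) ≠ 0 := by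
        intro F hF P hP hFP
        refine hF.generic_disc (Q := fun x => Function.update P (Sum.inr k) x) (R2 := 1) ?_ ?_ ?_
          (x0 := P (Sum.inr k)) (hP.2 k) (by rwa [Function.update_eq_self]) hϖ hϖ2
        · intro t
          by_cases h : t = Sum.inr k
          · subst h
            simp only [Function.update_self]
            exact IsLau.id
          · simp only [Function.update_of_ne h]
            exact IsLau.const _
        · intro t
          by_cases h : t = Sum.inr k
          · subst h
            simp only [Function.update_self]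
            exact continuousAt_id
          · simp only [Function.update_of_ne h]
            exact continuousAt_const
        · intro x hx t
          by_cases h : t = Sum.inr k
          · subst h; rwa [Function.update_self]
          · rw [Function.update_of_ne h]
            exact Tot.norm hX hP t
      obtain ⟨u, ⟨h1, h2⟩, hu⟩ := (((gen F hF P hP hFP).and (gen G hG P' hP' hGP)).and UU_mem).exists
      have hmem : ∀ P ∈ Tot κ X, Function.update P (Sum.inr k) (ϖ * u) ∈ Tot κ X := by
        intro P hP
        refine ⟨fun i => ?_, fun k' => ?_⟩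
        · have : (fun j => Function.update P (Sum.inr k) (ϖ * u) (Sum.inl (i, j))) =
              fun j => P (Sum.inl (i, j)) := funext fun j =>
            Function.update_of_ne (by simp) _ _
          rw [this]; exact hP.1 i
        · by_cases h : k' = k
          · subst h
            rw [Function.update_self, norm_mul, TU.norm hu, mul_one]; exact hϖ2
          · rw [Function.update_of_ne (by simpa using h)]
            exact hP.2 k'
      refine ⟨_, hmem P hP, _, hmem P' hP', h1, h2, fun i j => ?_, fun k' hk' => ?_⟩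
      · rw [Function.update_of_ne (by simp), Function.update_of_ne (by simp)]
        exact hag i j
      · by_cases h : k' = k
        · subst h; rw [Function.update_self, Function.update_self]
        · rw [Function.update_of_ne (by simpa using h), Function.update_of_ne (by simpa using h)]
          exact hag' k' (Finset.mem_of_mem_insert_of_ne hk' h)
  obtain ⟨P, hP, P', hP', h1, h2, h3, h4⟩ := st2 Finset.univ
  have : P = P' := by
    funext t
    rcases t with ⟨i, j⟩ | k
    · exact h3 i j
    · exact h4 k (Finset.mem_univ _)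
  subst this
  exact ⟨P, hP, h1, h2⟩

end Fermat.Agent.TWLoc
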