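import Fermat.Agent.TWLoc.Approx

set_option autoImplicit false
set_option linter.style.haveILetI false

/-! Components of the special fibre. -/

namespace Fermat.Agent.TWLoc

open Filter Topology MvPowerSeries IsLocalRing

section block

variable {C : Type*} [NontriviallyNormedField C] [IsUltrametricDist C]

theorem blk_nil {E s1 s2 x y : C} {ρ : ℝ} (hρ0 : 0 < ρ) (hρ1 : ρ < 1) (hE : ‖E‖ < ρ ^ 6)
    (h1 : ‖s1‖ < 1) (h2 : ‖s2‖ < 1) (hx : ‖x‖ < 1) (hy : ‖y‖ < 1) (hs : ρ < ‖s1 * x‖) :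
    ![-(s1 * x * y), s1 * x ^ 2, -(s1 * y ^ 2) + E / (s1 * x ^ 2), -(s2 * x * y), s2 * x ^ 2,
      -(s2 * y ^ 2) + s2 * E / (s1 ^ 2 * x ^ 2)] ∈ XE E ∧ ∀ j, ‖(![-(s1 * x * y), s1 * x ^ 2,
      -(s1 * y ^ 2) + E / (s1 * x ^ 2), -(s2 * x * y), s2 * x ^ 2,
      -(s2 * y ^ 2) + s2 * E / (s1 ^ 2 * x ^ 2)] : Fin 6 → C) j -
      (![-(s1 * x * y), s1 * x ^ 2, -(s1 * y ^ 2), -(s2 * x * y), s2 * x ^ 2,
        -(s2 * y ^ 2)] : Fin 6 → C) j‖ ≤ ρ ^ 2 := by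
  rw [norm_mul] at hs
  have hs1 : ρ < ‖s1‖ := hs.trans_le (mul_le_of_le_one_right (norm_nonneg _) hx.le)
  have hsx : ρ < ‖x‖ := hs.trans_le (mul_le_of_le_one_left (norm_nonneg _) h1.le)
  have hs10 : 0 < ‖s1‖ := hρ0.trans hs1
  have hx0 : 0 < ‖x‖ := hρ0.trans hsx
  have hs1' : s1 ≠ 0 := norm_pos_iff.mp hs10
  have hx' : x ≠ 0 := norm_pos_iff.mp hx0
  have e1 : ‖E / (s1 * x ^ 2)‖ ≤ ρ ^ 2 := by
    rw [norm_div, norm_mul, norm_pow, div_le_iff₀ (by positivity)]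
    have a1 : ρ * ρ ^ 2 ≤ ‖s1‖ * ‖x‖ ^ 2 :=
      mul_le_mul hs1.le (pow_le_pow_left₀ hρ0.le hsx.le 2) (by positivity) hs10.le
    have a2 : ρ ^ 6 ≤ ρ ^ 5 := pow_le_pow_of_le_one hρ0.le hρ1.le (by norm_num)
    have a3 : ρ ^ 2 * (ρ * ρ ^ 2) ≤ ρ ^ 2 * (‖s1‖ * ‖x‖ ^ 2) :=
      mul_le_mul_of_nonneg_left a1 (by positivity)
    have a4 : ρ ^ 5 = ρ ^ 2 * (ρ * ρ ^ 2) := by ring
    linarith
  have e2 : ‖s2 * E / (s1 ^ 2 * x ^ 2)‖ ≤ ρ ^ 2 := by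
    rw [norm_div, norm_mul, norm_mul, norm_pow, norm_pow, div_le_iff₀ (by positivity)]
    have a1 : ρ ^ 2 * ρ ^ 2 ≤ ‖s1‖ ^ 2 * ‖x‖ ^ 2 :=
      mul_le_mul (pow_le_pow_left₀ hρ0.le hs1.le 2) (pow_le_pow_left₀ hρ0.le hsx.le 2)
        (by positivity) (by positivity)
    have a3 : ρ ^ 2 * (ρ ^ 2 * ρ ^ 2) ≤ ρ ^ 2 * (‖s1‖ ^ 2 * ‖x‖ ^ 2) :=
      mul_le_mul_of_nonneg_left a1 (by positivity)
    have a4 : ρ ^ 6 = ρ ^ 2 * (ρ ^ 2 * ρ ^ 2) := by ring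
    have a5 : ‖s2‖ * ‖E‖ ≤ ‖E‖ := mul_le_of_le_one_left (norm_nonneg _) h2.le
    linarith
  have hρ2 : ρ ^ 2 < 1 := pow_lt_one₀ hρ0.le hρ1 two_ne_zero
  have hsq : ∀ z : C, ‖z‖ < 1 → ‖z ^ 2‖ < 1 := fun z hz => by
    rw [norm_pow]; exact pow_lt_one₀ (norm_nonneg _) hz two_ne_zero
  constructor
  · refine ⟨fun j => ?_, ?_, ?_, ?_, ?_⟩
    · fin_cases j
      · show ‖-(s1 * x * y)‖ < 1
        rw [norm_neg]
        exact nmul_lt (nmul_lt h1.le hx).le hy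
      · exact nmul_lt h1.le (hsq x hx)
      · refine nadd_lt ?_ (e1.trans_lt hρ2)
        rw [norm_neg]; exact nmul_lt h1.le (hsq y hy)
      · show ‖-(s2 * x * y)‖ < 1
        rw [norm_neg]
        exact nmul_lt (nmul_lt h2.le hx).le hy
      · exact nmul_lt h2.le (hsq x hx)
      · refine nadd_lt ?_ (e2.trans_lt hρ2)
        rw [norm_neg]; exact nmul_lt h2.le (hsq y hy)
    · show (-(s1 * x * y)) ^ 2 + s1 * x ^ 2 * (-(s1 * y ^ 2) + E / (s1 * x ^ 2)) = E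
      field_simp; ring
    · show -(s1 * x * y) * (s2 * x ^ 2) = s1 * x ^ 2 * (-(s2 * x * y))
      ring
    · show -(s1 * x * y) * (-(s2 * y ^ 2) + s2 * E / (s1 ^ 2 * x ^ 2)) =
        (-(s1 * y ^ 2) + E / (s1 * x ^ 2)) * (-(s2 * x * y))
      field_simp
    · show s1 * x ^ 2 * (-(s2 * y ^ 2) + s2 * E / (s1 ^ 2 * x ^ 2)) =
        (-(s1 * y ^ 2) + E / (s1 * x ^ 2)) * (s2 * x ^ 2)
      field_simp
  · intro j
    have hz : ∀ a : C, ‖a - a‖ ≤ ρ ^ 2 := fun a => by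
      rw [sub_self, norm_zero]; positivity
    have hz2 : ∀ a b : C, ‖b‖ ≤ ρ ^ 2 → ‖a + b - a‖ ≤ ρ ^ 2 := fun a b h => by
      rwa [add_sub_cancel_left]
    fin_cases j
    exacts [hz _, hz _, hz2 _ _ e1, hz _, hz _, hz2 _ _ e2]

omit [IsUltrametricDist C] in
theorem blk_unr [IsAlgClosed C] {E m v w : C} {ρ : ℝ} (hρ0 : 0 < ρ) (hρ1 : ρ < 1)
    (hE : ‖E‖ < ρ ^ 6) (h1 : ‖m‖ < 1) (h2 : ‖v‖ < 1) (h3 : ‖w‖ < 1) (hs : ρ < ‖m ^ 2 + v * w‖) :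
    ∃ ξ : C, ![ξ * m, ξ * v, ξ * w, m, v, w] ∈ XE E ∧ ∀ j, ‖(![ξ * m, ξ * v, ξ * w, m, v, w] :
      Fin 6 → C) j - (![0, 0, 0, m, v, w] : Fin 6 → C) j‖ ≤ ρ ^ 2 := by
  have hs0 : 0 < ‖m ^ 2 + v * w‖ := hρ0.trans hs
  have hs' : m ^ 2 + v * w ≠ 0 := norm_pos_iff.mp hs0
  obtain ⟨ξ, hξ⟩ := IsAlgClosed.exists_pow_nat_eq (E / (m ^ 2 + v * w)) two_pos
  have hξE : ξ ^ 2 * (m ^ 2 + v * w) = E := by rw [hξ]; field_simp
  have hξn : ‖ξ‖ ≤ ρ ^ 2 := by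
    have a1 : ‖ξ‖ ^ 2 * ‖m ^ 2 + v * w‖ = ‖E‖ := by rw [← norm_pow, ← norm_mul, hξE]
    have a2 : ‖ξ‖ ^ 2 * ρ ≤ ‖E‖ := by
      rw [← a1]; exact mul_le_mul_of_nonneg_left hs.le (by positivity)
    have a3 : ‖ξ‖ ^ 2 ≤ (ρ ^ 2) ^ 2 := by
      have a4 : ‖ξ‖ ^ 2 * ρ ≤ ρ ^ 5 * ρ := by
        have : ρ ^ 5 * ρ = ρ ^ 6 := by ring
        rw [this]; exact a2.trans hE.le
      have a5 := le_of_mul_le_mul_right a4 hρ0
      have a6 : ρ ^ 5 ≤ ρ ^ 4 := pow_le_pow_of_le_one hρ0.le hρ1.le (by norm_num)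
      have a7 : (ρ ^ 2) ^ 2 = ρ ^ 4 := by ring
      rw [a7]; exact a5.trans a6
    exact (pow_le_pow_iff_left₀ (norm_nonneg _) (by positivity) two_ne_zero).mp a3
  have hρ2 : ρ ^ 2 < 1 := pow_lt_one₀ hρ0.le hρ1 two_ne_zero
  have hξ1 : ‖ξ‖ < 1 := hξn.trans_lt hρ2
  have hm : ∀ a : C, ‖a‖ < 1 → ‖ξ * a‖ ≤ ρ ^ 2 := fun a ha => by
    rw [norm_mul]
    exact (mul_le_of_le_one_right (norm_nonneg _) ha.le).trans hξn
  refine ⟨ξ, ⟨fun j => ?_, ?_, ?_, ?_, ?_⟩, fun j => ?_⟩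
  · fin_cases j
    exacts [nmul_lt hξ1.le h1, nmul_lt hξ1.le h2, nmul_lt hξ1.le h3, h1, h2, h3]
  · show (ξ * m) ^ 2 + ξ * v * (ξ * w) = E
    rw [← hξE]; ring
  · show ξ * m * v = ξ * v * m
    ring
  · show ξ * m * w = ξ * w * m
    ring
  · show ξ * v * w = ξ * w * v
    ring
  · have hz : ∀ a : C, ‖a - a‖ ≤ ρ ^ 2 := fun a => by
      rw [sub_self, norm_zero]; positivity
    fin_cases j
    · show ‖ξ * m - 0‖ ≤ _
      rw [sub_zero]; exact hm m h1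
    · show ‖ξ * v - 0‖ ≤ _
      rw [sub_zero]; exact hm v h2
    · show ‖ξ * w - 0‖ ≤ _
      rw [sub_zero]; exact hm w h3
    · exact hz _
    · exact hz _
    · exact hz _

end block

section subst

variable {ι κ : Type*} {τ : Type*} {R : Type*} [CommRing R]

/-- the parametrisation of a component of the special fibre -/
noncomputable def aT (R : Type*) [CommRing R] (T : ι → Bool) :
    (ι × Fin 6) ⊕ κ → MvPowerSeries ((ι × Fin 4) ⊕ κ) R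
  | Sum.inl (i, j) => if T i then
      ![-(X (Sum.inl (i, 0)) * X (Sum.inl (i, 2)) * X (Sum.inl (i, 3))),
        X (Sum.inl (i, 0)) * X (Sum.inl (i, 2)) ^ 2,
        -(X (Sum.inl (i, 0)) * X (Sum.inl (i, 3)) ^ 2),
        -(X (Sum.inl (i, 1)) * X (Sum.inl (i, 2)) * X (Sum.inl (i, 3))),
        X (Sum.inl (i, 1)) * X (Sum.inl (i, 2)) ^ 2,
        -(X (Sum.inl (i, 1)) * X (Sum.inl (i, 3)) ^ 2)] j
    else ![0, 0, 0, X (Sum.inl (i, 0)), X (Sum.inl (i, 1)), X (Sum.inl (i, 2))] j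
  | Sum.inr k => X (Sum.inr k)

/-- the same, on points -/
def pT {C : Type*} [CommRing C] (T : ι → Bool) (y : (ι × Fin 4) ⊕ κ → C) : (ι × Fin 6) ⊕ κ → C
  | Sum.inl (i, j) => if T i then
      ![-(y (Sum.inl (i, 0)) * y (Sum.inl (i, 2)) * y (Sum.inl (i, 3))),
        y (Sum.inl (i, 0)) * y (Sum.inl (i, 2)) ^ 2,
        -(y (Sum.inl (i, 0)) * y (Sum.inl (i, 3)) ^ 2),
        -(y (Sum.inl (i, 1)) * y (Sum.inl (i, 2)) * y (Sum.inl (i, 3))),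
        y (Sum.inl (i, 1)) * y (Sum.inl (i, 2)) ^ 2,
        -(y (Sum.inl (i, 1)) * y (Sum.inl (i, 3)) ^ 2)] j
    else ![0, 0, 0, y (Sum.inl (i, 0)), y (Sum.inl (i, 1)), y (Sum.inl (i, 2))] j
  | Sum.inr k => y (Sum.inr k)

theorem map_aT {C : Type*} [CommRing C] (T : ι → Bool) (ψ : MvPowerSeries ((ι × Fin 4) ⊕ κ) R →+* C)
    (t : (ι × Fin 6) ⊕ κ) : ψ (aT R T t) = pT T (fun s => ψ (X s)) t := by
  rcases t with ⟨i, j⟩ | k
  · simp only [aT, pT]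
    split_ifs
    · fin_cases j <;> simp
    · fin_cases j <;> simp
  · rfl

theorem constantCoeff_aT (T : ι → Bool) (t : (ι × Fin 6) ⊕ κ) :
    constantCoeff (aT R T t) = 0 := by
  rw [map_aT]
  rcases t with ⟨i, j⟩ | k
  · simp only [pT, constantCoeff_X]
    split_ifs
    · fin_cases j <;> simp
    · fin_cases j <;> simp
  · simp [pT]

variable (e : (ι × Fin 6) ⊕ κ ≃ τ) [Finite τ]

theorem hasSubst_aT (T : ι → Bool) : HasSubst fun t : τ => aT R T (e.symm t) :=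
  hasSubst_of_constantCoeff_zero fun _ => constantCoeff_aT T _

/-- the parametrisation -/
noncomputable def sT (R : Type*) [CommRing R] (T : ι → Bool) :
    MvPowerSeries τ R →+* MvPowerSeries ((ι × Fin 4) ⊕ κ) R :=
  (substAlgHom (hasSubst_aT (R := R) e T)).toRingHom

theorem sT_X (T : ι → Bool) (t : (ι × Fin 6) ⊕ κ) : sT e R T (X (e t)) = aT R T t := by
  show substAlgHom (hasSubst_aT (R := R) e T) (X (e t)) = _
  rw [substAlgHom_X, Equiv.symm_apply_apply]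

theorem sT_C (T : ι → Bool) (a : R) : sT e R T (MvPowerSeries.C a) = MvPowerSeries.C a :=
  (substAlgHom (hasSubst_aT (R := R) e T)).commutes a

theorem constantCoeff_sT (T : ι → Bool) {f : MvPowerSeries τ R} (hf : constantCoeff f = 0) :
    constantCoeff (sT e R T f) = 0 := by
  show constantCoeff (substAlgHom (hasSubst_aT (R := R) e T) f) = 0
  rw [substAlgHom_apply]
  exact constantCoeff_subst_eq_zero (hasSubst_aT (R := R) e T) (fun t => constantCoeff_aT T _) hf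

variable (O : Type*) [CommRing O] [IsLocalRing O]

/-- the map defining a component of the special fibre -/
noncomputable def spT (T : ι → Bool) :
    MvPowerSeries τ O →+* MvPowerSeries ((ι × Fin 4) ⊕ κ) (ResidueField O) :=
  (MvPowerSeries.map (residue O)).comp (sT e O T)

/-- the generic point of a component of the special fibre -/
noncomputable def QT (T : ι → Bool) : Ideal (MvPowerSeries τ O) := RingHom.ker (spT e O T)

instance (T : ι → Bool) : (QT e O T).IsPrime :=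
  haveI : IsDomain (MvPowerSeries ((ι × Fin 4) ⊕ κ) (ResidueField O)) :=
    NoZeroDivisors.to_isDomain _
  RingHom.ker_isPrime _

theorem C_mem_QT (T : ι → Bool) {a : O} (ha : a ∈ maximalIdeal O) :
    MvPowerSeries.C a ∈ QT e O T := by
  rw [QT, RingHom.mem_ker, spT, RingHom.comp_apply, sT_C, MvPowerSeries.map_C,
    (residue_eq_zero_iff _).mpr ha, map_zero]

theorem spT_X (T : ι → Bool) (t : (ι × Fin 6) ⊕ κ) :
    spT e O T (X (e t)) = aT (ResidueField O) T t := by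
  rw [spT, RingHom.comp_apply, sT_X, map_aT]
  have := map_aT (R := ResidueField O) T (RingHom.id _) t
  rw [RingHom.id_apply] at this
  rw [this]
  simp

end subst

end Fermat.Agent.TWLoc
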