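import Fermat.Agent.TWLoc.Types

set_option autoImplicit false
set_option linter.style.haveILetI false

/-! Irreducibility of the Steinberg type. -/

namespace Fermat.Agent.TWLoc

open Filter Topology Polynomial

variable {C : Type*} [NontriviallyNormedField C] [IsUltrametricDist C]

/-- the Steinberg chart -/
def pS (κ b y v : C) : Fin 6 → C := ![y * b, b, -(y ^ 2 * b), κ + v * y, v, -(y * (2 * κ + v * y))]

theorem pS_norm {κ b y v : C} (hκ : ‖κ‖ < 1) (hb : ‖b‖ < 1) (hv : ‖v‖ < 1) (hy1 : ‖y * b‖ < 1)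
    (hy2 : ‖y ^ 2 * b‖ < 1) (hy3 : ‖v * y‖ < 1) (hy4 : ‖y * (2 * κ)‖ < 1) (hy5 : ‖y * (v * y)‖ < 1)
    (j : Fin 6) : ‖pS κ b y v j‖ < 1 := by
  fin_cases j
  · exact hy1
  · exact hb
  · show ‖-(y ^ 2 * b)‖ < 1
    rw [norm_neg]; exact hy2
  · exact nadd_lt hκ hy3
  · exact hv
  · show ‖-(y * (2 * κ + v * y))‖ < 1
    rw [norm_neg, mul_add]
    exact nadd_lt hy4 hy5

omit [IsUltrametricDist C] in
theorem pS_mem {κ b y v : C} (h : ∀ j, ‖pS κ b y v j‖ < 1) : pS κ b y v ∈ XSt κ := by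
  refine ⟨h, ?_, ?_, ?_, ?_, ?_, ?_⟩
  · show (y * b) ^ 2 + b * (-(y ^ 2 * b)) = 0
    ring
  · show (κ + v * y) ^ 2 + v * (-(y * (2 * κ + v * y))) = κ ^ 2
    ring
  · show (κ + v * y) * (y * b) + v * (-(y ^ 2 * b)) = κ * (y * b)
    ring
  · show (κ + v * y) * b - v * (y * b) = κ * b
    ring
  · show -(y * (2 * κ + v * y)) * (y * b) - (κ + v * y) * (-(y ^ 2 * b)) = κ * (-(y ^ 2 * b))
    ring
  · show (κ + v * y) * (y * b) + -(y * (2 * κ + v * y)) * b = -κ * (y * b)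
    ring

omit [IsUltrametricDist C] in
/-- points in the good chart -/
theorem exists_pS {κ : C} {q : Fin 6 → C} (hq : q ∈ XSt κ)
    (h : (q 1 ≠ 0 ∧ ‖q 0‖ ≤ ‖q 1‖) ∨ (q 0 = 0 ∧ q 1 = 0 ∧ q 2 = 0 ∧ q 4 ≠ 0 ∧ ‖q 3 - κ‖ ≤ ‖q 4‖)) :
    ∃ y, ‖y‖ ≤ 1 ∧ q = pS κ (q 1) y (q 4) := by
  obtain ⟨h0, h1, h2, h3, h4, h5, h6⟩ := hq
  rcases h with ⟨hb, hn⟩ | ⟨hn, hb, hc, hv, hm⟩
  · refine ⟨q 0 / q 1, by rw [norm_div]; exact div_le_one_of_le₀ hn (norm_nonneg _), ?_⟩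
    funext j
    fin_cases j
    · show q 0 = q 0 / q 1 * q 1
      field_simp
    · rfl
    · show q 2 = -((q 0 / q 1) ^ 2 * q 1)
      field_simp; linear_combination h1
    · show q 3 = κ + q 4 * (q 0 / q 1)
      field_simp; linear_combination h4
    · rfl
    · show q 5 = -(q 0 / q 1 * (2 * κ + q 4 * (q 0 / q 1)))
      field_simp; linear_combination q 1 * h6 - q 0 * h4
  · refine ⟨(q 3 - κ) / q 4, by rw [norm_div]; exact div_le_one_of_le₀ hm (norm_nonneg _), ?_⟩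
    funext j
    fin_cases j
    · show q 0 = (q 3 - κ) / q 4 * q 1
      rw [hn, hb]; ring
    · rfl
    · show q 2 = -(((q 3 - κ) / q 4) ^ 2 * q 1)
      rw [hc, hb]; ring
    · show q 3 = κ + q 4 * ((q 3 - κ) / q 4)
      field_simp; ring
    · rfl
    · show q 5 = -((q 3 - κ) / q 4 * (2 * κ + q 4 * ((q 3 - κ) / q 4)))
      field_simp; linear_combination h2

/-- generic size of a quadratic polynomial -/
theorem generic_quad (a0 a1 a2 : C) :
    ∀ᶠ u in UU C, ‖a0‖ ≤ ‖a0 + a1 * u + a2 * u ^ 2‖ ∧ ‖a1‖ ≤ ‖a0 + a1 * u + a2 * u ^ 2‖ ∧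
      ‖a2‖ ≤ ‖a0 + a1 * u + a2 * u ^ 2‖ := by
  rw [eventually_UU]
  set P : C[X] := Polynomial.C a0 + Polynomial.C a1 * X + Polynomial.C a2 * X ^ 2 with hP
  refine (finite_bad P 1).subset fun u hu => ⟨hu.1, fun h => hu.2 ?_⟩
  have e : P.eval (1 * u) = a0 + a1 * u + a2 * u ^ 2 := by simp [hP]
  have c0 : P.coeff 0 = a0 := by simp [hP]
  have c1 : P.coeff 1 = a1 := by
    simp [hP]
  have c2 : P.coeff 2 = a2 := by
    simp [hP]
  have h0 := h 0
  have h1 := h 1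
  have h2 := h 2
  rw [e, norm_one, one_pow, mul_one] at h0 h1 h2
  rw [c0] at h0
  rw [c1] at h1
  rw [c2] at h2
  exact ⟨h0, h1, h2⟩

variable [IsAlgClosed C] [CharZero C]

/-- moving to the good chart -/
theorem exists_chart {κ : C} (hκ : κ ≠ 0) (h2 : ‖(2 : C)‖ = 1) {F : (Fin 6 → C) → C} (hF : Good F)
    {q : Fin 6 → C} (hq : q ∈ XSt κ) (hne : F q ≠ 0) :
    ∃ b y v, ‖b‖ < 1 ∧ ‖v‖ < 1 ∧ ‖y‖ ≤ 1 ∧ F (pS κ b y v) ≠ 0 := by
  obtain ⟨M, hM0, hM1, hM⟩ := exists_bound hq.1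
  -- a radius
  obtain ⟨R, hR1, hR2⟩ : ∃ R : ℝ, 1 < R ∧ R ^ 2 * M < 1 := by
    have hc : ContinuousAt (fun R : ℝ => R ^ 2 * M) 1 := by fun_prop
    have h3 : (fun R : ℝ => R ^ 2 * M) 1 < 1 := by simpa using hM1
    have h4 : ∀ᶠ R in 𝓝 (1 : ℝ), R ^ 2 * M < 1 := hc.eventually_lt_const h3
    have h5 : ∀ᶠ R in 𝓝[>] (1 : ℝ), R ^ 2 * M < 1 := h4.filter_mono nhdsWithin_le_nhds
    obtain ⟨R, hR, hR'⟩ := (h5.and self_mem_nhdsWithin).exists
    exact ⟨R, hR', hR⟩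
  have hR0 : 0 < R := one_pos.trans hR1
  have gen : ∀ᶠ u in UU C, F (cj q (1 * u)) ≠ 0 := by
    refine hF.generic_disc (Q := cj q) (R2 := R) (cj_lau q) (cj_cont q) ?_ (x0 := 0) ?_
      (by rwa [cj_zero]) one_ne_zero (by rw [norm_one]; exact hR1)
    · intro x hx j
      have hx1 : ∀ j, ‖x * q j‖ < 1 := fun j => by
        rw [norm_mul]
        calc ‖x‖ * ‖q j‖ ≤ R * M := mul_le_mul hx.le (hM j) (norm_nonneg _) hR0.le
          _ ≤ R ^ 2 * M := by
              apply mul_le_mul_of_nonneg_right _ hM0.le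
              nlinarith
          _ < 1 := hR2
      have hx2 : ∀ j, ‖x ^ 2 * q j‖ < 1 := fun j => by
        rw [norm_mul, norm_pow]
        calc ‖x‖ ^ 2 * ‖q j‖ ≤ R ^ 2 * M := mul_le_mul (pow_le_pow_left₀ (norm_nonneg _) hx.le 2)
              (hM j) (norm_nonneg _) (by positivity)
          _ < 1 := hR2
      have hx3 : ∀ j, ‖2 * x * q j‖ < 1 := fun j => by
        rw [mul_assoc]
        exact nmul_lt h2.le (hx1 j)
      fin_cases j
      · exact nadd_lt (hq.1 0) (hx1 2)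
      · exact nsub_lt (nsub_lt (hq.1 1) (hx3 0)) (hx2 2)
      · exact hq.1 2
      · exact nadd_lt (hq.1 3) (hx1 5)
      · exact nsub_lt (nsub_lt (hq.1 4) (hx3 3)) (hx2 5)
      · exact hq.1 5
    · rw [norm_zero]; exact hR0
  have q1 := generic_quad (q 1) (-(2 * q 0)) (-(q 2))
  have q2 := generic_quad (q 4) (-(2 * q 3)) (-(q 5))
  obtain ⟨u, ⟨⟨hu1, hu2⟩, hu3⟩, huT⟩ := (((gen.and q1).and q2).and UU_mem).exists
  rw [one_mul] at hu1
  have hun : ‖u‖ = 1 := TU.norm huT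
  have e1 : q 1 + -(2 * q 0) * u + -(q 2) * u ^ 2 = cj q u 1 := by
    show _ = q 1 - 2 * u * q 0 - u ^ 2 * q 2
    ring
  have e2 : q 4 + -(2 * q 3) * u + -(q 5) * u ^ 2 = cj q u 4 := by
    show _ = q 4 - 2 * u * q 3 - u ^ 2 * q 5
    ring
  rw [e1, norm_neg, norm_neg, norm_mul, h2, one_mul] at hu2
  rw [e2, norm_neg, norm_neg, norm_mul, h2, one_mul] at hu3
  have hcq := cj_XSt hq hun.le
  have hchart : (cj q u 1 ≠ 0 ∧ ‖cj q u 0‖ ≤ ‖cj q u 1‖) ∨ (cj q u 0 = 0 ∧ cj q u 1 = 0 ∧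
      cj q u 2 = 0 ∧ cj q u 4 ≠ 0 ∧ ‖cj q u 3 - κ‖ ≤ ‖cj q u 4‖) := by
    by_cases hb : cj q u 1 = 0
    · right
      rw [hb, norm_zero] at hu2
      have z1 : q 1 = 0 := norm_le_zero_iff.mp hu2.1
      have z0 : q 0 = 0 := norm_le_zero_iff.mp hu2.2.1
      have z2 : q 2 = 0 := norm_le_zero_iff.mp hu2.2.2
      have hκn : ‖κ‖ ≤ ‖cj q u 4‖ := by
        have h3 : ‖κ‖ ^ 2 ≤ ‖cj q u 4‖ ^ 2 := by
          rw [← norm_pow, ← hq.2.2.1]
          refine (IsUltrametricDist.norm_add_le_max _ _).trans (max_le ?_ ?_)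
          · rw [norm_pow]
            exact pow_le_pow_left₀ (norm_nonneg _) hu3.2.1 2
          · rw [norm_mul, pow_two]
            exact mul_le_mul hu3.1 hu3.2.2 (norm_nonneg _) (norm_nonneg _)
        exact (pow_le_pow_iff_left₀ (norm_nonneg _) (norm_nonneg _) two_ne_zero).mp h3
      refine ⟨?_, hb, ?_, ?_, ?_⟩
      · show q 0 + u * q 2 = 0
        rw [z0, z2]; ring
      · exact z2
      · intro h0
        rw [h0, norm_zero] at hκn
        exact hκ (norm_le_zero_iff.mp hκn)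
      · refine (nsub_le_max _ _).trans (max_le ?_ hκn)
        show ‖q 3 + u * q 5‖ ≤ _
        refine (IsUltrametricDist.norm_add_le_max _ _).trans (max_le hu3.2.1 ?_)
        rw [norm_mul, hun, one_mul]
        exact hu3.2.2
    · left
      refine ⟨hb, ?_⟩
      show ‖q 0 + u * q 2‖ ≤ _
      refine (IsUltrametricDist.norm_add_le_max _ _).trans (max_le hu2.2.1 ?_)
      rw [norm_mul, hun, one_mul]
      exact hu2.2.2
  obtain ⟨y, hy, hy'⟩ := exists_pS hcq hchart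
  exact ⟨cj q u 1, y, cj q u 4, hcq.1 1, hcq.1 4, hy, by rw [← hy']; exact hu1⟩

theorem XSt_generic {κ : C} (hκ : κ ≠ 0) (hκ1 : ‖κ‖ < 1) (h2 : ‖(2 : C)‖ = 1)
    {F : (Fin 6 → C) → C} (hF : Good F) {q : Fin 6 → C} (hq : q ∈ XSt κ) (hne : F q ≠ 0) :
    ∀ᶠ u1 in UU C, ∀ᶠ u2 in UU C, ∀ᶠ u3 in UU C, F (pS κ (κ * u2) u3 (κ * u1)) ≠ 0 := by
  obtain ⟨b, y, v, hb, hv, hy, hne⟩ := exists_chart hκ h2 hF hq hne
  have hn : ∀ u ∈ TU C, ‖κ * u‖ < 1 := fun u hu => by rw [norm_mul, TU.norm hu, mul_one]; exact hκ1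
  have hy2 : ‖y ^ 2‖ ≤ 1 := by rw [norm_pow]; exact pow_le_one₀ (norm_nonneg _) hy
  have hylt : ∀ b v : C, ‖b‖ < 1 → ‖v‖ < 1 → ∀ j, ‖pS κ b y v j‖ < 1 := fun b v hb hv =>
    pS_norm hκ1 hb hv (nmul_lt hy hb) (nmul_lt hy2 hb) (by rw [mul_comm]; exact nmul_lt hy hv)
      (nmul_lt hy (nmul_lt h2.le hκ1)) (nmul_lt hy (by rw [mul_comm]; exact nmul_lt hy hv))
  have st1 : ∀ᶠ u1 in UU C, F (pS κ b y (κ * u1)) ≠ 0 := by
    refine hF.generic_disc (Q := fun x => pS κ b y x) (R2 := 1) ?_ ?_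
      (fun x hx => hylt b x hb hx) (x0 := v) hv hne hκ hκ1
    · intro i
      fin_cases i
      · exact IsLau.const _
      · exact IsLau.const _
      · exact IsLau.const _
      · exact (IsLau.const _).add (IsLau.id.mul (IsLau.const _))
      · exact IsLau.id
      · exact ((IsLau.const _).mul ((IsLau.const _).add (IsLau.id.mul (IsLau.const _)))).neg
    · intro i
      apply Continuous.continuousAt
      fin_cases i
      · exact continuous_const
      · exact continuous_const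
      · exact continuous_const
      · show Continuous fun x => κ + x * y
        fun_prop
      · exact continuous_id
      · show Continuous fun x => -(y * (2 * κ + x * y))
        fun_prop
  refine (st1.and UU_mem).mono fun u1 hu1 => ?_
  have hv1 := hn u1 hu1.2
  have st2 : ∀ᶠ u2 in UU C, F (pS κ (κ * u2) y (κ * u1)) ≠ 0 := by
    refine hF.generic_disc (Q := fun x => pS κ x y (κ * u1)) (R2 := 1) ?_ ?_
      (fun x hx => hylt x _ hx hv1) (x0 := b) hb hu1.1 hκ hκ1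
    · intro i
      fin_cases i
      · exact (IsLau.const _).mul IsLau.id
      · exact IsLau.id
      · exact ((IsLau.const _).mul IsLau.id).neg
      · exact IsLau.const _
      · exact IsLau.const _
      · exact IsLau.const _
    · intro i
      apply Continuous.continuousAt
      fin_cases i
      · show Continuous fun x => y * x
        fun_prop
      · exact continuous_id
      · show Continuous fun x => -(y ^ 2 * x)
        fun_prop
      · exact continuous_const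
      · exact continuous_const
      · exact continuous_const
  refine (st2.and UU_mem).mono fun u2 hu2 => ?_
  have hb1 := hn u2 hu2.2
  have hκ0 : 0 < ‖κ‖ := norm_pos_iff.mpr hκ
  -- a radius
  obtain ⟨R, hR1, hR2⟩ : ∃ R : ℝ, 1 < R ∧ R ^ 2 * ‖κ‖ < 1 := by
    have hc : ContinuousAt (fun R : ℝ => R ^ 2 * ‖κ‖) 1 := by fun_prop
    have h3 : (fun R : ℝ => R ^ 2 * ‖κ‖) 1 < 1 := by simpa using hκ1
    have h4 : ∀ᶠ R in 𝓝 (1 : ℝ), R ^ 2 * ‖κ‖ < 1 := hc.eventually_lt_const h3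
    have h5 : ∀ᶠ R in 𝓝[>] (1 : ℝ), R ^ 2 * ‖κ‖ < 1 := h4.filter_mono nhdsWithin_le_nhds
    obtain ⟨R, hR, hR'⟩ := (h5.and self_mem_nhdsWithin).exists
    exact ⟨R, hR', hR⟩
  have hR0 : 0 < R := one_pos.trans hR1
  have e1 : ‖κ * u1‖ = ‖κ‖ := by rw [norm_mul, TU.norm hu1.2, mul_one]
  have e2 : ‖κ * u2‖ = ‖κ‖ := by rw [norm_mul, TU.norm hu2.2, mul_one]
  have st3 : ∀ᶠ u3 in UU C, F (pS κ (κ * u2) (1 * u3) (κ * u1)) ≠ 0 := by
    refine hF.generic_disc (Q := fun x => pS κ (κ * u2) x (κ * u1)) (R2 := R) ?_ ?_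
      ?_ (x0 := y) (hy.trans_lt hR1) hu2.1 one_ne_zero (by rw [norm_one]; exact hR1)
    · intro i
      fin_cases i
      · exact IsLau.id.mul (IsLau.const _)
      · exact IsLau.const _
      · exact ((IsLau.id.pow 2).mul (IsLau.const _)).neg
      · exact (IsLau.const _).add ((IsLau.const _).mul IsLau.id)
      · exact IsLau.const _
      · exact (IsLau.id.mul ((IsLau.const _).add ((IsLau.const _).mul IsLau.id))).neg
    · intro i
      apply Continuous.continuousAt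
      fin_cases i
      · show Continuous fun x => x * (κ * u2)
        fun_prop
      · exact continuous_const
      · show Continuous fun x => -(x ^ 2 * (κ * u2))
        fun_prop
      · show Continuous fun x => κ + κ * u1 * x
        fun_prop
      · exact continuous_const
      · show Continuous fun x => -(x * (2 * κ + κ * u1 * x))
        fun_prop
    · intro x hx
      have a1 : ∀ a : C, ‖a‖ ≤ ‖κ‖ → ‖x * a‖ < 1 := fun a ha => by
        rw [norm_mul]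
        calc ‖x‖ * ‖a‖ ≤ R * ‖κ‖ := mul_le_mul hx.le ha (norm_nonneg _) hR0.le
          _ ≤ R ^ 2 * ‖κ‖ := by
              apply mul_le_mul_of_nonneg_right _ hκ0.le
              nlinarith
          _ < 1 := hR2
      have a2 : ∀ a : C, ‖a‖ ≤ ‖κ‖ → ‖x ^ 2 * a‖ < 1 := fun a ha => by
        rw [norm_mul, norm_pow]
        calc ‖x‖ ^ 2 * ‖a‖ ≤ R ^ 2 * ‖κ‖ := mul_le_mul (pow_le_pow_left₀ (norm_nonneg _) hx.le 2)
              ha (norm_nonneg _) (by positivity)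
          _ < 1 := hR2
      refine pS_norm hκ1 hb1 hv1 (a1 _ e2.le) (a2 _ e2.le) (by rw [mul_comm]; exact a1 _ e1.le)
        (a1 _ (by rw [norm_mul, h2, one_mul])) ?_
      have e3 : x * (κ * u1 * x) = x ^ 2 * (κ * u1) := by ring
      rw [e3]
      exact a2 _ e1.le
  simpa only [one_mul] using st3

theorem irr_XSt {κ : C} (hκ : κ ≠ 0) (hκ1 : ‖κ‖ < 1) (h2 : ‖(2 : C)‖ = 1) : Irr (XSt κ) := by
  rintro F G hF hG ⟨P, hP, hPF⟩ ⟨P', hP', hPG⟩
  obtain ⟨u1, ⟨h1, h1'⟩, hu1⟩ := (((XSt_generic hκ hκ1 h2 hF hP hPF).and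
    (XSt_generic hκ hκ1 h2 hG hP' hPG)).and UU_mem).exists
  obtain ⟨u2, ⟨h1, h1'⟩, hu2⟩ := ((h1.and h1').and UU_mem).exists
  obtain ⟨u3, ⟨h1, h1'⟩, hu3⟩ := ((h1.and h1').and UU_mem).exists
  have hn : ∀ u ∈ TU C, ‖κ * u‖ < 1 := fun u hu => by rw [norm_mul, TU.norm hu, mul_one]; exact hκ1
  have hb := hn u2 hu2
  have hv := hn u1 hu1
  have hy : ‖u3‖ ≤ 1 := (TU.norm hu3).le
  have hy2 : ‖u3 ^ 2‖ ≤ 1 := by rw [norm_pow]; exact pow_le_one₀ (norm_nonneg _) hy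
  exact ⟨_, pS_mem (pS_norm hκ1 hb hv (nmul_lt hy hb) (nmul_lt hy2 hb)
    (by rw [mul_comm]; exact nmul_lt hy hv) (nmul_lt hy (nmul_lt h2.le hκ1))
    (nmul_lt hy (by rw [mul_comm]; exact nmul_lt hy hv))), h1, h1'⟩

end Fermat.Agent.TWLoc
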