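import Fermat.Agent.TWLoc.Good

set_option autoImplicit false
set_option linter.style.haveILetI false

/-! The local types and their irreducibility. -/

namespace Fermat.Agent.TWLoc

open Filter Topology

variable {C : Type*} [NontriviallyNormedField C] [IsUltrametricDist C]

/-- type `χ`: `Z ∥ W` and `Z² = E` -/
def XE (E : C) : Set (Fin 6 → C) := {q | (∀ j, ‖q j‖ < 1) ∧ q 0 ^ 2 + q 1 * q 2 = E ∧
  q 0 * q 4 = q 1 * q 3 ∧ q 0 * q 5 = q 2 * q 3 ∧ q 1 * q 5 = q 2 * q 4}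

variable (C) in
/-- unramified -/
def Xun : Set (Fin 6 → C) := {q | (∀ j, ‖q j‖ < 1) ∧ q 0 = 0 ∧ q 1 = 0 ∧ q 2 = 0}

/-- Steinberg -/
def XSt (κ : C) : Set (Fin 6 → C) := {q | (∀ j, ‖q j‖ < 1) ∧ q 0 ^ 2 + q 1 * q 2 = 0 ∧
  q 3 ^ 2 + q 4 * q 5 = κ ^ 2 ∧ q 3 * q 0 + q 4 * q 2 = κ * q 0 ∧ q 3 * q 1 - q 4 * q 0 = κ * q 1 ∧
  q 5 * q 0 - q 3 * q 2 = κ * q 2 ∧ q 3 * q 0 + q 5 * q 1 = -κ * q 0}

/-- unipotent conjugation -/
def cj (q : Fin 6 → C) (x : C) : Fin 6 → C :=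
  ![q 0 + x * q 2, q 1 - 2 * x * q 0 - x ^ 2 * q 2, q 2, q 3 + x * q 5,
    q 4 - 2 * x * q 3 - x ^ 2 * q 5, q 5]

theorem norm_two_le : ‖(2 : C)‖ ≤ 1 := by
  have := IsUltrametricDist.norm_natCast_le_one C 2
  simpa using this

theorem nadd_lt {a b : C} {M : ℝ} (ha : ‖a‖ < M) (hb : ‖b‖ < M) : ‖a + b‖ < M :=
  (IsUltrametricDist.norm_add_le_max _ _).trans_lt (max_lt ha hb)

theorem nsub_lt {a b : C} {M : ℝ} (ha : ‖a‖ < M) (hb : ‖b‖ < M) : ‖a - b‖ < M :=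
  (nsub_le_max _ _).trans_lt (max_lt ha hb)

omit [IsUltrametricDist C] in
theorem nmul_lt {a b : C} (ha : ‖a‖ ≤ 1) (hb : ‖b‖ < 1) : ‖a * b‖ < 1 := by
  rw [norm_mul]
  exact (mul_le_of_le_one_left (norm_nonneg _) ha).trans_lt hb

theorem cj_norm {q : Fin 6 → C} {x : C} {M : ℝ} (hq : ∀ j, ‖q j‖ < M) (hx : ‖x‖ ≤ 1) (j : Fin 6) :
    ‖cj q x j‖ < M := by
  have hm : ∀ (a : C) (j : Fin 6), ‖a‖ ≤ 1 → ‖a * q j‖ < M := fun a j ha => by
    rw [norm_mul]
    exact (mul_le_of_le_one_left (norm_nonneg _) ha).trans_lt (hq j)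
  have h2x : ‖2 * x‖ ≤ 1 := by
    rw [norm_mul]
    exact mul_le_one₀ norm_two_le (norm_nonneg _) hx
  have hx2 : ‖x ^ 2‖ ≤ 1 := by
    rw [norm_pow]; exact pow_le_one₀ (norm_nonneg _) hx
  fin_cases j
  · exact nadd_lt (hq 0) (hm x 2 hx)
  · exact nsub_lt (nsub_lt (hq 1) (hm _ 0 h2x)) (hm _ 2 hx2)
  · exact hq 2
  · exact nadd_lt (hq 3) (hm x 5 hx)
  · exact nsub_lt (nsub_lt (hq 4) (hm _ 3 h2x)) (hm _ 5 hx2)
  · exact hq 5

theorem cj_XE {E : C} {q : Fin 6 → C} (hq : q ∈ XE E) {x : C} (hx : ‖x‖ ≤ 1) : cj q x ∈ XE E := by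
  obtain ⟨h0, h1, h2, h3, h4⟩ := hq
  refine ⟨cj_norm h0 hx, ?_, ?_, ?_, ?_⟩
  · show (q 0 + x * q 2) ^ 2 + (q 1 - 2 * x * q 0 - x ^ 2 * q 2) * q 2 = E
    linear_combination h1
  · show (q 0 + x * q 2) * (q 4 - 2 * x * q 3 - x ^ 2 * q 5) =
      (q 1 - 2 * x * q 0 - x ^ 2 * q 2) * (q 3 + x * q 5)
    linear_combination h2 - x * h4 + x ^ 2 * h3
  · show (q 0 + x * q 2) * q 5 = q 2 * (q 3 + x * q 5)
    linear_combination h3
  · show (q 1 - 2 * x * q 0 - x ^ 2 * q 2) * q 5 = q 2 * (q 4 - 2 * x * q 3 - x ^ 2 * q 5)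
    linear_combination h4 - 2 * x * h3

theorem cj_XSt {κ : C} {q : Fin 6 → C} (hq : q ∈ XSt κ) {x : C} (hx : ‖x‖ ≤ 1) :
    cj q x ∈ XSt κ := by
  obtain ⟨h0, h1, h2, h3, h4, h5, h6⟩ := hq
  refine ⟨cj_norm h0 hx, ?_, ?_, ?_, ?_, ?_, ?_⟩
  · show (q 0 + x * q 2) ^ 2 + (q 1 - 2 * x * q 0 - x ^ 2 * q 2) * q 2 = 0
    linear_combination h1
  · show (q 3 + x * q 5) ^ 2 + (q 4 - 2 * x * q 3 - x ^ 2 * q 5) * q 5 = κ ^ 2
    linear_combination h2
  · show (q 3 + x * q 5) * (q 0 + x * q 2) + (q 4 - 2 * x * q 3 - x ^ 2 * q 5) * q 2 =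
      κ * (q 0 + x * q 2)
    linear_combination h3 + x * h5
  · show (q 3 + x * q 5) * (q 1 - 2 * x * q 0 - x ^ 2 * q 2) -
      (q 4 - 2 * x * q 3 - x ^ 2 * q 5) * (q 0 + x * q 2) =
      κ * (q 1 - 2 * x * q 0 - x ^ 2 * q 2)
    linear_combination h4 + x * (h6 - h3) - x ^ 2 * h5
  · show q 5 * (q 0 + x * q 2) - (q 3 + x * q 5) * q 2 = κ * q 2
    linear_combination h5
  · show (q 3 + x * q 5) * (q 0 + x * q 2) + q 5 * (q 1 - 2 * x * q 0 - x ^ 2 * q 2) =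
      -κ * (q 0 + x * q 2)
    linear_combination h6 - x * h5

omit [IsUltrametricDist C] in
theorem cj_zero (q : Fin 6 → C) : cj q 0 = q := by
  funext j
  fin_cases j <;> simp [cj]

omit [IsUltrametricDist C] in
theorem cj_lau (q : Fin 6 → C) (j : Fin 6) : IsLau fun x => cj q x j := by
  fin_cases j
  · exact (IsLau.const _).add (IsLau.id.mul (IsLau.const _))
  · exact ((IsLau.const _).sub (((IsLau.const _).mul IsLau.id).mul (IsLau.const _))).sub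
      ((IsLau.id.pow 2).mul (IsLau.const _))
  · exact IsLau.const _
  · exact (IsLau.const _).add (IsLau.id.mul (IsLau.const _))
  · exact ((IsLau.const _).sub (((IsLau.const _).mul IsLau.id).mul (IsLau.const _))).sub
      ((IsLau.id.pow 2).mul (IsLau.const _))
  · exact IsLau.const _

omit [IsUltrametricDist C] in
theorem cj_cont (q : Fin 6 → C) (j : Fin 6) : ContinuousAt (fun x => cj q x j) 0 := by
  apply Continuous.continuousAt
  fin_cases j
  · show Continuous fun x => q 0 + x * q 2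
    fun_prop
  · show Continuous fun x => q 1 - 2 * x * q 0 - x ^ 2 * q 2
    fun_prop
  · show Continuous fun x => q 2
    fun_prop
  · show Continuous fun x => q 3 + x * q 5
    fun_prop
  · show Continuous fun x => q 4 - 2 * x * q 3 - x ^ 2 * q 5
    fun_prop
  · show Continuous fun x => q 5
    fun_prop

/-- the chart of type `χ` -/
noncomputable def pE (E n b r : C) : Fin 6 → C :=
  ![n, b, (E - n ^ 2) / b, r * n, r * b, r * ((E - n ^ 2) / b)]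

omit [IsUltrametricDist C] in
theorem pE_mem {E n b r : C} (hb : b ≠ 0) (h : ∀ j, ‖pE E n b r j‖ < 1) : pE E n b r ∈ XE E := by
  refine ⟨h, ?_, ?_, ?_, ?_⟩
  · show n ^ 2 + b * ((E - n ^ 2) / b) = E
    field_simp; ring
  · show n * (r * b) = b * (r * n)
    ring
  · show n * (r * ((E - n ^ 2) / b)) = (E - n ^ 2) / b * (r * n)
    ring
  · show b * (r * ((E - n ^ 2) / b)) = (E - n ^ 2) / b * (r * b)
    ring

omit [IsUltrametricDist C] in
theorem exists_pE {E : C} {q : Fin 6 → C} (hq : q ∈ XE E) (hb : q 1 ≠ 0) :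
    q = pE E (q 0) (q 1) (q 4 / q 1) := by
  obtain ⟨h0, h1, h2, h3, h4⟩ := hq
  have hc : (E - q 0 ^ 2) / q 1 = q 2 := by
    rw [div_eq_iff hb]; linear_combination -h1
  funext j
  fin_cases j
  · rfl
  · rfl
  · exact hc.symm
  · show q 3 = q 4 / q 1 * q 0
    field_simp; linear_combination -h2
  · show q 4 = q 4 / q 1 * q 1
    field_simp
  · show q 5 = q 4 / q 1 * ((E - q 0 ^ 2) / q 1)
    rw [hc]
    field_simp; linear_combination h4

variable [IsAlgClosed C] [CharZero C]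

omit [IsAlgClosed C] in
theorem exists_b_ne {E : C} (hE : E ≠ 0) {F : (Fin 6 → C) → C} (hF : Good F) {q : Fin 6 → C}
    (hq : q ∈ XE E) (hne : F q ≠ 0) : ∃ q' ∈ XE E, q' 1 ≠ 0 ∧ F q' ≠ 0 := by
  by_cases hb : q 1 = 0
  · have hn : q 0 ≠ 0 := by
      intro h
      apply hE
      rw [← hq.2.1, h, hb]; ring
    have h2n : 0 < ‖2 * q 0‖ := norm_pos_iff.mpr (mul_ne_zero two_ne_zero hn)
    obtain ⟨x, hx0, hx, hx1⟩ := hF.nonzero (Q := cj q) (cj_cont q) (by rw [cj_zero]; exact hq.1)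
      (by rwa [cj_zero]) (δ := min 1 ‖2 * q 0‖) (lt_min one_pos h2n)
    have hx2 : ‖x‖ < ‖2 * q 0‖ := hx.trans_le (min_le_right _ _)
    refine ⟨cj q x, cj_XE hq (hx.trans_le (min_le_left _ _)).le, ?_, hx1⟩
    show q 1 - 2 * x * q 0 - x ^ 2 * q 2 ≠ 0
    rw [hb]
    have e : 0 - 2 * x * q 0 - x ^ 2 * q 2 = -(x * (2 * q 0 + x * q 2)) := by ring
    rw [e]
    refine neg_ne_zero.mpr (mul_ne_zero hx0 ?_)
    intro h
    have h3 : ‖2 * q 0‖ = ‖x * q 2‖ := by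
      rw [eq_neg_of_add_eq_zero_left h, norm_neg]
    rw [norm_mul x] at h3
    have h4 : ‖x‖ * ‖q 2‖ ≤ ‖x‖ * 1 := mul_le_mul_of_nonneg_left (hq.1 2).le (norm_nonneg _)
    rw [mul_one, ← h3] at h4
    exact absurd hx2 (not_lt.mpr h4)
  · exact ⟨q, hq, hb, hne⟩

theorem XE_generic {E : C} (hE : E ≠ 0) (hE1 : ‖E‖ < 1) {F : (Fin 6 → C) → C} (hF : Good F)
    {q : Fin 6 → C} (hq : q ∈ XE E) (hne : F q ≠ 0) :
    ∃ R : ℝ, R < 1 ∧ ∀ ϖ : C, R < ‖ϖ‖ → ‖E‖ < ‖ϖ‖ → ‖ϖ‖ < 1 → ∀ᶠ u1 in UU C, ∀ᶠ u2 in UU C,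
      ∀ᶠ u3 in UU C, F (pE E (E * u3) (ϖ * u2) u1) ≠ 0 := by
  obtain ⟨q, hq, hb, hne⟩ := exists_b_ne hE hF hq hne
  rw [exists_pE hq hb] at hne
  have hE0 : 0 < ‖E‖ := norm_pos_iff.mpr hE
  set n := q 0 with hn
  set b := q 1 with hb'
  set r := q 4 / b with hr
  have hc : (E - n ^ 2) / b = q 2 := by
    rw [div_eq_iff hb]; linear_combination -hq.2.1
  have hn1 : ‖n‖ < 1 := hq.1 0
  have hb1 : ‖b‖ < 1 := hq.1 1
  have hc1 : ‖(E - n ^ 2) / b‖ < 1 := by rw [hc]; exact hq.1 2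
  have hb0 : 0 < ‖b‖ := norm_pos_iff.mpr hb
  have hq' := exists_pE hq hb
  have hrn : ‖r * n‖ < 1 := by
    have : q 3 = r * n := congrFun hq' 3
    rw [← this]; exact hq.1 3
  have hrb : ‖r * b‖ < 1 := by
    have : q 4 = r * b := congrFun hq' 4
    rw [← this]; exact hq.1 4
  have hrc : ‖r * ((E - n ^ 2) / b)‖ < 1 := by
    have : q 5 = r * ((E - n ^ 2) / b) := congrFun hq' 5
    rw [← this]; exact hq.1 5
  refine ⟨‖n‖ ^ 2, pow_lt_one₀ (norm_nonneg _) hn1 two_ne_zero, fun ϖ hϖR hϖE hϖ1 => ?_⟩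
  have hϖ0' : 0 < ‖ϖ‖ := hE0.trans hϖE
  have hϖ0 : ϖ ≠ 0 := norm_pos_iff.mp hϖ0'
  -- step `r`
  set Mx := max (max ‖n‖ ‖b‖) ‖(E - n ^ 2) / b‖ with hMx
  have hMx1 : Mx < 1 := max_lt (max_lt hn1 hb1) hc1
  have hMx0 : 0 < Mx := lt_max_of_lt_left (lt_max_of_lt_right hb0)
  have st1 : ∀ᶠ u1 in UU C, F (pE E n b (1 * u1)) ≠ 0 := by
    refine hF.generic_disc (Q := fun x => pE E n b x) (R2 := Mx⁻¹) ?_ ?_ ?_ (x0 := r) ?_ hne
      one_ne_zero ?_
    · intro i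
      fin_cases i
      · exact IsLau.const _
      · exact IsLau.const _
      · exact IsLau.const _
      · exact IsLau.id.mul (IsLau.const _)
      · exact IsLau.id.mul (IsLau.const _)
      · exact IsLau.id.mul (IsLau.const _)
    · intro i
      apply Continuous.continuousAt
      fin_cases i
      · exact continuous_const
      · exact continuous_const
      · exact continuous_const
      · exact continuous_id.mul continuous_const
      · exact continuous_id.mul continuous_const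
      · exact continuous_id.mul continuous_const
    · intro x hx i
      have hx' : ‖x‖ * Mx < 1 := by rwa [← one_div, lt_div_iff₀ hMx0] at hx
      have hm : ∀ a : C, ‖a‖ ≤ Mx → ‖x * a‖ < 1 := fun a ha => by
        rw [norm_mul]
        exact (mul_le_mul_of_nonneg_left ha (norm_nonneg _)).trans_lt hx'
      have a1 : ‖n‖ ≤ Mx := (le_max_left _ _).trans (le_max_left _ _)
      have a2 : ‖b‖ ≤ Mx := (le_max_right _ _).trans (le_max_left _ _)
      have a3 : ‖(E - n ^ 2) / b‖ ≤ Mx := le_max_right _ _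
      fin_cases i
      · exact hn1
      · exact hb1
      · exact hc1
      · exact hm _ a1
      · exact hm _ a2
      · exact hm _ a3
    · rw [← one_div, lt_div_iff₀ hMx0, hMx, mul_max_of_nonneg _ _ (norm_nonneg _),
        mul_max_of_nonneg _ _ (norm_nonneg _), ← norm_mul, ← norm_mul, ← norm_mul]
      exact max_lt (max_lt hrn hrb) hrc
    · rw [norm_one]
      exact (one_lt_inv₀ hMx0).mpr hMx1
  have hEn : ‖E - n ^ 2‖ < ‖ϖ‖ := nsub_lt hϖE (by rw [norm_pow]; exact hϖR)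
  refine (st1.and UU_mem).mono fun u1 hu1 => ?_
  obtain ⟨hu1, hu1T⟩ := hu1
  rw [one_mul] at hu1
  have hu1n : ‖u1‖ = 1 := TU.norm hu1T
  -- step `b`
  have st2 : ∀ᶠ u2 in UU C, F (pE E n (ϖ * u2) u1) ≠ 0 := by
    refine hF.generic (Q := fun x => pE E n x u1) (R1 := ‖E - n ^ 2‖) (R2 := 1) ?_ ?_ (x0 := b)
      hb ?_ hb1 hu1 hϖ0 hEn hϖ1
    · intro i
      fin_cases i
      · exact IsLau.const _
      · exact IsLau.id
      · exact (IsLau.const _).div_id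
      · exact (IsLau.const _).mul (IsLau.const _)
      · exact (IsLau.const _).mul IsLau.id
      · exact (IsLau.const _).mul (IsLau.const _).div_id
    · intro x hx0 hx1 hx2 i
      have hx0' : 0 < ‖x‖ := norm_pos_iff.mpr hx0
      have hcx : ‖(E - n ^ 2) / x‖ < 1 := by rwa [norm_div, div_lt_one hx0']
      fin_cases i
      · exact hn1
      · exact hx2
      · exact hcx
      · exact nmul_lt hu1n.le hn1
      · exact nmul_lt hu1n.le hx2
      · exact nmul_lt hu1n.le hcx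
    · rwa [norm_div, div_lt_one hb0] at hc1
  refine (st2.and UU_mem).mono fun u2 hu2 => ?_
  obtain ⟨hu2, hu2T⟩ := hu2
  have hb'n : ‖ϖ * u2‖ = ‖ϖ‖ := by rw [norm_mul, TU.norm hu2T, mul_one]
  have hb'0 : ϖ * u2 ≠ 0 := norm_pos_iff.mp (by rw [hb'n]; exact hϖ0')
  -- step `n`
  refine hF.generic_disc (Q := fun x => pE E x (ϖ * u2) u1) (R2 := Real.sqrt ‖ϖ‖) ?_ ?_ ?_
    (x0 := n) ?_ hu2 hE ?_
  · intro i
    have h1 : IsLau fun x : C => (E - x ^ 2) / (ϖ * u2) := by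
      simp only [div_eq_mul_inv]
      exact ((IsLau.const _).sub (IsLau.id.pow 2)).mul (IsLau.const _)
    fin_cases i
    · exact IsLau.id
    · exact IsLau.const _
    · exact h1
    · exact (IsLau.const _).mul IsLau.id
    · exact (IsLau.const _).mul (IsLau.const _)
    · exact (IsLau.const _).mul h1
  · intro i
    apply Continuous.continuousAt
    have h1 : Continuous fun x : C => (E - x ^ 2) / (ϖ * u2) := by fun_prop
    fin_cases i
    · exact continuous_id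
    · exact continuous_const
    · exact h1
    · exact continuous_const.mul continuous_id
    · exact continuous_const
    · exact continuous_const.mul h1
  · intro x hx i
    have hx2 : ‖x‖ ^ 2 < ‖ϖ‖ := by
      rwa [Real.lt_sqrt (norm_nonneg _)] at hx
    have hx1 : ‖x‖ < 1 := by
      have h3 : ‖x‖ ^ 2 < 1 := hx2.trans hϖ1
      exact (pow_lt_one_iff_of_nonneg (norm_nonneg _) two_ne_zero).mp h3
    have hcx : ‖(E - x ^ 2) / (ϖ * u2)‖ < 1 := by
      rw [norm_div, hb'n, div_lt_one hϖ0']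
      exact nsub_lt hϖE (by rwa [norm_pow])
    fin_cases i
    · exact hx1
    · show ‖ϖ * u2‖ < 1
      rw [hb'n]; exact hϖ1
    · exact hcx
    · exact nmul_lt hu1n.le hx1
    · exact nmul_lt hu1n.le (by rw [hb'n]; exact hϖ1)
    · exact nmul_lt hu1n.le hcx
  · rw [Real.lt_sqrt (norm_nonneg _)]; exact hϖR
  · rw [Real.lt_sqrt (norm_nonneg _)]
    have h3 : ‖E‖ ^ 2 ≤ ‖E‖ := by
      rw [pow_two]; exact mul_le_of_le_one_left (norm_nonneg _) hE1.le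
    exact h3.trans_lt hϖE

theorem irr_XE {E : C} (hE : E ≠ 0) (hE1 : ‖E‖ < 1) : Irr (XE E) := by
  rintro F G hF hG ⟨P, hP, hPF⟩ ⟨P', hP', hPG⟩
  obtain ⟨R, hR, h1⟩ := XE_generic hE hE1 hF hP hPF
  obtain ⟨R', hR', h2⟩ := XE_generic hE hE1 hG hP' hPG
  have hE0 : 0 < ‖E‖ := norm_pos_iff.mpr hE
  obtain ⟨ϖ, hϖ1, hϖ2⟩ := exists_norm_between (C := C) (a := max ‖E‖ (max R R')) (b := 1)
    (lt_max_of_lt_left hE0) (max_lt hE1 (max_lt hR hR'))
  have b1 : ‖E‖ < ‖ϖ‖ := (le_max_left _ _).trans_lt hϖ1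
  have b2 : R < ‖ϖ‖ := ((le_max_left _ _).trans (le_max_right _ _)).trans_lt hϖ1
  have b3 : R' < ‖ϖ‖ := ((le_max_right _ _).trans (le_max_right _ _)).trans_lt hϖ1
  obtain ⟨u1, ⟨h1, h2⟩, hu1⟩ := (((h1 ϖ b2 b1 hϖ2).and (h2 ϖ b3 b1 hϖ2)).and UU_mem).exists
  obtain ⟨u2, ⟨h1, h2⟩, hu2⟩ := ((h1.and h2).and UU_mem).exists
  obtain ⟨u3, ⟨h1, h2⟩, hu3⟩ := ((h1.and h2).and UU_mem).exists
  have hϖ0 : 0 < ‖ϖ‖ := hE0.trans b1
  have c1 : ‖ϖ * u2‖ = ‖ϖ‖ := by rw [norm_mul, TU.norm hu2, mul_one]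
  have c2 : ‖E * u3‖ = ‖E‖ := by rw [norm_mul, TU.norm hu3, mul_one]
  have c3 : ‖u1‖ = 1 := TU.norm hu1
  refine ⟨_, pE_mem (norm_pos_iff.mp (by rw [c1]; exact hϖ0)) ?_, h1, h2⟩
  have hcx : ‖(E - (E * u3) ^ 2) / (ϖ * u2)‖ < 1 := by
    rw [norm_div, c1, div_lt_one hϖ0]
    refine nsub_lt b1 ?_
    rw [norm_pow, c2]
    have h3 : ‖E‖ ^ 2 ≤ ‖E‖ := by
      rw [pow_two]; exact mul_le_of_le_one_left (norm_nonneg _) hE1.le
    exact h3.trans_lt b1
  intro i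
  fin_cases i
  · show ‖E * u3‖ < 1
    rw [c2]; exact hE1
  · show ‖ϖ * u2‖ < 1
    rw [c1]; exact hϖ2
  · exact hcx
  · exact nmul_lt c3.le (by rw [c2]; exact hE1)
  · exact nmul_lt c3.le (by rw [c1]; exact hϖ2)
  · exact nmul_lt c3.le hcx

/-- the unramified chart -/
def pU (m v w : C) : Fin 6 → C := ![0, 0, 0, m, v, w]

theorem Xun_generic {F : (Fin 6 → C) → C} (hF : Good F) {q : Fin 6 → C} (hq : q ∈ Xun C)
    (hne : F q ≠ 0) {ϖ : C} (hϖ : ϖ ≠ 0) (hϖ1 : ‖ϖ‖ < 1) : ∀ᶠ u1 in UU C, ∀ᶠ u2 in UU C,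
      ∀ᶠ u3 in UU C, F (pU (ϖ * u1) (ϖ * u2) (ϖ * u3)) ≠ 0 := by
  have hq' : q = pU (q 3) (q 4) (q 5) := by
    funext j
    fin_cases j
    · exact hq.2.1
    · exact hq.2.2.1
    · exact hq.2.2.2
    · rfl
    · rfl
    · rfl
  rw [hq'] at hne
  have hn : ∀ u ∈ TU C, ‖ϖ * u‖ < 1 := fun u hu => by rw [norm_mul, TU.norm hu, mul_one]; exact hϖ1
  have h0 : ‖(0 : C)‖ < 1 := by rw [norm_zero]; exact one_pos
  have st1 : ∀ᶠ u1 in UU C, F (pU (ϖ * u1) (q 4) (q 5)) ≠ 0 := by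
    refine hF.generic_disc (Q := fun x => pU x (q 4) (q 5)) (R2 := 1) ?_ ?_ ?_ (x0 := q 3)
      (hq.1 3) hne hϖ hϖ1
    · intro i
      fin_cases i
      exacts [IsLau.const _, IsLau.const _, IsLau.const _, IsLau.id, IsLau.const _, IsLau.const _]
    · intro i
      apply Continuous.continuousAt
      fin_cases i
      exacts [continuous_const, continuous_const, continuous_const, continuous_id,
        continuous_const, continuous_const]
    · intro x hx i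
      fin_cases i
      exacts [h0, h0, h0, hx, hq.1 4, hq.1 5]
  refine (st1.and UU_mem).mono fun u1 hu1 => ?_
  have st2 : ∀ᶠ u2 in UU C, F (pU (ϖ * u1) (ϖ * u2) (q 5)) ≠ 0 := by
    refine hF.generic_disc (Q := fun x => pU (ϖ * u1) x (q 5)) (R2 := 1) ?_ ?_ ?_ (x0 := q 4)
      (hq.1 4) hu1.1 hϖ hϖ1
    · intro i
      fin_cases i
      exacts [IsLau.const _, IsLau.const _, IsLau.const _, IsLau.const _, IsLau.id, IsLau.const _]
    · intro i
      apply Continuous.continuousAt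
      fin_cases i
      exacts [continuous_const, continuous_const, continuous_const, continuous_const,
        continuous_id, continuous_const]
    · intro x hx i
      fin_cases i
      exacts [h0, h0, h0, hn u1 hu1.2, hx, hq.1 5]
  refine (st2.and UU_mem).mono fun u2 hu2 => ?_
  refine hF.generic_disc (Q := fun x => pU (ϖ * u1) (ϖ * u2) x) (R2 := 1) ?_ ?_ ?_ (x0 := q 5)
    (hq.1 5) hu2.1 hϖ hϖ1
  · intro i
    fin_cases i
    exacts [IsLau.const _, IsLau.const _, IsLau.const _, IsLau.const _, IsLau.const _, IsLau.id]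
  · intro i
    apply Continuous.continuousAt
    fin_cases i
    exacts [continuous_const, continuous_const, continuous_const, continuous_const,
      continuous_const, continuous_id]
  · intro x hx i
    fin_cases i
    exacts [h0, h0, h0, hn u1 hu1.2, hn u2 hu2.2, hx]

theorem irr_Xun : Irr (Xun C) := by
  rintro F G hF hG ⟨P, hP, hPF⟩ ⟨P', hP', hPG⟩
  obtain ⟨ϖ, hϖ1, hϖ2⟩ := exists_norm_between (C := C) (a := 1 / 2) (b := 1) (by norm_num)
    (by norm_num)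
  have hϖ : ϖ ≠ 0 := norm_pos_iff.mp (lt_trans (by norm_num) hϖ1)
  obtain ⟨u1, ⟨h1, h2⟩, hu1⟩ := (((Xun_generic hF hP hPF hϖ hϖ2).and
    (Xun_generic hG hP' hPG hϖ hϖ2)).and UU_mem).exists
  obtain ⟨u2, ⟨h1, h2⟩, hu2⟩ := ((h1.and h2).and UU_mem).exists
  obtain ⟨u3, ⟨h1, h2⟩, hu3⟩ := ((h1.and h2).and UU_mem).exists
  have hn : ∀ u ∈ TU C, ‖ϖ * u‖ < 1 := fun u hu => by rw [norm_mul, TU.norm hu, mul_one]; exact hϖ2
  have h0 : ‖(0 : C)‖ < 1 := by rw [norm_zero]; exact one_pos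
  refine ⟨_, ⟨?_, rfl, rfl, rfl⟩, h1, h2⟩
  intro i
  fin_cases i
  exacts [h0, h0, h0, hn u1 hu1, hn u2 hu2, hn u3 hu3]

end Fermat.Agent.TWLoc
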